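import Fermat.Agent.BAD.Mono.Tube

/-!
# The dimension bound for the twisted sections

For a function `y` with divisor `n D` whose two scales differ by `ϖ ^ T` the reductions of
`L(D + m A₀)` lie in two Riemann–Roch spaces `bnd n m H c` cut out by the orders of the
reductions `H` of `y` (`red_mem_bnd`). Their degrees fall short of the expected ones by the excess
`exc` of these orders modulo `n`, whose sum over `n` consecutive shifts is known (`two_sum_exc`).
`Count` compares dimensions to bound it.
-/

set_option autoImplicit false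
set_option linter.unusedSectionVars false

attribute [local instance 10000] SubalgebraClass.toAlgebra HahnSeries.powerSeriesAlgebra

noncomputable section

open AlgebraicCurve

namespace Fermat.BAD

open Fermat.FF Fermat.RED.Model

variable {L : Type*} [Field L] {A : ValuationSubring L}
variable {k : Type*} [Field k] [IsAlgClosed L] [IsAlgClosed k]
variable {F : Type*} [Field F] [Algebra L F]
variable {π : A →+* k} {ι : Bool → F →+* LaurentSeries L}
  {K : IntermediateField k (LaurentSeries k)}
variable [FF.IsFunctionField L F] [FF.IsFunctionField k K]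

/-- The degree as a sum over any finite set containing the support. -/
theorem degree_eq_sum {k' K' : Type*} [Field k'] [Field K'] [Algebra k' K'] [IsAlgClosed k']
    [FF.IsFunctionField k' K'] (D : Divisor k' K') (U : Finset (Place k' K'))
    (h : D.support ⊆ U) : Divisor.degree D = ∑ v ∈ U, D v := by
  classical
  have hD : D = ∑ v ∈ U, Finsupp.single v (D v) := by
    ext w
    simp only [Finsupp.finsetSum_apply, Finsupp.single_apply]
    rw [Finset.sum_ite_eq' U w]
    split
    · rfl
    · next hw => exact Finsupp.notMem_support_iff.mp fun h' => hw (h h')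
  conv_lhs => rw [hD]
  rw [map_sum]
  simp [Divisor.degree_single, deg_eq_one]

namespace Degen

variable (X : Degen π ι K)

/-- The shifted divisor `div H - c S`. -/
def shifted (H : K) (c : ℤ) : Divisor k K :=
  divOf k H - c • ∑ s ∈ X.S, Finsupp.single s (1 : ℤ)

/-- The bound for one reduction. -/
def bnd (n m : ℕ) (H : K) (c : ℤ) : Divisor k K :=
  m • X.B + (X.shifted H c).mapRange (fun a => a / (n : ℤ)) (Int.zero_ediv _)

/-- The excess of the orders of `div H - c S` modulo `n`. -/
def exc (n : ℕ) (H : K) (c : ℤ) : ℤ :=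
  Divisor.degree ((X.shifted H c).mapRange (fun a => a % (n : ℤ)) (Int.zero_emod _))

/-- `div H - c S` at a place. -/
theorem shifted_apply (H : K) (c : ℤ) (v : Place k K) [Decidable (v ∈ X.S)] :
    X.shifted H c v = v.ord H - if v ∈ X.S then c else 0 := by
  rw [shifted, Finsupp.sub_apply, divOf_apply, Finsupp.smul_apply, sum_single_apply]
  split <;> simp

/-- `div H - c S` has degree `-c #S`. -/
theorem degree_shifted (H : K) (c : ℤ) :
    Divisor.degree (X.shifted H c) = -(c * X.S.card) := by
  rw [shifted, map_sub, degree_divOf, map_zsmul, degree_single_sum, smul_eq_mul]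
  ring

/-- The degree of the bound, through the excess. -/
theorem degree_bnd {n : ℕ} (m : ℕ) (H : K) (c : ℤ) :
    (n : ℤ) * Divisor.degree (X.bnd n m H c) =
      (n : ℤ) * m * Divisor.degree X.B - c * X.S.card - X.exc n H c := by
  have h : X.shifted H c = (n : ℤ) • (X.shifted H c).mapRange (fun a => a / (n : ℤ))
      (Int.zero_ediv _) + (X.shifted H c).mapRange (fun a => a % (n : ℤ)) (Int.zero_emod _) := by
    ext v
    simp only [Finsupp.add_apply, Finsupp.smul_apply, Finsupp.mapRange_apply, smul_eq_mul]
    exact (Int.mul_ediv_add_emod _ _).symm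
  have hd := congrArg Divisor.degree h
  rw [X.degree_shifted, map_add, map_zsmul, smul_eq_mul] at hd
  rw [bnd, map_add, map_nsmul, nsmul_eq_mul, exc, mul_add]
  linarith

/-- The excess as a sum over any finite set containing the support and the glued points. -/
theorem exc_eq_sum {n : ℕ} {H : K} {U : Finset (Place k K)} (hU : (divOf k H).support ⊆ U)
    (hSU : X.S ⊆ U) (c : ℤ) : X.exc n H c = ∑ v ∈ U, X.shifted H c v % (n : ℤ) := by
  classical
  rw [exc, degree_eq_sum _ U]
  · simp
  · intro v hv
    rw [Finsupp.mem_support_iff, Finsupp.mapRange_apply] at hv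
    by_contra hvU
    refine hv ?_
    rw [X.shifted_apply, if_neg fun h => hvU (hSU h), ← divOf_apply (K := k),
      Finsupp.notMem_support_iff.mp fun h => hvU (hU h)]
    simp

variable {n : ℕ}

/-- If `z ^ n H` has order at least `c` at the glued points and poles bounded by `n m B` elsewhere
then `z` is a section of `bnd n m H c`. -/
theorem mem_bnd_of_ord (hn : n ≠ 0) {z H : K} (hH : H ≠ 0) {m : ℕ} {c : ℤ}
    (hS : ∀ s ∈ X.S, OrdGE s (z ^ n * H) c)
    (hoff : ∀ v, v ∉ X.S → OrdGE v (z ^ n * H) (-(((n * m : ℕ) : ℤ) * X.B v))) :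
    z ∈ riemannRochSpace (X.bnd n m H c) := by
  classical
  rw [mem_riemannRochSpace]
  intro v
  rcases eq_or_ne z 0 with h0 | h0
  · rw [h0]; exact ordGE_zero _ _
  refine (ordGE_iff_of_ne h0).mpr ?_
  have hne := mul_ne_zero (pow_ne_zero n h0) hH
  have hv : (n : ℤ) * v.ord z + X.shifted H c v ≥ -((n : ℤ) * ((m : ℤ) * X.B v)) := by
    rw [X.shifted_apply]
    by_cases hvS : v ∈ X.S
    · have := (hS v hvS).le_ord hne
      rw [v.ord_mul (pow_ne_zero n h0) hH, FF.ord_pow] at this
      rw [if_pos hvS, X.S_B v hvS]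
      simp only [mul_zero, neg_zero]
      linarith
    · have := (hoff v hvS).le_ord hne
      rw [v.ord_mul (pow_ne_zero n h0) hH, FF.ord_pow] at this
      rw [if_neg hvS]
      push_cast at this ⊢
      linarith
  simp only [bnd, Finsupp.add_apply, Finsupp.smul_apply, Finsupp.mapRange_apply, nsmul_eq_mul]
  have hn' : (0 : ℤ) < n := by exact_mod_cast Nat.pos_of_ne_zero hn
  have h1 := Int.lt_ediv_add_one_mul_self (X.shifted H c v) hn'
  by_contra hlt
  push Not at hlt
  nlinarith

/-- The hypotheses on a function whose scales differ by `ϖ ^ T`. -/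
structure Scaled (n : ℕ) (ϖ : L) (D : Divisor L F) (y : F) (T : ℤ) : Prop where
  /-- `D` is killed by `n`, through `y`. -/
  div_eq : divOf L y = n • D
  /-- `y` is primitive on the first component. -/
  prim_true : X.Prim true y
  /-- `ϖ ^ (-T) y` is primitive on the second. -/
  prim_false : X.Prim false (ϖ ^ (-T) • y)

variable {ϖ : L} {D : Divisor L F} {y : F} {T : ℤ}

/-- Scaled functions are symmetric in the two components, negating the shift. -/
theorem Scaled.flip (hϖ : ϖ ≠ 0) (h : X.Scaled n ϖ D y T) :
    X.flip.Scaled n ϖ D (ϖ ^ (-T) • y) (-T) := by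
  refine ⟨?_, X.flip_prim.mpr h.prim_false, X.flip_prim.mpr ?_⟩
  · rw [← h.div_eq]
    ext v
    rw [divOf_apply, divOf_apply, Algebra.smul_def,
      v.ord_mul ((_root_.map_ne_zero _).mpr (zpow_ne_zero _ hϖ)) h.prim_true.ne_zero,
      FF.ord_algebraMap, zero_add]
  · rw [smul_smul, ← zpow_add₀ hϖ, neg_neg, add_neg_cancel, zpow_zero, one_smul]
    exact h.prim_true

/-- The divisor of a scaled function has degree zero. -/
theorem Scaled.degree_D (hn : n ≠ 0) (h : X.Scaled n ϖ D y T) : Divisor.degree D = 0 := by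
  have := congrArg Divisor.degree h.div_eq
  rw [degree_divOf, map_nsmul, nsmul_eq_mul, eq_comm, mul_eq_zero] at this
  exact this.resolve_left (by exact_mod_cast hn)

/-- The bound on the first reduction of a section, strict if the second vanishes. -/
theorem red_mem_bnd (hn : n ≠ 0) (hϖ : ϖ ≠ 0) (hN : X.Node ϖ) (h : X.Scaled n ϖ D y T) {m : ℕ}
    {g : F} (hg : g ∈ X.sect D m) (hgO : g ∈ X.O) :
    X.red true g ∈ riemannRochSpace (X.bnd n m (X.red true y) T) ∧
      (X.red false g = 0 →
        X.red true g ∈ riemannRochSpace (X.bnd n m (X.red true y) (T + 1))) := by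
  classical
  set f := g ^ n * y with hf
  -- `f = g ^ n y` is a section, integral on both sides after scaling
  have hfm : f ∈ riemannRochSpace ((n * m) • X.A0) := by
    rw [mem_riemannRochSpace]
    intro v
    have hgv := mem_riemannRochSpace.mp hg v
    have hy0 := h.prim_true.ne_zero
    have hyv : v.ord y = (n : ℤ) * D v := by rw [← divOf_apply (K := L), h.div_eq]; simp
    rcases eq_or_ne g 0 with rfl | hg0
    · rw [hf, zero_pow hn, zero_mul]; exact ordGE_zero _ _
    refine (ordGE_iff_of_ne (mul_ne_zero (pow_ne_zero n hg0) hy0)).mpr ?_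
    rw [v.ord_mul (pow_ne_zero n hg0) hy0, FF.ord_pow, hyv]
    have := hgv.le_ord hg0
    simp only [Finsupp.add_apply, Finsupp.smul_apply, nsmul_eq_mul, Nat.cast_mul] at this ⊢
    nlinarith
  have hft : f ∈ gInt π (ι true) := mul_mem (pow_mem (X.int_of_mem_O hgO true) n) h.prim_true.1
  have hsm : ϖ ^ (-T) • f = g ^ n * (ϖ ^ (-T) • y) := by rw [hf, mul_smul_comm]
  have hff : ϖ ^ (-T) • f ∈ gInt π (ι false) :=
    hsm ▸ mul_mem (pow_mem (X.int_of_mem_O hgO false) n) h.prim_false.1
  have hr : X.red true f = X.red true g ^ n * X.red true y := by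
    rw [hf, X.red_mul (pow_mem (X.int_of_mem_O hgO true) n) h.prim_true.1,
      X.red_pow (X.int_of_mem_O hgO true)]
  have hr0 : X.red false g = 0 → X.red false (ϖ ^ (-T) • f) = 0 := fun h0 => by
    rw [hsm, X.red_mul (pow_mem (X.int_of_mem_O hgO false) n) h.prim_false.1,
      X.red_pow (X.int_of_mem_O hgO false), h0, zero_pow hn, zero_mul]
  -- an order bound at the glued points gives the bound on the reduction
  have key : ∀ c : ℤ, (∀ s ∈ X.S, OrdGE s (X.red true f) c) →
      X.red true g ∈ riemannRochSpace (X.bnd n m (X.red true y) c) := fun c hc =>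
    X.mem_bnd_of_ord hn h.prim_true.2 (fun s hs => hr ▸ hc s hs)
      fun v hv => hr ▸ X.ordGE_off hfm hft hv
  refine ⟨key T fun s hs => (X.ordGE_node hϖ hN hfm hft hff hs).1, fun h0 => ?_⟩
  exact key (T + 1) fun s hs => (X.ordGE_node hϖ hN hfm hft hff hs).2 (hr0 h0)

/-- The residues of `n` consecutive integers modulo `n` sum to `n (n - 1) / 2`. -/
theorem two_sum_emod (hn : n ≠ 0) (x : ℤ) :
    2 * ∑ i ∈ Finset.range n, (x - i) % (n : ℤ) = (n : ℤ) * (n - 1) := by
  classical
  -- the sum is unchanged when `x` moves by one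
  have step : ∀ x : ℤ, ∑ i ∈ Finset.range n, (x + 1 - i) % (n : ℤ) =
      ∑ i ∈ Finset.range n, (x - i) % (n : ℤ) := by
    intro x
    have h1 := Finset.sum_range_succ' (fun i : ℕ => (x + 1 - i) % (n : ℤ)) n
    have h2 := Finset.sum_range_succ (fun i : ℕ => (x + 1 - i) % (n : ℤ)) n
    have e : ∀ i : ℕ, x + 1 - ((i + 1 : ℕ) : ℤ) = x - i := fun i => by push_cast; ring
    simp only [e] at h1
    have h3 : (x + 1 - (n : ℤ)) % (n : ℤ) = (x + 1 - ((0 : ℕ) : ℤ)) % (n : ℤ) := by
      rw [Int.sub_emod_right]; simp
    rw [h2, h3] at h1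
    linarith
  -- so we may take `x = n - 1`
  have h : ∑ i ∈ Finset.range n, (x - i) % (n : ℤ) =
      ∑ i ∈ Finset.range n, (((n : ℤ) - 1) - i) % (n : ℤ) := by
    induction x using Int.induction_on with
    | zero =>
      have : ∀ j : ℕ, ∑ i ∈ Finset.range n, ((j : ℤ) - i) % (n : ℤ) =
          ∑ i ∈ Finset.range n, ((0 : ℤ) - i) % (n : ℤ) := by
        intro j
        induction j with
        | zero => simp
        | succ j ih => rw [← ih]; exact_mod_cast step (j : ℤ)
      rw [← this (n - 1), Nat.cast_sub (Nat.one_le_iff_ne_zero.mpr hn)]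
      simp
    | succ x ih => rw [step]; exact ih
    | pred x ih =>
      rw [← ih]
      conv_rhs => rw [show (-(x : ℤ)) = (-(x : ℤ) - 1) + 1 by ring, step]
  -- then the residues are `0, …, n - 1`
  have e : ∀ i ∈ Finset.range n, (((n : ℤ) - 1) - i) % (n : ℤ) = ((n - 1 - i : ℕ) : ℤ) := by
    intro i hi
    rw [Finset.mem_range] at hi
    rw [Int.emod_eq_of_lt (by omega) (by omega)]
    omega
  rw [h, Finset.sum_congr rfl e, Finset.sum_range_reflect (fun i => ((i : ℕ) : ℤ)) n,
    ← Nat.cast_sum]
  have := Finset.sum_range_id_mul_two n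
  zify [Nat.one_le_iff_ne_zero.mpr hn] at this
  push_cast at this ⊢
  linarith

open scoped Classical in
/-- The mean of the excess over all shifts. -/
theorem two_sum_exc (hn : n ≠ 0) {H : K} {U : Finset (Place k K)}
    (hU : (divOf k H).support ⊆ U) (hSU : X.S ⊆ U) (d : ℤ) :
    2 * ∑ i ∈ Finset.range n, X.exc n H (d + i) = (n : ℤ) * (n - 1) * X.S.card +
      2 * n * ∑ v ∈ U.filter (fun v => v ∉ X.S), v.ord H % (n : ℤ) := by
  classical
  simp only [X.exc_eq_sum hU hSU]
  rw [Finset.sum_comm, Finset.mul_sum, ← Finset.sum_filter_add_sum_filter_not U (fun v => v ∈ X.S)]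
  have e1 : U.filter (fun v => v ∈ X.S) = X.S := by
    ext v; simpa using fun h => hSU h
  rw [e1]
  congr 1
  · rw [Finset.sum_congr rfl fun v hv => ?_, Finset.sum_const, nsmul_eq_mul, mul_comm]
    rw [← two_sum_emod hn (v.ord H - d)]
    congr 1
    refine Finset.sum_congr rfl fun i _ => ?_
    rw [X.shifted_apply, if_pos hv, sub_sub]
  · rw [Finset.mul_sum]
    refine Finset.sum_congr rfl fun v hv => ?_
    rw [Finset.mem_filter] at hv
    rw [Finset.sum_congr rfl fun i _ => by rw [X.shifted_apply, if_neg hv.2, sub_zero],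
      Finset.sum_const, Finset.card_range, nsmul_eq_mul]
    ring

end Degen

end Fermat.BAD

end
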