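import Fermat.Agent.BAD.Mono.Count

/-!
# Functions rational over a discretely valued subfield

A subfield `M` of the constants with discrete values and full residue field, and a set of
functions rational over it.  The reductions of the rational sections of a space are at least as
many as the dimension of the space, and an automorphism of `M` moving integers by a multiple of
`ρ ^ 2` moves integral rational functions likewise.
-/

set_option autoImplicit false
set_option linter.unusedSectionVars false

attribute [local instance 10000] SubalgebraClass.toAlgebra HahnSeries.powerSeriesAlgebra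

noncomputable section

namespace Fermat.BAD

open Fermat.RED.Model

variable {L : Type*} [Field L] {A : ValuationSubring L}
variable {k : Type*} [Field k] [IsAlgClosed L] [IsAlgClosed k]
variable {F : Type*} [Field F] [Algebra L F]
variable {π : A →+* k} {ι : Bool → F →+* LaurentSeries L}
  {K : IntermediateField k (LaurentSeries k)}
variable [FF.IsFunctionField L F] [FF.IsFunctionField k K]

variable (π ι) in
/-- A subfield with uniformiser `ρ` and residue field `k`, and the functions rational over it. -/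
structure RatData where
  /-- The subfield of constants. -/
  M : Subfield L
  /-- The uniformiser `ρ` of `M`. -/
  ρ : L
  /-- `ρ` lies in `M`. -/
  ρ_mem : ρ ∈ M
  /-- `ρ` is nonzero. -/
  ρ_ne : ρ ≠ 0
  /-- `ρ` is integral. -/
  ρ_A : ρ ∈ A
  /-- `ρ` reduces to zero. -/
  ρ_small : π ⟨ρ, ρ_A⟩ = 0
  /-- The values of `M` are the powers of that of `ρ`. -/
  value : ∀ a ∈ M, a ≠ 0 → ∃ i : ℤ, a / ρ ^ i ∈ A ∧ ρ ^ i / a ∈ A
  /-- The integers of `M` reduce onto `k`. -/
  surjM : ∀ c : k, ∃ a : A, (a : L) ∈ M ∧ π a = c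
  /-- The functions rational over `M`. -/
  R : Subring F
  /-- They contain `M`. -/
  algebraMap_mem : ∀ a ∈ M, algebraMap L F a ∈ R
  /-- Their expansions have coefficients in `M`. -/
  coeff_mem : ∀ f ∈ R, ∀ b n, (ι b f).coeff n ∈ M

namespace RatData

variable (R : RatData π ι)

/-- Multiples by `M` of rational functions are rational. -/
theorem smul_mem {a : L} (ha : a ∈ R.M) {f : F} (hf : f ∈ R.R) : a • f ∈ R.R := by
  rw [Algebra.smul_def]; exact mul_mem (R.algebraMap_mem a ha) hf

/-- Coefficients of multiples. -/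
theorem coeff_smul {X : Degen π ι K} (b : Bool) (c : L) (f : F) (n : ℤ) :
    (ι b (c • f)).coeff n = c * (ι b f).coeff n := by
  rw [Algebra.smul_def, map_mul, X.ι_algebraMap]
  exact Fermat.RED.coeff_algebraMap_mul c _ n

end RatData

namespace Degen

variable (X : Degen π ι K) (R : RatData π ι)

/-- The coefficients of the reduction of an integral expansion. -/
theorem coe_red_int {b : Bool} {f : F} (h : ι b f ∈ intSeries A) (n : ℤ) :
    (X.red b f : LaurentSeries k).coeff n = π ⟨(ι b f).coeff n, mem_intSeries_iff.mp h n⟩ := by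
  rw [X.red_of_int h]
  change (redF π (ι b) f).coeff n = _
  rw [redF_of_mem h, redHom_coeff]

/-- A rational function with bounded expansion has a primitive rational multiple. -/
theorem exists_rat_prim (b : Bool) {f : F} (hf : f ∈ R.R) (hf0 : f ≠ 0) {a : L} (ha : a ≠ 0)
    (hbd : ι b (a • f) ∈ intSeries A) :
    ∃ c : L, c ∈ R.M ∧ c ≠ 0 ∧ X.Prim b (c • f) ∧ ι b (c • f) ∈ intSeries A := by
  obtain ⟨c', hc', hp⟩ := X.exists_smul_prim b hf0
  have hint : ι b (c' • f) ∈ intSeries A := X.series_int_of_bdd hp.1 (a := a / c')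
    (div_ne_zero ha hc') (by rwa [smul_smul, div_mul_cancel₀ _ hc'])
  obtain ⟨n, hn⟩ : ∃ n, (X.red b (c' • f) : LaurentSeries k).coeff n ≠ 0 := by
    by_contra! h
    exact hp.2 (Subtype.ext (HahnSeries.ext (funext h)))
  rw [X.coe_red_int hint] at hn
  set u : A := ⟨_, mem_intSeries_iff.mp hint n⟩
  have hu : (u : L) = c' * (ι b f).coeff n := RatData.coeff_smul (X := X) b c' f n
  have hu0 : (u : L) ≠ 0 := fun h => hn (by rw [show u = 0 from Subtype.ext h, map_zero])
  have hf0' : (ι b f).coeff n ≠ 0 := fun h => hu0 (by rw [hu, h, mul_zero])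
  have huA : (u : L)⁻¹ ∈ A := by
    by_contra h
    exact hn (X.eq_zero_of_inv_notMem h)
  refine ⟨((ι b f).coeff n)⁻¹, inv_mem (R.coeff_mem f hf b n), inv_ne_zero hf0', ?_, ?_⟩
  all_goals
    rw [show ((ι b f).coeff n)⁻¹ • f = ((⟨_, huA⟩ : A) : L) • (c' • f) by
      rw [smul_smul]; congr 1; change _ = (u : L)⁻¹ * c'; rw [hu]; field_simp]
  · refine ⟨X.int_smul huA hp.1, ?_⟩
    rw [X.red_smul _ hp.1]
    rw [Algebra.smul_def]
    refine mul_ne_zero ((_root_.map_ne_zero _).mpr fun h => ?_) hp.2
    have := congrArg π (show (⟨_, huA⟩ : A) * u = 1 from Subtype.ext (inv_mul_cancel₀ hu0))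
    rw [map_mul, h, zero_mul, map_one] at this
    exact zero_ne_one this
  · rw [Algebra.smul_def, map_mul]
    exact mul_mem (X.series_algebraMap huA) hint

/-- The two scales of a twisted pair. -/
def sc (e : L) : Bool → L := fun b => cond b 1 e

/-- Reductions of the rational elements of `W` integral at the scales `1, e`. -/
def ratImage (W : Submodule L F) (e : L) : Submodule k (Bool → K) where
  carrier := {P | ∃ w ∈ W, w ∈ R.R ∧ ∀ b, sc e b • w ∈ gInt π (ι b) ∧ P b = X.red b (sc e b • w)}
  zero_mem' := ⟨0, zero_mem W, zero_mem _, fun b => ⟨by simp, by simp⟩⟩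
  add_mem' := by
    rintro P P' ⟨g, hg, hgR, hP⟩ ⟨g', hg', hgR', hP'⟩
    refine ⟨g + g', add_mem hg hg', add_mem hgR hgR', fun b => ?_⟩
    rw [smul_add]
    exact ⟨add_mem (hP b).1 (hP' b).1, by rw [Pi.add_apply, (hP b).2, (hP' b).2,
      X.red_add (hP b).1 (hP' b).1]⟩
  smul_mem' := by
    rintro c P ⟨g, hg, hgR, hP⟩
    obtain ⟨a, ha, rfl⟩ := R.surjM c
    refine ⟨(a : L) • g, W.smul_mem _ hg, R.smul_mem ha hgR, fun b => ?_⟩
    rw [smul_comm]
    exact ⟨X.int_smul a.2 (hP b).1, by rw [Pi.smul_apply, (hP b).2, X.red_smul a (hP b).1]⟩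

/-- Membership in `ratImage`. -/
theorem mem_ratImage {W : Submodule L F} {e : L} {P : Bool → K} :
    P ∈ X.ratImage R W e ↔
      ∃ w ∈ W, w ∈ R.R ∧ ∀ b, sc e b • w ∈ gInt π (ι b) ∧ P b = X.red b (sc e b • w) := Iff.rfl

/-- Rational elements reduce to at least as many pairs as the dimension. -/
theorem finrank_le_ratImage {W : Submodule L F} [FiniteDimensional L W] {e : L} (he : e ∈ R.M)
    (he0 : e ≠ 0) (hspan : W ≤ Submodule.span L {w | w ∈ W ∧ w ∈ R.R})
    (hbd : ∀ w ∈ W, ∀ b, ∃ a : L, a ≠ 0 ∧ ι b (a • w) ∈ intSeries A)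
    [FiniteDimensional k (X.ratImage R W e)] :
    Module.finrank L W ≤ Module.finrank k (X.ratImage R W e) := by
  classical
  let cn : Bool × ℤ → (Bool → K) →ₗ[k] k := fun i =>
    { toFun := fun P => (P i.1 : LaurentSeries k).coeff i.2
      map_add' := fun P P' => by rw [Pi.add_apply, AddMemClass.coe_add, HahnSeries.coeff_add]
      map_smul' := fun c P => by
        rw [Pi.smul_apply, X.coe_smul_series, RingHom.id_apply, smul_eq_mul] }
  obtain ⟨S, hS, hsep⟩ := exists_separating_finset cn (fun P hP => funext fun b =>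
    Subtype.ext (HahnSeries.ext (funext fun n => hP (b, n)))) (X.ratImage R W e)
  -- otherwise an `M`-combination of the basis kills all separating coefficients
  by_contra hlt
  push Not at hlt
  obtain ⟨B, hBsub, hBspan, hBind⟩ := exists_linearIndependent L {w : F | w ∈ W ∧ w ∈ R.R}
  have hBW : Submodule.span L B = W := le_antisymm
    (Submodule.span_le.mpr fun w hw => (hBsub hw).1) (hBspan ▸ hspan)
  have : FiniteDimensional L (Submodule.span L B) := hBW ▸ inferInstance
  let emb : B → W := fun w => ⟨(w : F), (hBsub w.2).1⟩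
  have hemb : LinearIndependent L emb := LinearIndependent.of_comp W.subtype hBind
  have : Finite B := hemb.finite
  have := Fintype.ofFinite B
  have hcardB : Fintype.card B = Module.finrank L W := by
    rw [← hBW, ← finrank_span_eq_card (b := fun w : B => (w : F)) hBind, Subtype.range_coe]
  have hscM : ∀ b, sc e b ∈ R.M := fun b => by cases b; exacts [he, R.M.one_mem]
  let v : B → S → R.M := fun w i =>
    ⟨(ι i.1.1 (sc e i.1.1 • (w : F))).coeff i.1.2,
      R.coeff_mem _ (R.smul_mem (hscM _) (hBsub w.2).2) _ _⟩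
  have hdep : ¬ LinearIndependent R.M v := fun h => by
    have h1 := h.fintype_card_le_finrank
    rw [Module.finrank_fintype_fun_eq_card, Fintype.card_coe, hcardB] at h1
    omega
  rw [Fintype.linearIndependent_iff] at hdep
  push Not at hdep
  obtain ⟨g, hg, j, hj⟩ := hdep
  set w : F := ∑ i : B, (g i : L) • (i : F) with hw
  have hwW : w ∈ W := sum_mem fun i _ => W.smul_mem _ (hBsub i.2).1
  have hwR : w ∈ R.R := sum_mem fun i _ => R.smul_mem (g i).2 (hBsub i.2).2
  have hw0 : w ≠ 0 := fun h0 => hj (Subtype.ext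
    (Fintype.linearIndependent_iff.mp hBind (fun i => (g i : L)) h0 j))
  have hzero : ∀ i : S, (ι i.1.1 (sc e i.1.1 • w)).coeff i.1.2 = 0 := fun i => by
    have h1 := congrArg Subtype.val (congrFun hg i)
    rw [RatData.coeff_smul (X := X), hw, map_sum]
    simp only [Finset.sum_apply, Pi.smul_apply, smul_eq_mul] at h1
    push_cast at h1
    rw [show (∑ x : B, ι i.1.1 ((g x : L) • (x : F))).coeff i.1.2 =
      ∑ x : B, (ι i.1.1 ((g x : L) • (x : F))).coeff i.1.2 from map_sum
        (HahnSeries.coeff.addMonoidHom i.1.2) _ _,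
      Finset.mul_sum]
    refine Eq.trans (Finset.sum_congr rfl fun x _ => ?_) h1
    simp only [v, RatData.coeff_smul (X := X)]
    ring
  -- a joint rational scale
  have hsc0 : ∀ b, sc e b ≠ 0 := fun b => by cases b; exacts [he0, one_ne_zero]
  have key : ∀ b, ∃ c : L, c ∈ R.M ∧ c ≠ 0 ∧ X.Prim b (c • sc e b • w) ∧
      ι b (c • sc e b • w) ∈ intSeries A := fun b => by
    obtain ⟨a, ha, hab⟩ := hbd _ (W.smul_mem (sc e b) hwW) b
    exact X.exists_rat_prim R b (R.smul_mem (hscM b) hwR) (smul_ne_zero (hsc0 b) hw0) ha hab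
  choose c hcM hc0 hcP hcI using key
  obtain ⟨b₀, hb₀⟩ : ∃ b₀, ∀ b, c b₀ / c b ∈ A := by
    rcases A.mem_or_inv_mem (c true / c false) with h | h
    · exact ⟨true, fun b => by cases b; exacts [h, by rw [div_self (hc0 _)]; exact one_mem A]⟩
    · exact ⟨false, fun b => by
        cases b; exacts [by rw [div_self (hc0 _)]; exact one_mem A,
          inv_div (c true) (c false) ▸ h]⟩
  have hint : ∀ b, ι b (sc e b • c b₀ • w) ∈ intSeries A := fun b => by
    rw [smul_comm, show c b₀ • sc e b • w = (c b₀ / c b) • (c b • sc e b • w) by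
      rw [smul_smul (c b₀ / c b), div_mul_cancel₀ _ (hc0 b)], Algebra.smul_def, map_mul]
    exact mul_mem (X.series_algebraMap (hb₀ b)) (hcI b)
  have hP : (fun b => X.red b (sc e b • c b₀ • w)) ∈ X.ratImage R W e :=
    ⟨c b₀ • w, W.smul_mem _ hwW, R.smul_mem (hcM b₀) hwR, fun b => ⟨mem_gInt_of_int (hint b), rfl⟩⟩
  have := hsep _ hP fun i hi => by
    change (X.red i.1 (sc e i.1 • c b₀ • w) : LaurentSeries k).coeff i.2 = 0
    rw [X.coe_red_int (hint i.1)]
    refine Eq.trans (congrArg π (Subtype.ext ?_)) (map_zero π)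
    change (ι i.1 (sc e i.1 • c b₀ • w)).coeff i.2 = 0
    rw [smul_comm, RatData.coeff_smul (X := X), hzero ⟨i, hi⟩, mul_zero]
  refine (hcP b₀).2 ?_
  rw [smul_comm]
  exact congrFun this b₀

include X in
/-- An automorphism moving the integers of `M` by multiples of `η` moves integral rational
functions likewise. -/
theorem int_sub_of_move (σ : L →+* L) (s : F → F)
    (hs : ∀ b f n, (ι b (s f)).coeff n = σ ((ι b f).coeff n)) {η : L}
    (hmove : ∀ a ∈ R.M, a ∈ A → (σ a - a) / η ∈ A)
    {b : Bool} {f : F} (hf : f ∈ R.R) (hfi : ι b f ∈ intSeries A) :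
    ι b (η⁻¹ • (s f - f)) ∈ intSeries A := by
  refine mem_intSeries_iff.mpr fun n => ?_
  rw [RatData.coeff_smul (X := X), map_sub, HahnSeries.coeff_sub, hs, inv_mul_eq_div]
  exact hmove _ (R.coeff_mem f hf b n) (mem_intSeries_iff.mp hfi n)

end Degen

end Fermat.BAD

end
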