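import Fermat.Agent.BAD.Mono.Fixed

/-!
# Classes fixed by inertia have congruent residues

A symmetry fixing `D` which multiplies the two scales of a gauge by different roots of unity
splits the reductions of the sections, which is impossible at the shift given by a glued point
(`Fixed`). So with a primitive tame character on an `n`-th root of `ϖ` all orders of the second
reduction are congruent modulo `n`, and opposite to those of the first (`residues_of_fixed`).
-/

set_option autoImplicit false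

attribute [local instance 10000] SubalgebraClass.toAlgebra HahnSeries.powerSeriesAlgebra

noncomputable section

open AlgebraicCurve

namespace Fermat.BAD

open Fermat.FF Fermat.RED.Model

variable {L : Type*} [Field L] {A : ValuationSubring L}
variable {k : Type*} [Field k] [IsAlgClosed L] [IsAlgClosed k]
variable {F : Type*} [Field F] [Algebra L F]
variable {π : A →+* k} {ι : Bool → F →+* LaurentSeries L}
  {K : IntermediateField k (LaurentSeries k)}
variable [FF.IsFunctionField L F] [FF.IsFunctionField k K]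

/-- The tame character of an automorphism preserving all values. -/
def tameChar (π : A →+* k) (σ : L → L) (hσ : ∀ c, c ≠ 0 → σ c / c ∈ A) (c : L) (hc : c ≠ 0) : k :=
  π ⟨σ c / c, hσ c hc⟩

section TameChar

omit [IsAlgClosed L] [IsAlgClosed k]

variable {G : Type*} [FunLike G L L] [MonoidWithZeroHomClass G L L] {σ : G}
  (hσ : ∀ c, c ≠ 0 → σ c / c ∈ A)

/-- The tame character is multiplicative. -/
theorem tameChar_mul {a b : L} (ha : a ≠ 0) (hb : b ≠ 0) :
    tameChar π σ hσ (a * b) (mul_ne_zero ha hb) =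
      tameChar π σ hσ a ha * tameChar π σ hσ b hb := by
  rw [tameChar, tameChar, tameChar, ← map_mul]
  congr 1
  refine Subtype.ext ?_
  change σ (a * b) / (a * b) = σ a / a * (σ b / b)
  rw [map_mul, mul_div_mul_comm]

/-- The tame character of `1` is `1`. -/
theorem tameChar_one : tameChar π σ hσ 1 one_ne_zero = 1 := by
  rw [tameChar, show (⟨σ 1 / 1, hσ 1 one_ne_zero⟩ : A) = 1 from Subtype.ext (by simp), map_one]

/-- The tame character takes inverses to inverses. -/
theorem tameChar_inv {a : L} (ha : a ≠ 0) :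
    tameChar π σ hσ a⁻¹ (inv_ne_zero ha) = (tameChar π σ hσ a ha)⁻¹ := by
  refine eq_inv_of_mul_eq_one_right ?_
  rw [← tameChar_mul hσ ha (inv_ne_zero ha), ← tameChar_one (π := π) hσ]
  congr 1
  exact mul_inv_cancel₀ ha

/-- The tame character takes nonzero values. -/
theorem tameChar_ne_zero {a : L} (ha : a ≠ 0) : tameChar π σ hσ a ha ≠ 0 := fun h => by
  have h1 := tameChar_mul (π := π) hσ ha (inv_ne_zero ha)
  simp_rw [h, zero_mul, mul_inv_cancel₀ ha, tameChar_one] at h1
  exact one_ne_zero h1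

/-- The tame character commutes with integer powers. -/
theorem tameChar_zpow {a : L} (ha : a ≠ 0) (i : ℤ) :
    tameChar π σ hσ (a ^ i) (zpow_ne_zero _ ha) = tameChar π σ hσ a ha ^ i := by
  have hne := tameChar_ne_zero (π := π) hσ ha
  induction i using Int.induction_on with
  | zero => simpa using tameChar_one (π := π) hσ
  | succ i ih =>
    rw [zpow_add_one₀ hne, ← ih, ← tameChar_mul hσ (zpow_ne_zero _ ha) ha]
    congr 1
    exact zpow_add_one₀ ha _
  | pred i ih =>
    rw [zpow_sub_one₀ hne, ← ih, eq_mul_inv_iff_mul_eq₀ hne,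
      ← tameChar_mul hσ (zpow_ne_zero _ ha) ha]
    congr 1
    rw [← zpow_add_one₀ ha, sub_add_cancel]

end TameChar

namespace Degen

variable {X : Degen π ι K} {n : ℕ} {ϖ : L} {D : Divisor L F} {y : F}

/-- A symmetry with distinct characters on the two scales splits the reductions. -/
theorem split_of_sym (Θ : Sym X) (hb : Θ.e = Equiv.refl Bool) (hτ : ∀ b, Θ.τ b = 1)
    (hσ : ∀ c, c ≠ 0 → SemilinearAut.baseAut Θ.s c / c ∈ A) (hD : Θ.s • D = D)
    {e : L} (he : e ≠ 0) {g : F} (hg1 : X.Prim true g) (hg0 : X.Prim false (e • g))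
    (hne : tameChar π (SemilinearAut.baseAut Θ.s) hσ e⁻¹ (inv_ne_zero he) ≠ 1) {m : ℕ}
    {P : Bool → K} (hP : P ∈ X.imgRed (D + divOf L g) m) :
    (fun b => cond b (P true) 0) ∈ X.imgRed (D + divOf L g) m := by
  set σ := SemilinearAut.baseAut Θ.s
  set lam := tameChar π σ hσ e⁻¹ (inv_ne_zero he)
  obtain ⟨w, hw, hwO, hPe⟩ := X.mem_imgRed.mp hP
  have hgne := hg1.ne_zero
  -- `u` reduces to `1` and to the character
  set u := Θ.s • g * g⁻¹
  have hu1 : u ∈ gInt π (ι true) ∧ X.red true u = 1 := by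
    have h1 := Θ.mapsInt true g hg1.1
    have h2 := Θ.red_eq true g hg1.1
    rw [hb] at h1 h2
    simp only [Equiv.refl_apply] at h1 h2
    rw [hτ, one_smul] at h2
    obtain ⟨h3, h4⟩ := X.prim_inv hg1
    exact ⟨mul_mem h1 h3.1, by rw [X.red_mul h1 h3.1, h2, h4, mul_inv_cancel₀ hg1.2]⟩
  have hu0 : u ∈ gInt π (ι false) ∧ X.red false u = algebraMap k K lam := by
    have h1 := Θ.mapsInt false (e • g) hg0.1
    have h2 := Θ.red_eq false (e • g) hg0.1
    rw [hb] at h1 h2
    simp only [Equiv.refl_apply] at h1 h2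
    rw [hτ, one_smul] at h2
    obtain ⟨h3, h4⟩ := X.prim_inv hg0
    have hu : u = (σ e⁻¹ / e⁻¹) • ((Θ.s • (e • g)) * (e • g)⁻¹) := by
      rw [Θ.smul_smul_scalar, map_inv₀, Algebra.smul_def, Algebra.smul_def, Algebra.smul_def]
      have : σ e ≠ 0 := (_root_.map_ne_zero _).mpr he
      simp only [u, map_div₀, map_inv₀, mul_inv]
      field_simp [(_root_.map_ne_zero (algebraMap L F)).mpr this,
        (_root_.map_ne_zero (algebraMap L F)).mpr he]
      ring
    rw [hu]
    have hc := hσ e⁻¹ (inv_ne_zero he)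
    refine ⟨X.int_smul hc (mul_mem h1 h3.1), ?_⟩
    rw [show σ e⁻¹ / e⁻¹ = ((⟨σ e⁻¹ / e⁻¹, hc⟩ : A) : L) from rfl,
      X.red_smul _ (mul_mem h1 h3.1), X.red_mul h1 h3.1, h2, h4, mul_inv_cancel₀ hg0.2,
      Algebra.smul_def, mul_one]
    rfl
  have huO : u ∈ X.O := X.mem_O.mpr fun b => by cases b; exacts [hu0.1, hu1.1]
  have hsw : u * Θ.s • w ∈ X.sect (D + divOf L g) m := by
    have h := Θ.smul_sect hw
    rw [smul_add, hD, ← Fermat.JAC.divOf_smul] at h
    rw [sect, mem_riemannRochSpace] at h ⊢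
    intro v
    rcases eq_or_ne (Θ.s • w) 0 with h0 | h0
    · rw [h0, mul_zero]; exact ordGE_zero _ _
    have hs : Θ.s • g ≠ 0 := (smul_ne_zero_iff_ne Θ.s).mpr hgne
    refine (ordGE_iff_of_ne (mul_ne_zero (mul_ne_zero hs (inv_ne_zero hgne)) h0)).mpr ?_
    have h' := (h v).le_ord h0
    simp only [Finsupp.add_apply, divOf_apply] at h' ⊢
    rw [v.ord_mul (mul_ne_zero hs (inv_ne_zero hgne)) h0,
      v.ord_mul hs (inv_ne_zero hgne), v.ord_inv]
    linarith
  -- moving `P` multiplies the second part by the character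
  have hP' : (fun b => cond b (P true) (algebraMap k K lam * P false)) ∈
      X.imgRed (D + divOf L g) m := by
    have hwO' := Θ.smul_mem_O hwO
    refine X.mem_imgRed.mpr ⟨u * Θ.s • w, hsw, mul_mem huO hwO', fun b => ?_⟩
    have hr := Θ.red_eq b w (X.int_of_mem_O hwO b)
    rw [hb] at hr
    simp only [Equiv.refl_apply] at hr
    rw [hτ, one_smul] at hr
    rw [X.red_mul (X.int_of_mem_O huO b) (X.int_of_mem_O hwO' b), hr, ← hPe b]
    cases b
    · rw [hu0.2]; rfl
    · rw [hu1.2, one_mul]; rfl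
  convert Submodule.smul_mem _ (1 - lam)⁻¹ (sub_mem hP' (Submodule.smul_mem _ lam hP)) using 1
  have h1 : (1 - lam) ≠ 0 := sub_ne_zero.mpr (Ne.symm hne)
  funext b
  simp only [Pi.smul_apply, Pi.sub_apply]
  cases b
  · simp [Algebra.smul_def]
  · rw [show cond true (P true) (algebraMap k K lam * P false) = P true from rfl,
      show (P true - lam • P true) = (1 - lam) • P true by rw [sub_smul, one_smul],
      smul_smul, inv_mul_cancel₀ h1, one_smul]
    rfl

/-- Raising the shift by one. -/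
theorem exc_succ (hn : n ≠ 0) {H : K} (c : ℤ)
    [DecidablePred fun s : Place k K => (n : ℤ) ∣ s.ord H - c] :
    X.exc n H (c + 1) + X.S.card =
      X.exc n H c + n * (X.S.filter fun s => (n : ℤ) ∣ s.ord H - c).card := by
  classical
  have hn' : (0 : ℤ) < n := by exact_mod_cast Nat.pos_of_ne_zero hn
  set U := (divOf k H).support ∪ X.S
  have hx := X.exc_eq_sum (n := n) (H := H) (U := U) Finset.subset_union_left
    Finset.subset_union_right
  have hcard : ∀ T : Finset (Place k K), T ⊆ U →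
      (T.card : ℤ) = ∑ v ∈ U, if v ∈ T then (1 : ℤ) else 0 := fun T hT => by
    rw [Finset.sum_boole, show U.filter (fun v => v ∈ T) = T by
      ext v; simpa using fun h => hT h]
  rw [hx, hx, hcard _ Finset.subset_union_right,
    hcard _ ((Finset.filter_subset _ _).trans Finset.subset_union_right), Finset.mul_sum,
    ← Finset.sum_add_distrib, ← Finset.sum_add_distrib]
  refine Finset.sum_congr rfl fun v _ => ?_
  rw [X.shifted_apply, X.shifted_apply]
  by_cases hvS : v ∈ X.S
  · rw [if_pos hvS, if_pos hvS, if_pos hvS, show v.ord H - (c + 1) = (v.ord H - c) + (-1) by ring,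
      ← Int.emod_add_emod]
    set a := v.ord H - c with ha
    have b1 := Int.emod_nonneg a hn'.ne'
    have b2 := Int.emod_lt_of_pos a hn'
    rcases eq_or_lt_of_le b1 with hb | hb
    · rw [if_pos (Finset.mem_filter.mpr ⟨hvS, Int.dvd_of_emod_eq_zero hb.symm⟩), ← hb, zero_add,
        show (-1 : ℤ) = ((n : ℤ) - 1) + (n : ℤ) * (-1) by ring,
        Int.add_mul_emod_self_left, Int.emod_eq_of_lt (by omega) (by omega)]
      omega
    · split_ifs with h
      · exact absurd (Int.emod_eq_zero_of_dvd (Finset.mem_filter.mp h).2) hb.ne'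
      rw [Int.emod_eq_of_lt (a := a % (n : ℤ) + -1) (by omega) (by omega)]
      omega
  · rw [if_neg hvS, if_neg hvS, if_neg hvS, if_neg fun h => hvS (Finset.mem_filter.mp h).1]
    omega

/-- The order modulo `n` of one reduction at a glued point is minus that of the other reduction at
some glued point. -/
theorem false_of_forall_not_dvd (hn : n ≠ 0) (hϖ : ϖ ≠ 0) (hN : X.Node ϖ) (hy : y ≠ 0)
    (hdiv : divOf L y = n • D) {c1 c0 : L} (h1 : X.Prim true (c1 • y))
    (h0 : X.Prim false (c0 • y)) {s : Place k K} (hs : s ∈ X.S)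
    (hall : ∀ t ∈ X.flip.S,
      ¬ (n : ℤ) ∣ t.ord (X.red false (c0 • y)) + s.ord (X.red true (c1 • y))) : False := by
  classical
  set H1 := X.red true (c1 • y)
  set T := s.ord H1 with hT
  obtain ⟨hE, -, -⟩ := X.exc_eq hn hϖ hN hy hdiv h1 h0
  have a1 := exc_succ (X := X) hn (H := H1) T
  have a0 := exc_succ (X := X.flip) hn (H := X.red false (c0 • y)) (-T)
  rw [X.flip_card] at a0
  have z0 : X.flip.S.filter (fun t => (n : ℤ) ∣ t.ord (X.red false (c0 • y)) - -T) = ∅ :=
    Finset.filter_eq_empty_iff.mpr fun t ht h => hall t ht (by simpa using h)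
  have z1 : 0 < (X.S.filter (fun t => (n : ℤ) ∣ t.ord H1 - T)).card :=
    Finset.card_pos.mpr ⟨s, Finset.mem_filter.mpr ⟨hs, by rw [hT, sub_self]; exact dvd_zero _⟩⟩
  rw [z0, Finset.card_empty] at a0
  have e1 := hE T
  have e2 := hE (T - 1)
  rw [sub_add_cancel, neg_sub, sub_eq_add_neg, add_comm (1 : ℤ)] at e2
  have : (n : ℤ) * ((X.S.filter (fun t => (n : ℤ) ∣ t.ord H1 - T)).card : ℤ) = 0 := by
    push_cast at a0 a1
    linarith
  rcases mul_eq_zero.mp this with h | h
  · exact hn (by exact_mod_cast h)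
  · omega

/-- The tame character of a symmetry fixing both sides is `1` on roots of unity. -/
theorem tameChar_eq_one_of_pow_eq_one (Θ : Sym X) (hb : Θ.e = Equiv.refl Bool)
    (hτ : ∀ b, Θ.τ b = 1) (hσ : ∀ c, c ≠ 0 → SemilinearAut.baseAut Θ.s c / c ∈ A) (hn : n ≠ 0)
    {z : L} (hz0 : z ≠ 0) (hz : z ^ n = 1) :
    tameChar π (SemilinearAut.baseAut Θ.s) hσ z hz0 = 1 := by
  set σ := SemilinearAut.baseAut Θ.s
  have hzA : z ∈ A := by
    rcases A.mem_or_inv_mem z with h | h
    · exact h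
    · have : z = z⁻¹ ^ (n - 1) := by
        rw [inv_pow]
        exact eq_inv_of_mul_eq_one_left (by
          rw [← pow_succ', Nat.sub_add_cancel (Nat.one_le_iff_ne_zero.mpr hn), hz])
      exact this ▸ pow_mem h _
  have hzn : π ⟨z, hzA⟩ ^ n = 1 := by
    rw [← map_pow, show (⟨z, hzA⟩ : A) ^ n = 1 from Subtype.ext hz, map_one]
  have hne : π ⟨z, hzA⟩ ≠ 0 := fun h0 => by
    rw [h0, zero_pow hn] at hzn; exact zero_ne_one hzn
  have hzs : σ z ∈ A := by
    have := mul_mem (hσ z hz0) hzA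
    rwa [div_mul_cancel₀ _ hz0] at this
  have hred := Θ.red_eq true _ (X.int_algebraMap (b := true) hzA)
  rw [hb, hτ, one_smul] at hred
  simp only [Equiv.refl_apply] at hred
  rw [SemilinearAut.smul_algebraMap, show algebraMap L F (σ z) =
    algebraMap L F ((⟨σ z, hzs⟩ : A) : L) from rfl, X.red_algebraMap,
    show algebraMap L F z = algebraMap L F ((⟨z, hzA⟩ : A) : L) from rfl,
    X.red_algebraMap] at hred
  have heq := (algebraMap k K).injective hred
  refine mul_right_cancel₀ hne ?_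
  rw [one_mul, tameChar, ← map_mul]
  refine Eq.trans (congrArg π (Subtype.ext ?_)) heq
  exact div_mul_cancel₀ _ hz0

/-- **Classes fixed by inertia**: the orders at the glued points are congruent modulo `n`. -/
theorem residues_of_fixed (Θ : Sym X) (hb : Θ.e = Equiv.refl Bool) (hτ : ∀ b, Θ.τ b = 1)
    (hσ : ∀ c, c ≠ 0 → SemilinearAut.baseAut Θ.s c / c ∈ A) (hD : Θ.s • D = D)
    (hn : n ≠ 0) (hϖ : ϖ ≠ 0) (hN : X.Node ϖ) {r : L} (hr0 : r ≠ 0) (hr : r ^ n = ϖ)
    (hprim : IsPrimitiveRoot (tameChar π (SemilinearAut.baseAut Θ.s) hσ r hr0) n)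
    (hy : y ≠ 0) (hdiv : divOf L y = n • D)
    {c1 c0 : L} (h1 : X.Prim true (c1 • y)) (h0 : X.Prim false (c0 • y)) :
    ∀ s ∈ X.S, ∀ t ∈ X.S, (n : ℤ) ∣
      s.ord (X.red true (c1 • y)) + (X.Qf t).ord (X.red false (c0 • y)) := by
  classical
  set σ := SemilinearAut.baseAut Θ.s
  -- the shifts which do not split
  have key : ∀ T : ℤ, (∃ t ∈ X.S, (n : ℤ) ∣ (X.Qf t).ord (X.red false (c0 • y)) + T) →
      ∃ (e : L) (he : e ≠ 0), e ^ n = ϖ ^ (-T) * c1 / c0 ∧
        tameChar π σ hσ e⁻¹ (inv_ne_zero he) = 1 := by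
    rintro T ⟨t, ht, hdvd⟩
    obtain ⟨e, g, he0, he, hg1, hg0, hS, hexc⟩ := X.exists_scaled hn hϖ hy hdiv h1 h0 T
    refine ⟨e, he0, he, ?_⟩
    by_contra hne
    refine X.not_dvd_of_split hn hϖ hN hy hdiv h1 h0 hS hexc (fun m P hP =>
      split_of_sym Θ hb hτ hσ hD he0 hg1 hg0 hne hP) (t := X.Qf t) ?_ hdvd
    rw [flip_S]; exact Finset.mem_image_of_mem _ ht
  have hcongr : ∀ t ∈ X.S, ∀ t' ∈ X.S, (n : ℤ) ∣
      (X.Qf t).ord (X.red false (c0 • y)) - (X.Qf t').ord (X.red false (c0 • y)) := by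
    intro t ht t' ht'
    set a := (X.Qf t).ord (X.red false (c0 • y))
    set a' := (X.Qf t').ord (X.red false (c0 • y))
    obtain ⟨e, he0, he, hχ⟩ := key (-a) ⟨t, ht, by simp [a]⟩
    obtain ⟨e', he0', he', hχ'⟩ := key (-a') ⟨t', ht', by simp [a']⟩
    rw [neg_neg] at he he'
    -- `e / e'` is a root of a power of `ϖ`
    set z := e⁻¹⁻¹ * e'⁻¹ * r ^ (-(a - a'))
    have hz0 : z ≠ 0 := mul_ne_zero (mul_ne_zero (by simpa using he0) (inv_ne_zero he0'))
      (zpow_ne_zero _ hr0)
    have hz : z ^ n = 1 := by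
      have hc1 : c1 ≠ 0 := fun h => h1.ne_zero (by rw [h, zero_smul])
      have hc0 : c0 ≠ 0 := fun h => h0.ne_zero (by rw [h, zero_smul])
      have hr' : (r ^ (-(a - a'))) ^ n = ϖ ^ (-(a - a')) := by
        rw [← zpow_natCast, ← zpow_mul, mul_comm, zpow_mul, zpow_natCast, hr]
      simp only [z, mul_pow, inv_inv, inv_pow, he, he', hr']
      rw [neg_sub, zpow_sub₀ hϖ]
      have := zpow_ne_zero a hϖ
      have := zpow_ne_zero a' hϖ
      field_simp
    have hχz := tameChar_eq_one_of_pow_eq_one Θ hb hτ hσ hn hz0 hz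
    have h3 := tameChar_mul (π := π) hσ
      (mul_ne_zero (inv_ne_zero (inv_ne_zero he0)) (inv_ne_zero he0'))
      (zpow_ne_zero (-(a - a')) hr0)
    rw [tameChar_mul hσ (inv_ne_zero (inv_ne_zero he0)) (inv_ne_zero he0'),
      tameChar_inv hσ (inv_ne_zero he0), hχ, hχ', inv_one, one_mul, one_mul,
      tameChar_zpow hσ hr0] at h3
    have h4 : tameChar π σ hσ r hr0 ^ (-(a - a')) = 1 := h3.symm.trans hχz
    exact dvd_neg.mp ((hprim.zpow_eq_one_iff_dvd _).mp h4)
  intro s hs t ht
  -- at the shift of `s` some second order is congruent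
  by_contra hnd
  set a0 := (X.Qf t).ord (X.red false (c0 • y))
  set Ts := s.ord (X.red true (c1 • y))
  obtain ⟨e, g, he0, he, hg1, hg0, hS, hexc⟩ :=
    X.exists_scaled hn hϖ hy hdiv h1 h0 Ts
  have hall : ∀ t' ∈ X.flip.S, ¬ (n : ℤ) ∣ t'.ord (X.red false (c0 • y)) + Ts := by
    intro t' ht' hd
    rw [flip_S, Finset.mem_image] at ht'
    obtain ⟨u, hu, rfl⟩ := ht'
    refine hnd ?_
    have := dvd_add (hcongr t ht u hu) hd
    rwa [show a0 - (X.Qf u).ord (X.red false (c0 • y)) +
      ((X.Qf u).ord (X.red false (c0 • y)) + Ts) = Ts + a0 by ring] at this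
  exact X.false_of_forall_not_dvd hn hϖ hN hy hdiv h1 h0 hs hall

end Degen

end Fermat.BAD

end
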