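import Fermat.Agent.BAD.Mono.Discrete
import Fermat.Agent.BAD.Mono.Congr

/-!
# Rational sections at twisted scales

For a rational section `w` integral at the scales `1, e` the function `w ^ n y` bounds the orders
of both reductions (`red_bound`, `red_bound_false`).  The rational sections are at least as many as
the two bounds allow together (`bnd_count`, `le_ratImage`), so `exists_second` makes them fill
both; `Attain` applies this.
-/

set_option autoImplicit false
set_option linter.unusedSectionVars false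

attribute [local instance 10000] SubalgebraClass.toAlgebra HahnSeries.powerSeriesAlgebra

noncomputable section

open AlgebraicCurve

namespace Fermat.BAD

open Fermat.FF Fermat.RED.Model

variable {L : Type*} [Field L] {A : ValuationSubring L}
variable {k : Type*} [Field k] [IsAlgClosed L] [IsAlgClosed k]
variable {F : Type*} [Field F] [Algebra L F]
variable {π : A →+* k} {ι : Bool → F →+* LaurentSeries L}
  {K : IntermediateField k (LaurentSeries k)}
variable [FF.IsFunctionField L F] [FF.IsFunctionField k K]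

variable (π) in
/-- Integral with zero residue. -/
def Small (a : L) : Prop := ∃ h : a ∈ A, π ⟨a, h⟩ = 0

/-- Small elements are integral. -/
theorem Small.mem {a : L} (h : Small π a) : a ∈ A := h.1

/-- An integral multiple of a small element is small. -/
theorem Small.mul {a b : L} (h : Small π a) (hb : b ∈ A) : Small π (a * b) :=
  ⟨mul_mem h.1 hb, by
    rw [show (⟨a * b, mul_mem h.1 hb⟩ : A) = ⟨a, h.1⟩ * ⟨b, hb⟩ from rfl, map_mul, h.2, zero_mul]⟩

/-- Zero is small. -/
theorem small_zero : Small π (0 : L) := ⟨zero_mem A, map_zero π⟩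

namespace RatData

/-- The same data with the two components exchanged. -/
def flip (R : RatData π ι) : RatData π (fun b => ι (!b)) :=
  { R with coeff_mem := fun f hf b n => R.coeff_mem f hf (!b) n }

/-- The uniformiser is small. -/
theorem small_rho (R : RatData π ι) : Small π R.ρ := ⟨R.ρ_A, R.ρ_small⟩

/-- Its positive powers are small. -/
theorem rho_pow_small (R : RatData π ι) {i : ℤ} (hi : 0 < i) : Small π (R.ρ ^ i) := by
  obtain ⟨m, rfl⟩ : ∃ m : ℕ, i = (m : ℤ) + 1 := ⟨(i - 1).toNat, by omega⟩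
  rw [zpow_add_one₀ R.ρ_ne, zpow_natCast, mul_comm]
  exact R.small_rho.mul (pow_mem R.ρ_A m)

/-- Its nonnegative powers are integral. -/
theorem rho_pow_mem (R : RatData π ι) {i : ℤ} (hi : 0 ≤ i) : R.ρ ^ i ∈ A := by
  obtain ⟨m, rfl⟩ : ∃ m : ℕ, i = (m : ℤ) := ⟨i.toNat, by omega⟩
  rw [zpow_natCast]; exact pow_mem R.ρ_A m

/-- An element of `M` with zero residue is divisible by `ρ`. -/
theorem div_rho_mem (R : RatData π ι) {a : L} (ha : a ∈ R.M) (h : Small π a) : a / R.ρ ∈ A := by
  rcases eq_or_ne a 0 with rfl | ha0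
  · rw [zero_div]; exact zero_mem A
  obtain ⟨i, h1, h2⟩ := R.value a ha ha0
  rcases le_or_gt i 0 with hi | hi
  · exfalso
    have hinv : a⁻¹ ∈ A := by
      rw [show a⁻¹ = R.ρ ^ i / a * R.ρ ^ (-i) by
        rw [div_mul_eq_mul_div, ← zpow_add₀ R.ρ_ne, add_neg_cancel, zpow_zero, one_div]]
      exact mul_mem h2 (R.rho_pow_mem (by omega))
    obtain ⟨hA, h0⟩ := h
    have : π ⟨a, hA⟩ * π ⟨a⁻¹, hinv⟩ = 1 := by
      rw [← map_mul, show (⟨a, hA⟩ : A) * ⟨a⁻¹, hinv⟩ = 1 from Subtype.ext (mul_inv_cancel₀ ha0),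
        map_one]
    rw [h0, zero_mul] at this
    exact zero_ne_one this
  · rw [show a / R.ρ = a / R.ρ ^ i * R.ρ ^ (i - 1) by
      rw [zpow_sub_one₀ R.ρ_ne]
      have := zpow_ne_zero i R.ρ_ne
      field_simp]
    exact mul_mem h1 (R.rho_pow_mem (by omega))

end RatData

namespace Degen

variable (X : Degen π ι K) {R : RatData π ι} {n : ℕ} {ϖ : L}

/-- Zero reduction of a rational series gives divisibility by `ρ`. -/
theorem int_div_rho (R : RatData π ι) {b : Bool} {f : F} (hf : f ∈ R.R)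
    (hfi : ι b f ∈ intSeries A) (h0 : X.red b f = 0) : ι b (R.ρ⁻¹ • f) ∈ intSeries A := by
  refine mem_intSeries_iff.mpr fun m => ?_
  rw [RatData.coeff_smul (X := X), inv_mul_eq_div]
  refine R.div_rho_mem (R.coeff_mem f hf b m) ⟨mem_intSeries_iff.mp hfi m, ?_⟩
  rw [← X.coe_red_int hfi m, h0]
  rfl

/-- A class presented by a rational function with bounded poles. -/
structure Pres (R : RatData π ι) (n l : ℕ) (D : Divisor L F) (y : F) (c1 c0 : L) : Prop where
  /-- `y` is nonzero. -/
  y_ne : y ≠ 0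
  /-- `D` is killed by `n`, through `y`. -/
  div_eq : divOf L y = n • D
  /-- `1 / y` is rational. -/
  inv_mem : y⁻¹ ∈ R.R
  /-- `D` is bounded by `l A0`. -/
  le_A0 : ∀ v, D v ≤ (l : ℤ) * X.A0 v
  /-- The first scale is rational. -/
  c1_mem : c1 ∈ R.M
  /-- The second scale is rational. -/
  c0_mem : c0 ∈ R.M
  /-- `c1 y` is primitive on the first component. -/
  prim_true : X.Prim true (c1 • y)
  /-- `c0 y` is primitive on the second. -/
  prim_false : X.Prim false (c0 • y)
  /-- The rational sections span the sections. -/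
  span : ∀ m, X.sect D m ≤ Submodule.span L {w | w ∈ X.sect D m ∧ w ∈ R.R}

variable {X} {l : ℕ} {D : Divisor L F} {y : F} {c1 c0 : L}

/-- The first scale is nonzero. -/
theorem Pres.c1_ne (h : X.Pres R n l D y c1 c0) : c1 ≠ 0 :=
  fun h0 => h.prim_true.ne_zero (by rw [h0, zero_smul])

/-- The second scale is nonzero. -/
theorem Pres.c0_ne (h : X.Pres R n l D y c1 c0) : c0 ≠ 0 :=
  fun h0 => h.prim_false.ne_zero (by rw [h0, zero_smul])

/-- Presentations are symmetric in the two components. -/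
theorem Pres.flip (h : X.Pres R n l D y c1 c0) : X.flip.Pres R.flip n l D y c0 c1 :=
  ⟨h.y_ne, h.div_eq, h.inv_mem, h.le_A0, h.c0_mem, h.c1_mem, X.flip_prim.mpr h.prim_false,
    X.flip_prim.mpr h.prim_true, h.span⟩

/-- `w ^ n y` has poles bounded by `n m A0` for a section `w` of the presented class. -/
theorem Pres.pow_mul_mem (h : X.Pres R n l D y c1 c0) {m : ℕ} {w : F}
    (hw : w ∈ X.sect D m) (c : L) :
    w ^ n * (c • y) ∈ riemannRochSpace ((n * m) • X.A0) := by
  rw [mul_smul_comm]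
  refine Submodule.smul_mem _ _ ?_
  rw [mem_riemannRochSpace]
  intro v
  rcases eq_or_ne n 0 with rfl | hn
  · have : v.ord y = 0 := by rw [← divOf_apply (K := L), h.div_eq]; simp
    rw [pow_zero, one_mul]
    exact (ordGE_iff_of_ne h.y_ne).mpr (by simp [this])
  rcases eq_or_ne w 0 with rfl | hw0
  · rw [zero_pow hn, zero_mul]; exact ordGE_zero _ _
  refine (ordGE_iff_of_ne (mul_ne_zero (pow_ne_zero n hw0) h.y_ne)).mpr ?_
  rw [v.ord_mul (pow_ne_zero n hw0) h.y_ne, FF.ord_pow,
    show v.ord y = (n : ℤ) * D v by rw [← divOf_apply (K := L), h.div_eq]; simp]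
  have := (mem_riemannRochSpace.mp hw v).le_ord hw0
  simp only [Finsupp.add_apply, Finsupp.smul_apply, nsmul_eq_mul, Nat.cast_mul] at this ⊢
  nlinarith

/-- Sections of `D + m A0` have poles bounded by `(l + m) A0`. -/
theorem Pres.sect_le (h : X.Pres R n l D y c1 c0) (m : ℕ) :
    X.sect D m ≤ riemannRochSpace ((l + m) • X.A0) := by
  refine riemannRochSpace_mono (Finsupp.le_def.mpr fun v => ?_)
  have := h.le_A0 v
  simp only [Finsupp.add_apply, Finsupp.smul_apply, nsmul_eq_mul, Nat.cast_add]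
  linarith

/-- A section defined at the generic point of a component has integral expansion there. -/
theorem Pres.sect_int (h : X.Pres R n l D y c1 c0) {m : ℕ} {z : F} (hz : z ∈ X.sect D m)
    {b : Bool} {c : L} (hc : c • z ∈ gInt π (ι b)) : ι b (c • z) ∈ intSeries A :=
  X.series_int_of_mem hc (h.sect_le m (Submodule.smul_mem _ c hz))

/-- `1 / y` has poles bounded by `n l A0`. -/
theorem Pres.inv_rr (h : X.Pres R n l D y c1 c0) : y⁻¹ ∈ riemannRochSpace ((n * l) • X.A0) := by
  rw [mem_riemannRochSpace]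
  intro v
  refine (ordGE_iff_of_ne (inv_ne_zero h.y_ne)).mpr ?_
  rw [v.ord_inv, show v.ord y = (n : ℤ) * D v by rw [← divOf_apply (K := L), h.div_eq]; simp]
  have := h.le_A0 v
  simp only [Finsupp.smul_apply, nsmul_eq_mul, Nat.cast_mul]
  nlinarith

/-- The bound at the first component for a section integral at the scales `1, e`. -/
theorem Pres.red_bound (h : X.Pres R n l D y c1 c0) (hn : n ≠ 0) (hϖ : ϖ ≠ 0) (hN : X.Node ϖ)
    {m : ℕ} {w : F} (hw : w ∈ X.sect D m) (h1 : w ∈ gInt π (ι true)) {e : L} (he : e ≠ 0)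
    (h0 : e • w ∈ gInt π (ι false)) {T : ℤ} (hμ : ϖ ^ (-T) * c1 / (e ^ n * c0) ∈ A) :
    X.red true w ∈ riemannRochSpace (X.bnd n m (X.red true (c1 • y)) T) ∧
      (π ⟨_, hμ⟩ = 0 ∨ X.red false (e • w) = 0 →
        X.red true w ∈ riemannRochSpace (X.bnd n m (X.red true (c1 • y)) (T + 1))) := by
  set f := w ^ n * (c1 • y)
  have hfm := h.pow_mul_mem hw c1
  have hft : f ∈ gInt π (ι true) := mul_mem (pow_mem h1 n) h.prim_true.1
  have hsm : ϖ ^ (-T) • f = ((⟨_, hμ⟩ : A) : L) • ((e • w) ^ n * (c0 • y)) := by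
    have := h.c0_ne
    simp only [f]
    rw [smul_pow, smul_mul_smul_comm, smul_smul, mul_smul_comm, smul_smul]
    congr 1
    change _ = ϖ ^ (-T) * c1 / (e ^ n * c0) * _
    field_simp
  have hi0 : (e • w) ^ n * (c0 • y) ∈ gInt π (ι false) := mul_mem (pow_mem h0 n) h.prim_false.1
  have hff : ϖ ^ (-T) • f ∈ gInt π (ι false) := hsm ▸ X.int_smul hμ hi0
  have hr : X.red true f = X.red true w ^ n * X.red true (c1 • y) := by
    rw [X.red_mul (pow_mem h1 n) h.prim_true.1, X.red_pow h1]
  have hoff : ∀ v, v ∉ X.S → OrdGE v (X.red true w ^ n * X.red true (c1 • y))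
      (-(((n * m : ℕ) : ℤ) * X.B v)) := fun v hv => hr ▸ X.ordGE_off hfm hft hv
  refine ⟨X.mem_bnd_of_ord hn h.prim_true.2
    (fun s hs => hr ▸ (X.ordGE_node hϖ hN hfm hft hff hs).1) hoff, fun hz => ?_⟩
  refine X.mem_bnd_of_ord hn h.prim_true.2
    (fun s hs => hr ▸ (X.ordGE_node hϖ hN hfm hft hff hs).2 ?_) hoff
  rw [hsm, X.red_smul _ hi0]
  rcases hz with hz | hz
  · rw [hz, zero_smul]
  · rw [X.red_mul (pow_mem h0 n) h.prim_false.1, X.red_pow h0, hz, zero_pow hn, zero_mul, smul_zero]

/-- The bound at the second component. -/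
theorem Pres.red_bound_false (h : X.Pres R n l D y c1 c0) (hn : n ≠ 0) (hϖ : ϖ ≠ 0) (hN : X.Node ϖ)
    {m : ℕ} {w : F} (hw : w ∈ X.sect D m) (h1 : w ∈ gInt π (ι true)) {e : L} (he : e ≠ 0)
    (h0 : e • w ∈ gInt π (ι false)) {T : ℤ} (hν : e ^ n * c0 * ϖ ^ T / c1 ∈ A) :
    X.red false (e • w) ∈ riemannRochSpace (X.flip.bnd n m (X.red false (c0 • y)) (-T)) ∧
      (π ⟨_, hν⟩ = 0 ∨ X.red true w = 0 →
        X.red false (e • w) ∈ riemannRochSpace (X.flip.bnd n m (X.red false (c0 • y))
          (-T + 1))) := by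
  have heq : ϖ ^ (-(-T)) * c0 / (e⁻¹ ^ n * c1) = e ^ n * c0 * ϖ ^ T / c1 := by
    rw [neg_neg, inv_pow]
    have := h.c1_ne
    field_simp
  have hμ : ϖ ^ (-(-T)) * c0 / (e⁻¹ ^ n * c1) ∈ A := heq ▸ hν
  have key := h.flip.red_bound hn hϖ (hN.flip hϖ) (m := m) (w := e • w) (e := e⁻¹)
    (Submodule.smul_mem _ _ hw) h0 (inv_ne_zero he)
    (by rw [smul_smul, inv_mul_cancel₀ he, one_smul]; exact h1) hμ
  simp only [flip_red, Bool.not_true, Bool.not_false, smul_smul, inv_mul_cancel₀ he,
    one_smul] at key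
  rw [show (⟨_, hν⟩ : A) = ⟨_, hμ⟩ from Subtype.ext heq.symm]
  exact key

variable (X) in
/-- The two bounds, at shifts `T + 1` and `-T`, together have at most the dimension of the
sections. -/
theorem Pres.bnd_count (h : X.Pres R n l D y c1 c0) (hn : n ≠ 0) (hϖ : ϖ ≠ 0)
    (hN : X.Node ϖ) (T : ℤ) {m : ℕ} (hm0 : X.N0 ≤ m)
    (hm : (2 * genusFF k K : ℤ) + (|T + 1| + |-T|) * X.S.card +
      X.exc n (X.red true (c1 • y)) (T + 1) + X.flip.exc n (X.red false (c0 • y)) (-T) ≤ m) :
    (Module.finrank k (riemannRochSpace (X.bnd n m (X.red true (c1 • y)) (T + 1))) : ℤ) +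
      Module.finrank k (riemannRochSpace (X.flip.bnd n m (X.red false (c0 • y)) (-T))) ≤
        Module.finrank L (X.sect D m) := by
  set H1 := X.red true (c1 • y)
  set H0 := X.red false (c0 • y)
  have e1 := X.exc_nonneg hn H1 (T + 1)
  have e0 := X.flip.exc_nonneg hn H0 (-T)
  have d1 := X.finrank_bnd hn (m := m) (H := H1) (c := T + 1)
    (by nlinarith [abs_nonneg (-T)])
  have d0 := X.flip.finrank_bnd hn (m := m) (H := H0) (c := -T) (by
    rw [X.flip_card]; nlinarith [abs_nonneg (T + 1)])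
  rw [X.flip_card, X.flip_B] at d0
  obtain ⟨hE, -, -⟩ := X.exc_eq hn hϖ hN h.y_ne h.div_eq h.prim_true h.prim_false
  have hE := hE T
  have hdeg0 : Divisor.degree D = 0 := by
    have := congrArg Divisor.degree h.div_eq
    rw [degree_divOf, map_nsmul, nsmul_eq_mul, eq_comm, mul_eq_zero] at this
    exact this.resolve_left (by exact_mod_cast hn)
  have hd : Divisor.degree (D + m • X.A0) = 2 * ((m : ℤ) * Divisor.degree X.B) := by
    rw [map_add, hdeg0, map_nsmul, X.deg_A0, nsmul_eq_mul]; ring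
  have hB := X.deg_B_pos
  have h2 := FF.ell_of_degree_ge (D := D + m • X.A0) (by
    rw [hd]; unfold N0 at hm0; nlinarith)
  rw [hd, FF.ell] at h2
  change (Module.finrank L (X.sect D m) : ℤ) = _ at h2
  have hc : (genusFF L F : ℤ) + 1 ≤ 2 * genusFF k K + X.S.card := by exact_mod_cast X.count
  rw [h2]
  refine le_of_mul_le_mul_left ?_ (show (0 : ℤ) < n by exact_mod_cast Nat.pos_of_ne_zero hn)
  have := mul_le_mul_of_nonneg_left hc (show (0 : ℤ) ≤ (n : ℤ) by positivity)
  rw [mul_add, d1, d0]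
  linarith

/-- A space of pairs at least as large as two bounds, on the first coordinate and on the second
where the first vanishes, fills both. -/
theorem exists_second {W : Submodule k (Bool → K)} {V1 V0 : Submodule k K}
    [FiniteDimensional k V1] [FiniteDimensional k V0] [FiniteDimensional k W]
    (h1 : ∀ P ∈ W, P true ∈ V1) (h0 : ∀ P ∈ W, P true = 0 → P false ∈ V0)
    (hd : (Module.finrank k V1 : ℤ) + Module.finrank k V0 ≤ Module.finrank k W) :
    (∀ z ∈ V1, ∃ P ∈ W, P true = z) ∧ ∀ z ∈ V0, ∃ P ∈ W, P true = 0 ∧ P false = z := by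
  let p : W →ₗ[k] V1 :=
    { toFun := fun P => ⟨P.1 true, h1 P.1 P.2⟩
      map_add' := fun _ _ => rfl
      map_smul' := fun _ _ => rfl }
  let q : LinearMap.ker p →ₗ[k] V0 :=
    { toFun := fun P => ⟨P.1.1 false,
        h0 P.1.1 P.1.2 (congrArg Subtype.val (LinearMap.mem_ker.mp P.2))⟩
      map_add' := fun _ _ => rfl
      map_smul' := fun _ _ => rfl }
  have hq : Function.Injective q := fun P P' hPP => by
    refine Subtype.ext (Subtype.ext (funext fun b => ?_))
    cases b
    · exact congrArg Subtype.val hPP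
    · exact (congrArg Subtype.val (LinearMap.mem_ker.mp P.2)).trans
        (congrArg Subtype.val (LinearMap.mem_ker.mp P'.2)).symm
  have : Module.Free k V0 := Module.Free.of_divisionRing k V0
  have hr := LinearMap.finrank_range_add_finrank_ker p
  have hle := LinearMap.finrank_le_finrank_of_injective hq
  have hR := Submodule.finrank_le (LinearMap.range p)
  have e1 : Module.finrank k (LinearMap.range p) = Module.finrank k V1 := by omega
  have e0 : Module.finrank k (LinearMap.ker p) = Module.finrank k V0 := by omega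
  have hp : LinearMap.range p = ⊤ := Submodule.eq_top_of_finrank_eq e1
  have hqs : Function.Surjective q :=
    LinearMap.range_eq_top.mp (Submodule.eq_top_of_finrank_eq
      ((LinearMap.finrank_range_of_inj hq).trans e0))
  refine ⟨fun z hz => ?_, fun z hz => ?_⟩
  · obtain ⟨P, hP⟩ := LinearMap.range_eq_top.mp hp ⟨z, hz⟩
    exact ⟨P.1, P.2, congrArg Subtype.val hP⟩
  · obtain ⟨P, hP⟩ := hqs ⟨z, hz⟩
    exact ⟨P.1.1, P.1.2, congrArg Subtype.val (LinearMap.mem_ker.mp P.2), congrArg Subtype.val hP⟩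

/-- The pairs of rational sections form a finite-dimensional space. -/
theorem Pres.finite_ratImage (h : X.Pres R n l D y c1 c0) (hn : n ≠ 0) (hϖ : ϖ ≠ 0) (hN : X.Node ϖ)
    {m : ℕ} {e : L} (he : e ≠ 0) {T T' : ℤ} (hμ : ϖ ^ (-T) * c1 / (e ^ n * c0) ∈ A)
    (hν : e ^ n * c0 * ϖ ^ T' / c1 ∈ A) :
    FiniteDimensional k (X.ratImage R (X.sect D m) e) := by
  set V1 := riemannRochSpace (X.bnd n m (X.red true (c1 • y)) T)
  set V0 := riemannRochSpace (X.flip.bnd n m (X.red false (c0 • y)) (-T'))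
  have : FiniteDimensional k V1 := FF.instFiniteRiemannRochSpace _
  have : FiniteDimensional k V0 := FF.instFiniteRiemannRochSpace _
  have hmem : ∀ P : X.ratImage R (X.sect D m) e, P.1 true ∈ V1 ∧ P.1 false ∈ V0 := by
    intro P
    obtain ⟨w, hw, hwR, hP⟩ := X.mem_ratImage R |>.mp P.2
    have h1 : w ∈ gInt π (ι true) := by simpa [sc] using (hP true).1
    have h0 : e • w ∈ gInt π (ι false) := (hP false).1
    rw [(hP true).2, (hP false).2]
    refine ⟨?_, (h.red_bound_false hn hϖ hN hw h1 he h0 hν).1⟩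
    simpa [sc] using (h.red_bound hn hϖ hN hw h1 he h0 hμ).1
  let q : X.ratImage R (X.sect D m) e →ₗ[k] V1 × V0 :=
    { toFun := fun P => (⟨P.1 true, (hmem P).1⟩, ⟨P.1 false, (hmem P).2⟩)
      map_add' := fun _ _ => rfl
      map_smul' := fun _ _ => rfl }
  refine FiniteDimensional.of_injective q fun P P' hPP => Subtype.ext (funext fun b => ?_)
  cases b
  · exact congrArg (fun z : V1 × V0 => (z.2 : K)) hPP
  · exact congrArg (fun z : V1 × V0 => (z.1 : K)) hPP

/-- The dimension of the pairs is at least that of the sections. -/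
theorem Pres.le_ratImage (h : X.Pres R n l D y c1 c0) {m : ℕ} {e : L} (he : e ∈ R.M) (he0 : e ≠ 0)
    [FiniteDimensional k (X.ratImage R (X.sect D m) e)] :
    (Module.finrank L (X.sect D m) : ℤ) ≤ Module.finrank k (X.ratImage R (X.sect D m) e) := by
  have : FiniteDimensional L (X.sect D m) := FF.instFiniteRiemannRochSpace _
  exact_mod_cast X.finrank_le_ratImage R he he0 (h.span m)
    (fun w hw b => X.bdd b (l + m) w (h.sect_le m hw))

end Degen

end Fermat.BAD

end
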