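import Fermat.Agent.BAD.Mono.Depth

/-!
# Attaining the bounds by rational sections

The scales of the two reductions of `y` differ by a power of `ρ` with exponent divisible by `p`,
and at every shift the first bound is the exact image of the rational sections.
-/

set_option autoImplicit false

attribute [local instance 10000] SubalgebraClass.toAlgebra HahnSeries.powerSeriesAlgebra

noncomputable section

open AlgebraicCurve

namespace Fermat.BAD

open Fermat.FF Fermat.RED.Model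

variable {L : Type*} [Field L] {A : ValuationSubring L}
variable {k : Type*} [Field k] [IsAlgClosed L] [IsAlgClosed k]
variable {F : Type*} [Field F] [Algebra L F]
variable {π : A →+* k} {ι : Bool → F →+* LaurentSeries L}
  {K : IntermediateField k (LaurentSeries k)}
variable [FF.IsFunctionField L F] [FF.IsFunctionField k K]

namespace Degen

variable {X : Degen π ι K} {R : RatData π ι} {n l : ℕ} {ϖ : L} {D : Divisor L F} {y : F} {c1 c0 : L}

omit [IsAlgClosed L] [IsFunctionField L F] in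
/-- The first scale is `1`. -/
theorem sc_true (e : L) (f : F) : sc e true • f = f := one_smul L f

/-- At an exact shift the rational sections fill both bounds: every first reduction allowed comes
from one, and every second reduction allowed comes from one whose first reduction vanishes. -/
theorem Pres.exists_fill (h : X.Pres R n l D y c1 c0) (hn : n ≠ 0) (hϖ : ϖ ≠ 0) (hN : X.Node ϖ)
    {T : ℤ} {e : L} (he : e ∈ R.M) (he0 : e ≠ 0) (hμ : ϖ ^ (-T) * c1 / (e ^ n * c0) ∈ A)
    (hν : e ^ n * c0 * ϖ ^ T / c1 ∈ A) {m : ℕ} (hm0 : X.N0 ≤ m)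
    (hm : (2 * genusFF k K : ℤ) + (|T - 1 + 1| + |-(T - 1)|) * X.S.card +
      X.exc n (X.red true (c1 • y)) (T - 1 + 1) + X.flip.exc n (X.red false (c0 • y))
      (-(T - 1)) ≤ m) :
    (∀ z ∈ riemannRochSpace (X.bnd n m (X.red true (c1 • y)) T), ∃ w ∈ X.sect D m, w ∈ R.R ∧
        (∀ b, ι b (sc e b • w) ∈ intSeries A) ∧ X.red true w = z) ∧
      ∀ z ∈ riemannRochSpace (X.flip.bnd n m (X.red false (c0 • y)) (-T + 1)),
        ∃ w ∈ X.sect D m, w ∈ R.R ∧ (∀ b, ι b (sc e b • w) ∈ intSeries A) ∧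
          X.red true w = 0 ∧ X.red false (e • w) = z := by
  set V1 := riemannRochSpace (X.bnd n m (X.red true (c1 • y)) T)
  set V0 := riemannRochSpace (X.flip.bnd n m (X.red false (c0 • y)) (-T + 1))
  have : FiniteDimensional k V1 := FF.instFiniteRiemannRochSpace _
  have : FiniteDimensional k V0 := FF.instFiniteRiemannRochSpace _
  have := h.finite_ratImage hn hϖ hN (m := m) he0 hμ hν
  have hc := h.bnd_count X hn hϖ hN (T - 1) hm0 hm
  rw [sub_add_cancel, show -(T - 1) = -T + 1 by ring] at hc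
  obtain ⟨hlift, hlift0⟩ := exists_second (W := X.ratImage R (X.sect D m) e) (V1 := V1) (V0 := V0)
    (fun P hP => by
      obtain ⟨w, hw, hwR, hPw⟩ := X.mem_ratImage R |>.mp hP
      have h1 : w ∈ gInt π (ι true) := by simpa [sc] using (hPw true).1
      rw [(hPw true).2, sc_true]
      exact (h.red_bound hn hϖ hN hw h1 he0 (hPw false).1 hμ).1)
    (fun P hP h0 => by
      obtain ⟨w, hw, hwR, hPw⟩ := X.mem_ratImage R |>.mp hP
      have h1 : w ∈ gInt π (ι true) := by simpa [sc] using (hPw true).1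
      rw [(hPw true).2, sc_true] at h0
      rw [(hPw false).2]
      exact (h.red_bound_false hn hϖ hN hw h1 he0 (hPw false).1 hν).2 (Or.inr h0))
    (hc.trans (h.le_ratImage he he0))
  refine ⟨fun z hz => ?_, fun z hz => ?_⟩
  · obtain ⟨P, hP, hPz⟩ := hlift z hz
    obtain ⟨w, hw, hwR, hPw⟩ := X.mem_ratImage R |>.mp hP
    exact ⟨w, hw, hwR, fun b => h.sect_int hw (hPw b).1, by rw [← hPz, (hPw true).2, sc_true]⟩
  · obtain ⟨P, hP, hP1, hP0⟩ := hlift0 z hz
    obtain ⟨w, hw, hwR, hPw⟩ := X.mem_ratImage R |>.mp hP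
    exact ⟨w, hw, hwR, fun b => h.sect_int hw (hPw b).1, by rw [← hP1, (hPw true).2, sc_true],
      by rw [← hP0, (hPw false).2]; rfl⟩

/-- Every first reduction allowed at an exact shift comes from a rational section. -/
theorem Pres.lift_true (h : X.Pres R n l D y c1 c0) (hn : n ≠ 0) (hϖ : ϖ ≠ 0) (hN : X.Node ϖ)
    {T : ℤ} {e : L} (he : e ∈ R.M) (he0 : e ≠ 0) (hμ : ϖ ^ (-T) * c1 / (e ^ n * c0) ∈ A)
    (hν : e ^ n * c0 * ϖ ^ T / c1 ∈ A) {m : ℕ} (hm0 : X.N0 ≤ m)
    (hm : (2 * genusFF k K : ℤ) + (|T - 1 + 1| + |-(T - 1)|) * X.S.card +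
      X.exc n (X.red true (c1 • y)) (T - 1 + 1) + X.flip.exc n (X.red false (c0 • y))
      (-(T - 1)) ≤ m)
    {z : K} (hz : z ∈ riemannRochSpace (X.bnd n m (X.red true (c1 • y)) T)) :
    ∃ w ∈ X.sect D m, w ∈ R.R ∧ ι true w ∈ intSeries A ∧ ι false (e • w) ∈ intSeries A ∧
      X.red true w = z := by
  obtain ⟨w, hw, hwR, hi, hr⟩ := (h.exists_fill hn hϖ hN he he0 hμ hν hm0 hm).1 z hz
  exact ⟨w, hw, hwR, sc_true (F := F) e w ▸ hi true, hi false, hr⟩

omit [IsAlgClosed L] [IsAlgClosed k] in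
/-- An element with a small power is small. -/
theorem _root_.Fermat.BAD.Small.of_pow {x : L} {p : ℕ} (hn : 1 ≤ p) (hx : Small π (x ^ p)) :
    Small π x := by
  have hxA : x ∈ A := by
    rcases A.mem_or_inv_mem x with h' | h'
    · exact h'
    · rcases eq_or_ne x 0 with h0 | h0
      · rw [h0]; exact zero_mem A
      · rw [show x = x ^ p * x⁻¹ ^ (p - 1) by
          rw [inv_pow,
            show x ^ p = x * x ^ (p - 1) by rw [← pow_succ', Nat.sub_add_cancel hn],
            mul_assoc, mul_inv_cancel₀ (pow_ne_zero _ h0), mul_one]]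
        exact mul_mem hx.1 (pow_mem h' _)
  refine ⟨hxA, ?_⟩
  have h2 := hx.2
  rw [show (⟨x ^ p, hx.1⟩ : A) = ⟨x, hxA⟩ ^ p from rfl, map_pow] at h2
  exact eq_zero_of_pow_eq_zero h2

/-- If `w / ρ` has integral expansion at a component and `x ρ` is small, then `x w` is integral
there and reduces to zero. -/
theorem red_smul_eq_zero_of_small {b : Bool} {w : F} (hw : ι b (R.ρ⁻¹ • w) ∈ intSeries A) {x : L}
    (hx : Small π (x * R.ρ)) : x • w ∈ gInt π (ι b) ∧ X.red b (x • w) = 0 := by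
  have e : x • w = ((⟨_, hx.1⟩ : A) : L) • (R.ρ⁻¹ • w) := by
    rw [smul_smul]
    congr 1
    exact (mul_inv_cancel_right₀ R.ρ_ne x).symm
  rw [e]
  exact ⟨X.int_smul hx.1 (mem_gInt_of_int hw),
    by rw [X.red_smul _ (mem_gInt_of_int hw), hx.2, zero_smul]⟩

/-- The bound of the second reduction at level `m` has degree at least `2g` for `m` large. -/
theorem two_genus_le_degree_bnd (X : Degen π ι K) {p m : ℕ} (hp : 1 ≤ p) (H0 : K) (T : ℤ)
    (h5 : 2 * (genusFF k K : ℤ) + |T| * X.S.card + X.flip.exc p H0 (-T) ≤ m) :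
    2 * (genusFF k K : ℤ) ≤ Divisor.degree (X.flip.bnd p m H0 (-T)) := by
  have e0 := X.flip.exc_nonneg (n := p) (by omega) H0 (-T)
  have hd := X.flip.degree_bnd (n := p) m H0 (-T)
  rw [X.flip_card, X.flip_B] at hd
  have hB := X.deg_B_pos
  by_contra hlt
  push Not at hlt
  have h2 := mul_lt_mul_of_pos_left hlt (show (0 : ℤ) < p by omega)
  have h3 : (p : ℤ) * m ≤ (p : ℤ) * m * Divisor.degree X.B :=
    le_mul_of_one_le_right (by positivity) hB
  have h6 := mul_le_mul_of_nonneg_left h5 (show (0 : ℤ) ≤ p by omega)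
  have h7 := le_mul_of_one_le_left (show (0 : ℤ) ≤ |T| * X.S.card from mul_nonneg (abs_nonneg T)
    (Int.natCast_nonneg _))
    (show (1 : ℤ) ≤ p by omega)
  have h8 := le_mul_of_one_le_left e0 (show (1 : ℤ) ≤ p by omega)
  have h9 : -(T * (X.S.card : ℤ)) ≤ |T| * X.S.card := by
    rw [← neg_mul]; exact mul_le_mul_of_nonneg_right (neg_le_abs T) (Int.natCast_nonneg _)
  linarith

/-- The scales of the reductions differ by a `p`-th power in the values of `M`. -/
theorem Pres.dvd_val {p : ℕ} (hp : p.Prime) (h : X.Pres R p l D y c1 c0)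
    (W : FOData X R p ϖ) (hS : X.S.Nonempty) {j : ℤ} (hj : R.Val (c0 / c1) j) :
    (p : ℤ) ∣ j := by
  classical
  by_contra hnd
  have hN := W.toNode
  have hϖ := W.ϖ_ne
  have hn : p ≠ 0 := hp.ne_zero
  have hp' : (2 : ℤ) ≤ p := by exact_mod_cast hp.two_le
  obtain ⟨v, hv⟩ := hS
  set H0 := X.red false (c0 • y)
  -- a shift with the residue of a second order
  set T : ℤ := -(X.Qf v).ord H0
  set a := j / (p : ℤ)
  set b := j % (p : ℤ)
  have hjab : j = (p : ℤ) * a + b := (Int.mul_ediv_add_emod j p).symm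
  have hb0 : 0 < b := lt_of_le_of_ne (Int.emod_nonneg _ (by omega))
    fun e => hnd (Int.dvd_of_emod_eq_zero e.symm)
  have hbp : b < p := Int.emod_lt_of_pos _ (by omega)
  set P : ℤ := (p : ℤ) * ((p : ℤ) - 1) with hP
  set i : ℤ := -T * ((p : ℤ) - 1) - 1 - a with hi
  set e : L := R.ρ ^ i with he
  have he0 : e ≠ 0 := zpow_ne_zero _ R.ρ_ne
  have hc1 := h.c1_ne
  have hc0 := h.c0_ne
  have vμ : ∀ T' : ℤ, R.Val (e ^ p * c0 * ϖ ^ T' / c1) ((p : ℤ) * i + j + P * T') := fun T' => by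
    have h1 : R.Val (e ^ (p : ℤ) * (c0 / c1) * ϖ ^ T') (i * p + j + P * T') :=
      (((R.val_rho i).zpow p).mul hj).mul (W.ϖ_val.zpow T')
    rw [zpow_natCast] at h1
    convert h1 using 1 <;> ring
  have hν1 : Small π (e ^ p * c0 * ϖ ^ (T + 1) / c1) :=
    (vμ (T + 1)).small (by rw [hjab, hP, hi]; nlinarith)
  have hμ1 : Small π (ϖ ^ (-T) * c1 / (e ^ p * c0)) := by
    have := (vμ T).inv
    rw [show ϖ ^ (-T) * c1 / (e ^ p * c0) = (e ^ p * c0 * ϖ ^ T / c1)⁻¹ by
      rw [zpow_neg]; have := zpow_ne_zero T hϖ; field_simp]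
    exact this.small (by rw [hjab, hP, hi]; nlinarith)
  obtain ⟨m, hm0, hm⟩ := X.exists_large (2 * genusFF k K + (|T + 1| + |-T|) * X.S.card +
    X.exc p (X.red true (c1 • y)) (T + 1) + X.flip.exc p H0 (-T) + (|T| + 1) * X.S.card +
    X.flip.exc p H0 (-T))
  set V1 := riemannRochSpace (X.bnd p m (X.red true (c1 • y)) (T + 1))
  set V0 := riemannRochSpace (X.flip.bnd p m H0 (-T))
  have : FiniteDimensional k V1 := FF.instFiniteRiemannRochSpace _
  have : FiniteDimensional k V0 := FF.instFiniteRiemannRochSpace _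
  have := h.finite_ratImage hn hϖ hN (m := m) he0 hμ1.mem hν1.mem
  have heM : e ∈ R.M := zpow_mem R.ρ_mem i
  have e1 := X.exc_nonneg hn (X.red true (c1 • y)) (T + 1)
  have e0 := X.flip.exc_nonneg hn H0 (-T)
  obtain ⟨-, hlift⟩ := exists_second (W := X.ratImage R (X.sect D m) e) (V1 := V1) (V0 := V0)
    (fun P hP => by
      obtain ⟨w, hw, hwR, hPw⟩ := X.mem_ratImage R |>.mp hP
      have h1 : w ∈ gInt π (ι true) := by simpa [sc] using (hPw true).1
      rw [(hPw true).2, sc_true]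
      exact (h.red_bound hn hϖ hN hw h1 he0 (hPw false).1 hμ1.mem).2 (Or.inl hμ1.2))
    (fun P hP _ => by
      obtain ⟨w, hw, hwR, hPw⟩ := X.mem_ratImage R |>.mp hP
      have h1 : w ∈ gInt π (ι true) := by simpa [sc] using (hPw true).1
      rw [(hPw false).2]
      have := (h.red_bound_false hn hϖ hN hw h1 he0 (hPw false).1 (T := T + 1) hν1.mem).2
        (Or.inl hν1.2)
      rwa [show -(T + 1) + 1 = -T by ring] at this)
    ((h.bnd_count X hn hϖ hN T hm0 (by nlinarith [abs_nonneg T])).trans (h.le_ratImage heM he0))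
  -- a second reduction of exact order at the glued point
  have hQv : X.Qf v ∈ X.flip.S := by rw [flip_S]; exact Finset.mem_image_of_mem _ hv
  have hdeg : 2 * (genusFF k K : ℤ) ≤ Divisor.degree (X.flip.bnd p m H0 (-T)) :=
    X.two_genus_le_degree_bnd hp.one_le H0 T (by
      have h4 : (0 : ℤ) ≤ (|T + 1| + |-T|) * X.S.card :=
        mul_nonneg (add_nonneg (abs_nonneg _) (abs_nonneg _)) (Int.natCast_nonneg _)
      nlinarith [abs_nonneg T])
  obtain ⟨Q, hQ, hQ0, hQord⟩ := exists_exact_ord (D := X.flip.bnd p m H0 (-T)) {X.Qf v} hdeg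
  obtain ⟨P', hP', hP't, hP'f⟩ := hlift Q hQ
  obtain ⟨w, hw, hwR, hPw⟩ := X.mem_ratImage R |>.mp hP'
  have h1 : w ∈ gInt π (ι true) := by simpa [sc] using (hPw true).1
  rw [(hPw true).2, sc_true] at hP't
  rw [(hPw false).2] at hP'f
  -- divide by `ρ` and move to the shift `T`
  have hwρ := X.int_div_rho R hwR (sc_true (F := F) e w ▸ h.sect_int hw (hPw true).1) hP't
  obtain ⟨e', he'⟩ := IsAlgClosed.exists_pow_nat_eq (ϖ ^ (-T) * c1 / c0) (Nat.pos_of_ne_zero hn)
  have he'0 : e' ≠ 0 := fun h0 => by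
    rw [h0, zero_pow hn] at he'
    exact div_ne_zero (mul_ne_zero (zpow_ne_zero _ hϖ) hc1) hc0 he'.symm
  have hsmall : Small π (e / e' * R.ρ) := by
    have hx : Small π ((e / e' * R.ρ) ^ p) := by
      have hv' : R.Val ((e / e' * R.ρ) ^ p) ((p : ℤ) * i + j + P * T + p) := by
        rw [mul_pow, div_pow, he', show e ^ p / (ϖ ^ (-T) * c1 / c0) * R.ρ ^ p =
          e ^ p * c0 * ϖ ^ T / c1 * R.ρ ^ ((p : ℤ)) by
            rw [zpow_neg, zpow_natCast]; have := zpow_ne_zero T hϖ; field_simp]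
        exact (vμ T).mul (R.val_rho _)
      exact hv'.small (by rw [hjab, hP, hi]; nlinarith)
    exact hx.of_pow hp.one_le
  set w' := (e / e') • w
  obtain ⟨hw'1, hw'0⟩ := X.red_smul_eq_zero_of_small hwρ hsmall
  have hew : e' • w' = e • w := by rw [smul_smul, mul_div_cancel₀ _ he'0]
  have hone : e' ^ p * c0 * ϖ ^ T / c1 = 1 := by
    rw [he', zpow_neg]; have := zpow_ne_zero T hϖ; field_simp
  have hb := (h.red_bound_false hn hϖ hN (Submodule.smul_mem _ _ hw) hw'1 he'0
    (by rw [hew]; exact (hPw false).1) (T := T) (by rw [hone]; exact one_mem A)).2 (Or.inr hw'0)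
  rw [hew, ← show sc e false • w = e • w from rfl, hP'f] at hb
  have h3 := (mem_riemannRochSpace.mp hb (X.Qf v)).le_ord hQ0
  rw [hQord _ (Finset.mem_singleton_self _)] at h3
  simp only [bnd, Finsupp.add_apply, Finsupp.smul_apply, Finsupp.mapRange_apply,
    X.flip.shifted_apply, if_pos hQv, flip_B, X.Qf_B v hv, smul_zero, zero_add] at h3
  have ha1 : ((X.Qf v).ord H0 - -T) / (p : ℤ) = 0 := by
    rw [show (X.Qf v).ord H0 - -T = 0 by simp [T]]; simp
  have ha2 : ((X.Qf v).ord H0 - (-T + 1)) / (p : ℤ) = -1 := by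
    rw [show (X.Qf v).ord H0 - (-T + 1) = -1 by simp [T]]
    have h4 := Int.mul_ediv_add_emod (-1) (p : ℤ)
    have h5 := Int.emod_nonneg (-1) (show (p : ℤ) ≠ 0 by omega)
    have h6 := Int.emod_lt_of_pos (-1) (show (0 : ℤ) < p by omega)
    nlinarith
  rw [ha1, ha2] at h3
  omega

end Degen

end Fermat.BAD

end
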