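import Fermat.Agent.BAD.Mono.Bound

/-!
# Counting the twisted sections

For a function with scales differing by `ϖ ^ T` the sections are at most as many as the two
bounds allow, the strict one on one side being enough. So the excesses sum to at most
`(n - 1) #S`, and to at most `(n - 2) #S` if the reductions of the sections split.
-/

set_option autoImplicit false

attribute [local instance 10000] SubalgebraClass.toAlgebra HahnSeries.powerSeriesAlgebra

noncomputable section

open AlgebraicCurve

namespace Fermat.BAD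

variable {L : Type*} [Field L] {A : ValuationSubring L}
variable {k : Type*} [Field k] [IsAlgClosed L] [IsAlgClosed k]
variable {F : Type*} [Field F] [Algebra L F]
variable {π : A →+* k} {ι : Bool → F →+* LaurentSeries L}
  {K : IntermediateField k (LaurentSeries k)}
variable [FF.IsFunctionField L F] [FF.IsFunctionField k K]

namespace Degen

variable (X : Degen π ι K) {n : ℕ} {ϖ : L} {D : Divisor L F} {y : F} {T : ℤ}

omit [IsAlgClosed L] in
/-- The excess is nonnegative. -/
theorem exc_nonneg (hn : n ≠ 0) (H : K) (c : ℤ) : 0 ≤ X.exc n H c := by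
  refine FF.degree_nonneg (Finsupp.le_def.mpr fun v => ?_)
  simp only [Finsupp.coe_zero, Pi.zero_apply, Finsupp.mapRange_apply]
  exact Int.emod_nonneg _ (by exact_mod_cast hn)

/-- The pairs of reductions of the integral sections of `D + m A0`. -/
def imgRed (D : Divisor L F) (m : ℕ) : Submodule k (Bool → K) :=
  X.redImage (X.sect D m) (fun _ => 1)

/-- Membership in `imgRed`. -/
theorem mem_imgRed {D : Divisor L F} {m : ℕ} {P : Bool → K} :
    P ∈ X.imgRed D m ↔ ∃ g ∈ X.sect D m, g ∈ X.O ∧ ∀ b, P b = X.red b g := by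
  simp [imgRed, mem_redImage]

/-- The flipped curve has the same `O`. -/
theorem flip_mem_O {f : F} : f ∈ X.flip.O ↔ f ∈ X.O := by
  simp only [mem_O]
  exact ⟨fun h b => by simpa using h (!b), fun h b => h (!b)⟩

/-- The second reduction of a section, strict if the first vanishes. -/
theorem red_false_mem_bnd (hn : n ≠ 0) (hϖ : ϖ ≠ 0) (hN : X.Node ϖ) (h : X.Scaled n ϖ D y T)
    {m : ℕ} {g : F} (hg : g ∈ X.sect D m) (hgO : g ∈ X.O) :
    X.red false g ∈ riemannRochSpace (X.flip.bnd n m (X.red false (ϖ ^ (-T) • y)) (-T)) ∧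
      (X.red true g = 0 → X.red false g ∈
        riemannRochSpace (X.flip.bnd n m (X.red false (ϖ ^ (-T) • y)) (-T + 1))) :=
  X.flip.red_mem_bnd hn hϖ (hN.flip hϖ) (h.flip X hϖ) hg (X.flip_mem_O.mpr hgO)

/-- The reductions of the sections of a scaled function form a finite-dimensional space. -/
theorem finiteDimensional_imgRed (hn : n ≠ 0) (hϖ : ϖ ≠ 0) (hN : X.Node ϖ)
    (h : X.Scaled n ϖ D y T) (m : ℕ) : FiniteDimensional k (X.imgRed D m) := by
  set V : Bool → Submodule k K := fun b =>
    cond b (riemannRochSpace (X.bnd n m (X.red true y) T))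
      (riemannRochSpace (X.flip.bnd n m (X.red false (ϖ ^ (-T) • y)) (-T))) with hV
  have hle : X.imgRed D m ≤ Submodule.pi Set.univ V := by
    intro P hP b _
    obtain ⟨g, hg, hgO, hPe⟩ := X.mem_imgRed.mp hP
    rw [hPe b]
    cases b
    · exact (X.red_false_mem_bnd hn hϖ hN h hg hgO).1
    · exact (X.red_mem_bnd hn hϖ hN h hg hgO).1
  have : ∀ b, FiniteDimensional k (V b) := fun b => by
    cases b <;> exact FF.instFiniteRiemannRochSpace _
  let e : (Submodule.pi Set.univ V : Submodule k (Bool → K)) →ₗ[k] ((b : Bool) → V b) :=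
    { toFun := fun P b => ⟨P.1 b, P.2 b trivial⟩
      map_add' := fun _ _ => rfl
      map_smul' := fun _ _ => rfl }
  have := FiniteDimensional.of_injective e fun P P' hPP =>
    Subtype.ext (funext fun b => congrArg Subtype.val (congrFun hPP b))
  exact Submodule.finiteDimensional_of_le hle

/-- The reductions of the sections are at least as many as the sections. -/
theorem le_finrank_imgRed (hn : n ≠ 0) (hϖ : ϖ ≠ 0) (hN : X.Node ϖ)
    (h : X.Scaled n ϖ D y T) {m : ℕ} (hm : X.N0 ≤ m) :
    2 * ((m : ℤ) * Divisor.degree X.B) + 2 - 2 * genusFF k K - X.S.card ≤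
      Module.finrank k (X.imgRed D m) := by
  have := X.finiteDimensional_imgRed hn hϖ hN h m
  have : FiniteDimensional L (X.sect D m) := FF.instFiniteRiemannRochSpace _
  have : FiniteDimensional k (X.redImage (X.sect D m) fun _ => 1) :=
    X.finiteDimensional_imgRed hn hϖ hN h m
  have h1 := X.finrank_le_redImage (W := X.sect D m) (u := fun _ => 1) fun _ => one_ne_zero
  have hd : Divisor.degree (D + m • X.A0) = 2 * ((m : ℤ) * Divisor.degree X.B) := by
    rw [map_add, h.degree_D X hn, map_nsmul, X.deg_A0, nsmul_eq_mul]; ring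
  have hB := X.deg_B_pos
  have h2 := FF.ell_of_degree_ge (D := D + m • X.A0) (by
    rw [hd]; unfold N0 at hm; nlinarith)
  rw [hd, FF.ell] at h2
  have hc : (genusFF L F : ℤ) + 1 ≤ 2 * genusFF k K + X.S.card := by exact_mod_cast X.count
  change (Module.finrank L (X.sect D m) : ℤ) = _ at h2
  unfold imgRed
  omega

/-- In large degree the dimension of the bounding Riemann–Roch space is given by Riemann–Roch and
the excess. -/
theorem finrank_bnd (hn : n ≠ 0) {m : ℕ} {H : K} {c : ℤ}
    (hm : (2 * genusFF k K : ℤ) + |c| * X.S.card + X.exc n H c ≤ m) :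
    (n : ℤ) * Module.finrank k (riemannRochSpace (X.bnd n m H c)) =
      (n : ℤ) * m * Divisor.degree X.B - c * X.S.card - X.exc n H c +
        n * (1 - genusFF k K) := by
  have hd := X.degree_bnd (n := n) m H c
  have hB := X.deg_B_pos
  have hn' : (1 : ℤ) ≤ n := by exact_mod_cast Nat.pos_of_ne_zero hn
  have h1 : c * X.S.card ≤ |c| * X.S.card :=
    mul_le_mul_of_nonneg_right (le_abs_self c) (by positivity)
  have he := X.exc_nonneg hn H c
  have hdeg : 2 * (genusFF k K : ℤ) - 1 ≤ Divisor.degree (X.bnd n m H c) := by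
    by_contra hlt
    push Not at hlt
    have a1 := mul_le_mul_of_nonneg_left (show (1 : ℤ) ≤ Divisor.degree X.B by omega)
      (by positivity : (0 : ℤ) ≤ (n : ℤ) * m)
    have a2 := mul_le_mul_of_nonneg_left hm (by positivity : (0 : ℤ) ≤ (n : ℤ))
    have a3 := le_mul_of_one_le_left (by positivity : (0 : ℤ) ≤ |c| * X.S.card) hn'
    have a4 := le_mul_of_one_le_left he hn'
    have a5 := mul_lt_mul_of_pos_left hlt (by omega : (0 : ℤ) < n)
    linarith
  have h2 := FF.ell_of_degree_ge hdeg
  rw [FF.ell] at h2
  change (Module.finrank k (riemannRochSpace (X.bnd n m H c)) : ℤ) = _ at h2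
  rw [h2]
  linarith

omit [IsAlgClosed L] in
/-- There are levels `m ≥ N0` above any given bound. -/
theorem exists_large (a : ℤ) : ∃ m : ℕ, X.N0 ≤ m ∧ a ≤ m :=
  ⟨max X.N0 a.toNat, le_max_left _ _, le_trans (Int.self_le_toNat a)
    (by exact_mod_cast le_max_right _ _)⟩

/-- The flipped curve has as many glued points. -/
theorem flip_card : X.flip.S.card = X.S.card := by
  classical
  rw [flip_S, Finset.card_image_of_injOn X.Qf_inj]

/-- The excess is at most `(n - 1) #S`. -/
theorem exc_add_le (hn : n ≠ 0) (hϖ : ϖ ≠ 0) (hN : X.Node ϖ) (h : X.Scaled n ϖ D y T) :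
    X.exc n (X.red true y) (T + 1) + X.flip.exc n (X.red false (ϖ ^ (-T) • y)) (-T) ≤
      ((n : ℤ) - 1) * X.S.card := by
  set H1 := X.red true y
  set H0 := X.red false (ϖ ^ (-T) • y)
  -- At a large level both bound spaces have their Riemann–Roch dimension.
  obtain ⟨m, hm0, hm⟩ := X.exists_large (2 * genusFF k K + (|T + 1| + |-T|) * X.S.card +
    X.exc n H1 (T + 1) + X.flip.exc n H0 (-T))
  have e1 := X.exc_nonneg hn H1 (T + 1)
  have e0 := X.flip.exc_nonneg hn H0 (-T)
  have d1 := X.finrank_bnd hn (m := m) (H := H1) (c := T + 1) (by nlinarith [abs_nonneg (-T)])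
  have d0 := X.flip.finrank_bnd hn (m := m) (H := H0) (c := -T) (by
    rw [X.flip_card]; nlinarith [abs_nonneg (T + 1)])
  rw [X.flip_card, X.flip_B] at d0
  have hN' := X.le_finrank_imgRed hn hϖ hN h hm0
  have := X.finiteDimensional_imgRed hn hϖ hN h m
  let V1 := riemannRochSpace (X.bnd n m H1 (T + 1))
  let V0 := riemannRochSpace (X.flip.bnd n m H0 (-T))
  -- The projection to the `false` component lands in `V0`; its kernel embeds in `V1`.
  let p : X.imgRed D m →ₗ[k] K := (LinearMap.proj false).comp (X.imgRed D m).subtype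
  have hrange : LinearMap.range p ≤ V0 := by
    rintro _ ⟨⟨P, hP⟩, rfl⟩
    obtain ⟨g, hg, hgO, hPe⟩ := X.mem_imgRed.mp hP
    change P false ∈ _
    rw [hPe false]
    exact (X.red_false_mem_bnd hn hϖ hN h hg hgO).1
  have : FiniteDimensional k V0 := FF.instFiniteRiemannRochSpace _
  have : FiniteDimensional k V1 := FF.instFiniteRiemannRochSpace _
  have hker : ∀ P : LinearMap.ker p, (P.1.1 true) ∈ V1 := fun P => by
    obtain ⟨g, hg, hgO, hPe⟩ := X.mem_imgRed.mp P.1.2
    rw [hPe true]
    exact (X.red_mem_bnd hn hϖ hN h hg hgO).2 (by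
      rw [← hPe false]; exact LinearMap.mem_ker.mp P.2)
  let q : LinearMap.ker p →ₗ[k] V1 :=
    { toFun := fun P => ⟨P.1.1 true, hker P⟩
      map_add' := fun _ _ => rfl
      map_smul' := fun _ _ => rfl }
  have hq : Function.Injective q := fun P P' hPP => by
    refine Subtype.ext (Subtype.ext (funext fun b => ?_))
    cases b
    · exact (LinearMap.mem_ker.mp P.2).trans (LinearMap.mem_ker.mp P'.2).symm
    · exact congrArg Subtype.val hPP
  -- Compare `dim V1 + dim V0` with the lower bound for the dimension of the image.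
  have hr := LinearMap.finrank_range_add_finrank_ker p
  have h0 := Submodule.finrank_mono hrange
  have h1 := LinearMap.finrank_le_finrank_of_injective hq
  have hsum : (Module.finrank k (X.imgRed D m) : ℤ) ≤
      Module.finrank k V1 + Module.finrank k V0 := by omega
  have := mul_le_mul_of_nonneg_left (hN'.trans hsum) (by positivity : (0 : ℤ) ≤ n)
  rw [mul_add] at this
  change (n : ℤ) * (Module.finrank k (riemannRochSpace (X.bnd n m H1 (T + 1)))) = _ at d1
  simp only [V1, V0] at this
  linarith

/-- If the reductions split into the two components the total excess is at most `(n - 2) #S`. -/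
theorem exc_add_le_of_split (hn : n ≠ 0) (hϖ : ϖ ≠ 0) (hN : X.Node ϖ) (h : X.Scaled n ϖ D y T)
    (hsplit : ∀ (m : ℕ), ∀ P ∈ X.imgRed D m, (fun b => cond b (P true) 0) ∈ X.imgRed D m) :
    X.exc n (X.red true y) (T + 1) + X.flip.exc n (X.red false (ϖ ^ (-T) • y)) (-T + 1) ≤
      ((n : ℤ) - 2) * X.S.card := by
  set H1 := X.red true y
  set H0 := X.red false (ϖ ^ (-T) • y)
  -- At a large level both bound spaces have their Riemann–Roch dimension.
  obtain ⟨m, hm0, hm⟩ := X.exists_large (2 * genusFF k K + (|T + 1| + |-T + 1|) * X.S.card +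
    X.exc n H1 (T + 1) + X.flip.exc n H0 (-T + 1))
  have e1 := X.exc_nonneg hn H1 (T + 1)
  have e0 := X.flip.exc_nonneg hn H0 (-T + 1)
  have d1 := X.finrank_bnd hn (m := m) (H := H1) (c := T + 1) (by nlinarith [abs_nonneg (-T + 1)])
  have d0 := X.flip.finrank_bnd hn (m := m) (H := H0) (c := -T + 1) (by
    rw [X.flip_card]; nlinarith [abs_nonneg (T + 1)])
  rw [X.flip_card, X.flip_B] at d0
  have hN' := X.le_finrank_imgRed hn hϖ hN h hm0
  have := X.finiteDimensional_imgRed hn hϖ hN h m
  let V1 := riemannRochSpace (X.bnd n m H1 (T + 1))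
  let V0 := riemannRochSpace (X.flip.bnd n m H0 (-T + 1))
  have : FiniteDimensional k V0 := FF.instFiniteRiemannRochSpace _
  have : FiniteDimensional k V1 := FF.instFiniteRiemannRochSpace _
  -- By splitting, each component is also the reduction of a member vanishing on the other.
  have hmem : ∀ P : X.imgRed D m, P.1 true ∈ V1 ∧ P.1 false ∈ V0 := by
    intro P
    have hA := hsplit m P.1 P.2
    have hB : (fun b => cond b 0 (P.1 false)) ∈ X.imgRed D m := by
      convert sub_mem P.2 hA using 1
      funext b; cases b <;> simp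
    obtain ⟨g, hg, hgO, hPe⟩ := X.mem_imgRed.mp hA
    obtain ⟨g', hg', hgO', hPe'⟩ := X.mem_imgRed.mp hB
    refine ⟨?_, ?_⟩
    · rw [show P.1 true = X.red true g from hPe true]
      exact (X.red_mem_bnd hn hϖ hN h hg hgO).2 (hPe false).symm
    · rw [show P.1 false = X.red false g' from hPe' false]
      exact (X.red_false_mem_bnd hn hϖ hN h hg' hgO').2 (hPe' true).symm
  -- So the image embeds in `V1 × V0`; compare with the lower bound for its dimension.
  let q : X.imgRed D m →ₗ[k] V1 × V0 :=
    { toFun := fun P => (⟨P.1 true, (hmem P).1⟩, ⟨P.1 false, (hmem P).2⟩)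
      map_add' := fun _ _ => rfl
      map_smul' := fun _ _ => rfl }
  have hq : Function.Injective q := fun P P' hPP => by
    refine Subtype.ext (funext fun b => ?_)
    cases b
    · exact congrArg (fun z : V1 × V0 => (z.2 : K)) hPP
    · exact congrArg (fun z : V1 × V0 => (z.1 : K)) hPP
  have : Module.Free k V0 := Module.Free.of_divisionRing k V0
  have : Module.Free k V1 := Module.Free.of_divisionRing k V1
  have h1 := LinearMap.finrank_le_finrank_of_injective hq
  rw [Module.finrank_prod] at h1
  have hsum : (Module.finrank k (X.imgRed D m) : ℤ) ≤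
      Module.finrank k V1 + Module.finrank k V0 := by exact_mod_cast h1
  have := mul_le_mul_of_nonneg_left (hN'.trans hsum) (by positivity : (0 : ℤ) ≤ n)
  rw [mul_add] at this
  simp only [V1, V0] at this
  linarith

end Degen

end Fermat.BAD

end
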