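import Fermat.Agent.BAD.Mono.Twist

/-!
# First order deformation of rational functions

An automorphism of a subfield with uniformiser `ρ` moving integers by multiples of `ρ ^ 2` and `ρ`
itself by exactly that much moves a `p`-th power by `ρ ^ (p + 1)`, and a scalar `a` by
`v(a) c ρ`.
-/

set_option autoImplicit false
set_option linter.unusedSectionVars false

attribute [local instance 10000] SubalgebraClass.toAlgebra HahnSeries.powerSeriesAlgebra

noncomputable section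

open AlgebraicCurve

namespace Fermat.BAD

open Fermat.RED.Model

variable {L : Type*} [Field L] {A : ValuationSubring L}
variable {k : Type*} [Field k] [IsAlgClosed L] [IsAlgClosed k]
variable {F : Type*} [Field F] [Algebra L F]
variable {π : A →+* k} {ι : Bool → F →+* LaurentSeries L}
  {K : IntermediateField k (LaurentSeries k)}
variable [FF.IsFunctionField L F] [FF.IsFunctionField k K]

/-- Small elements add. -/
theorem Small.add {a b : L} (h : Small π a) (hb : Small π b) : Small π (a + b) :=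
  ⟨add_mem h.1 hb.1, by
    rw [show (⟨a + b, add_mem h.1 hb.1⟩ : A) = ⟨a, h.1⟩ + ⟨b, hb.1⟩ from rfl, map_add, h.2, hb.2,
      add_zero]⟩

/-- Small elements negate. -/
theorem Small.neg {a : L} (h : Small π a) : Small π (-a) :=
  ⟨neg_mem h.1, by rw [show (⟨-a, neg_mem h.1⟩ : A) = -⟨a, h.1⟩ from rfl, map_neg, h.2, neg_zero]⟩

namespace RatData

/-- `a` has the value of `ρ ^ i`. -/
def Val (R : RatData π ι) (a : L) (i : ℤ) : Prop :=
  a ≠ 0 ∧ a / R.ρ ^ i ∈ A ∧ R.ρ ^ i / a ∈ A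

variable (R : RatData π ι)

/-- Every nonzero element of `M` has a value. -/
theorem exists_val {a : L} (ha : a ∈ R.M) (ha0 : a ≠ 0) : ∃ i, R.Val a i :=
  (R.value a ha ha0).imp fun _ h => ⟨ha0, h⟩

/-- `ρ ^ i` has value `i`. -/
theorem val_rho (i : ℤ) : R.Val (R.ρ ^ i) i :=
  have h := zpow_ne_zero i R.ρ_ne
  ⟨h, by rw [div_self h]; exact one_mem A, by rw [div_self h]; exact one_mem A⟩

variable {R}

/-- The value of a product is the sum of the values. -/
theorem Val.mul {a b : L} {i j : ℤ} (h : R.Val a i) (h' : R.Val b j) : R.Val (a * b) (i + j) := by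
  refine ⟨mul_ne_zero h.1 h'.1, ?_, ?_⟩
  · rw [zpow_add₀ R.ρ_ne, mul_div_mul_comm]; exact mul_mem h.2.1 h'.2.1
  · rw [zpow_add₀ R.ρ_ne, mul_div_mul_comm]; exact mul_mem h.2.2 h'.2.2

/-- The value of the inverse is the negated value. -/
theorem Val.inv {a : L} {i : ℤ} (h : R.Val a i) : R.Val a⁻¹ (-i) := by
  refine ⟨inv_ne_zero h.1, ?_, ?_⟩
  · rw [zpow_neg, inv_div_inv]; exact h.2.2
  · rw [zpow_neg, inv_div_inv]; exact h.2.1

/-- The value of a power is the multiple of the value. -/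
theorem Val.zpow {a : L} {i : ℤ} (h : R.Val a i) (j : ℤ) : R.Val (a ^ j) (i * j) := by
  have hone : R.Val (1 : L) 0 := by simpa using R.val_rho 0
  induction j using Int.induction_on with
  | zero => simpa using hone
  | succ m ih => rw [zpow_add_one₀ h.1, mul_add, mul_one]; exact ih.mul h
  | pred m ih => rw [zpow_sub_one₀ h.1, mul_sub, mul_one, sub_eq_add_neg]; exact ih.mul h.inv

/-- Nonnegative value means integral. -/
theorem Val.mem {a : L} {i : ℤ} (h : R.Val a i) (hi : 0 ≤ i) : a ∈ A := by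
  rw [show a = a / R.ρ ^ i * R.ρ ^ i from (div_mul_cancel₀ _ (zpow_ne_zero i R.ρ_ne)).symm]
  exact mul_mem h.2.1 (R.rho_pow_mem hi)

/-- Positive value means small. -/
theorem Val.small {a : L} {i : ℤ} (h : R.Val a i) (hi : 0 < i) : Small π a := by
  rw [show a = R.ρ ^ i * (a / R.ρ ^ i) from (mul_div_cancel₀ _ (zpow_ne_zero i R.ρ_ne)).symm]
  exact (R.rho_pow_small hi).mul h.2.1

end RatData

/-- An automorphism of `M` with first order inertia, acting on rational functions, and invariant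
rational functions realising the node condition. -/
structure FOData (X : Degen π ι K) (R : RatData π ι) (p : ℕ) (ϖ : L) where
  /-- The automorphism of the constants. -/
  σ : L →+* L
  /-- Its action on functions. -/
  s : F →+* F
  /-- It acts on expansions coefficientwise. -/
  s_coeff : ∀ b f n, (ι b (s f)).coeff n = σ ((ι b f).coeff n)
  /-- It preserves the sections of multiples of `A0`. -/
  s_rr : ∀ (m : ℕ) f, f ∈ riemannRochSpace (m • X.A0) → s f ∈ riemannRochSpace (m • X.A0)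
  /-- Integers of `M` move by multiples of `ρ ^ 2`. -/
  move : ∀ a ∈ R.M, a ∈ A → (σ a - a) / R.ρ ^ 2 ∈ A
  /-- The movement of the uniformiser, divided by `ρ ^ 2`. -/
  c : A
  /-- It is a unit. -/
  c_ne : π c ≠ 0
  /-- `σ ρ = ρ + c ρ ^ 2`. -/
  move_rho : (σ R.ρ - R.ρ) / R.ρ ^ 2 = c
  /-- `p` is divisible by `ρ ^ (p + 1)`. -/
  p_small : (p : L) / R.ρ ^ (p + 1) ∈ A
  /-- `ϖ` is rational. -/
  ϖ_mem : ϖ ∈ R.M
  /-- `σ` fixes `ϖ`. -/
  ϖ_fix : σ ϖ = ϖ
  /-- `ϖ` has value `p (p - 1)`. -/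
  ϖ_val : R.Val ϖ ((p : ℤ) * ((p : ℤ) - 1))
  /-- The node condition, by invariant rational functions. -/
  node : ∀ v ∈ X.S, ∀ i : ℤ, ∃ (c : ℕ) (U : F), X.IsNodeFun ϖ v i c U ∧ U ∈ R.R ∧ s U = U

namespace FOData

variable {X : Degen π ι K} {R : RatData π ι} {p : ℕ} {ϖ : L} (W : FOData X R p ϖ)
include W

/-- The node condition, forgetting rationality. -/
theorem toNode : X.Node ϖ := fun v hv i =>
  let ⟨c, U, h, _⟩ := W.node v hv i
  ⟨c, U, h⟩

/-- `ϖ` is nonzero. -/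
theorem ϖ_ne : ϖ ≠ 0 := W.ϖ_val.1

/-- `s` acts on constants by `σ`. -/
theorem s_algebraMap (c : L) : W.s (algebraMap L F c) = algebraMap L F (W.σ c) := by
  refine (ι true).injective (HahnSeries.ext (funext fun n => ?_))
  have h : ∀ d : L, (ι true (algebraMap L F d)).coeff n =
      d * (1 : LaurentSeries L).coeff n := fun d => by
    rw [X.ι_algebraMap, ← Fermat.RED.coeff_algebraMap_mul, mul_one]
  rw [W.s_coeff, h, h, map_mul, HahnSeries.coeff_one]
  split <;> simp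

/-- `s` is `σ`-semilinear. -/
theorem s_smul (c : L) (f : F) : W.s (c • f) = W.σ c • W.s f := by
  rw [Algebra.smul_def, map_mul, W.s_algebraMap, ← Algebra.smul_def]

/-- The data with the two components exchanged. -/
def flip : FOData X.flip R.flip p ϖ where
  σ := W.σ
  s := W.s
  s_coeff := fun b f n => W.s_coeff (!b) f n
  s_rr := fun m f hf => W.s_rr m f hf
  move := W.move
  c := W.c
  c_ne := W.c_ne
  move_rho := W.move_rho
  p_small := W.p_small
  ϖ_mem := W.ϖ_mem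
  ϖ_fix := W.ϖ_fix
  ϖ_val := W.ϖ_val
  node := by
    classical
    intro t ht i
    rw [Degen.flip_S, Finset.mem_image] at ht
    obtain ⟨v, hv, rfl⟩ := ht
    obtain ⟨c, U, ⟨hU, h1, h2, h3, h4⟩, h5, h6⟩ := W.node v hv (-i)
    have hϖ := W.ϖ_ne
    refine ⟨c, ϖ ^ (-i) • U, ⟨Submodule.smul_mem _ _ hU, X.flip_prim.mpr h2, X.flip_prim.mpr ?_,
      ?_, ?_⟩, R.smul_mem (zpow_mem W.ϖ_mem _) h5, ?_⟩
    · rwa [smul_smul, ← zpow_add₀ hϖ, add_neg_cancel, zpow_zero, one_smul]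
    · rw [Degen.flip_red]; simpa using h4
    · rw [Degen.flip_red, Degen.flip_Qf X hv, smul_smul, ← zpow_add₀ hϖ, add_neg_cancel, zpow_zero,
        one_smul]
      simpa using h3
    · rw [W.s_smul, h6, map_zpow₀, W.ϖ_fix]

/-- `σ a / a = 1 + ρ x` with `x` reducing to `i c`. -/
theorem log_val {a : L} (ha : a ∈ R.M) {i : ℤ} (h : R.Val a i) :
    ∃ x : A, W.σ a = a * (1 + R.ρ * x) ∧ π x = (i : k) * π W.c := by
  set ρA : A := ⟨R.ρ, R.ρ_A⟩
  have hρ := R.ρ_ne
  have hρA : π ρA = 0 := R.ρ_small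
  set c1 : A := 1 + ρA * W.c
  have hc1 : π c1 = 1 := by rw [map_add, map_one, map_mul, hρA, zero_mul, add_zero]
  have hcρ : W.σ R.ρ = R.ρ * (c1 : L) := by
    have h1 := W.move_rho
    rw [div_eq_iff (pow_ne_zero 2 hρ)] at h1
    push_cast [c1, ρA]
    linear_combination h1
  have hinv : (c1 : L)⁻¹ ∈ A := inv_mem_of_map_ne_zero X.surj (by rw [hc1]; exact one_ne_zero)
  have hc10 : (c1 : L) ≠ 0 := fun e => by
    rw [show c1 = 0 from Subtype.ext e, map_zero] at hc1; exact zero_ne_one hc1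
  set c1i : A := ⟨(c1 : L)⁻¹, hinv⟩
  have hc1i : π c1i = 1 := by
    have := congrArg π (show c1i * c1 = 1 from Subtype.ext (inv_mul_cancel₀ hc10))
    rwa [map_mul, hc1, mul_one, map_one] at this
  -- first for the powers of `ρ`
  have hpow : ∀ i : ℤ, ∃ x : A, W.σ (R.ρ ^ i) = R.ρ ^ i * (1 + R.ρ * x) ∧
      π x = (i : k) * π W.c := by
    intro i
    induction i using Int.induction_on with
    | zero => exact ⟨0, by simp, by simp⟩
    | succ m ih =>
      obtain ⟨x, hx, hπx⟩ := ih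
      refine ⟨x + W.c + ρA * x * W.c, ?_, ?_⟩
      · rw [zpow_add_one₀ hρ, map_mul, hx, hcρ]
        push_cast [c1, ρA]
        ring
      · simp only [map_add, map_mul, hρA, hπx, zero_mul, add_zero]
        push_cast
        ring
    | pred m ih =>
      obtain ⟨x, hx, hπx⟩ := ih
      refine ⟨(x - W.c) * c1i, ?_, ?_⟩
      · rw [zpow_sub_one₀ hρ, map_mul, hx, map_inv₀, hcρ]
        have h2 : (c1 : L) = 1 + R.ρ * (W.c : L) := by push_cast [c1, ρA]; ring
        have hc10' : (1 : L) + R.ρ * (W.c : L) ≠ 0 := h2 ▸ hc10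
        push_cast [c1i]
        rw [h2]
        field_simp
        ring
      · rw [map_mul, map_sub, hπx, hc1i, mul_one]
        push_cast
        ring
  obtain ⟨y, hy, hπy⟩ := hpow i
  have hρi := zpow_ne_zero i hρ
  -- the unit part moves by a multiple of `ρ²`
  set u : L := a / R.ρ ^ i
  have huM : u ∈ R.M := div_mem ha (zpow_mem R.ρ_mem i)
  have hu0 : u ≠ 0 := div_ne_zero h.1 hρi
  have huinv : u⁻¹ ∈ A := by rw [inv_div]; exact h.2.2
  set z : A := ⟨(W.σ u - u) / R.ρ ^ 2, W.move u huM h.2.1⟩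
  set ui : A := ⟨u⁻¹, huinv⟩
  refine ⟨y + ρA * z * ui * (1 + ρA * y), ?_, ?_⟩
  · have hσu : W.σ u = u + R.ρ ^ 2 * (z : L) := by
      change W.σ u = u + R.ρ ^ 2 * ((W.σ u - u) / R.ρ ^ 2)
      rw [mul_div_cancel₀ _ (pow_ne_zero 2 hρ)]; ring
    rw [show a = u * R.ρ ^ i from (div_mul_cancel₀ _ hρi).symm, map_mul, hy, hσu]
    push_cast [ui, ρA]
    field_simp
    ring
  · simp only [map_add, map_mul, hρA, zero_mul, add_zero, hπy]

/-- `p`-th powers of first order units. -/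
theorem pow_first (hp : p.Prime) (x : A) :
    ∃ y : A, (1 + R.ρ * (x : L)) ^ p = 1 + R.ρ ^ p * (y : L) ∧ π y = π x ^ p := by
  set ρA : A := ⟨R.ρ, R.ρ_A⟩
  obtain ⟨r, hr⟩ := exists_add_pow_prime_eq hp (1 : A) (ρA * x)
  set q : A := ⟨_, W.p_small⟩
  refine ⟨x ^ p + ρA * (ρA * (q * x * r)), ?_, ?_⟩
  · have h := congrArg (fun a : A => (a : L)) hr
    push_cast [ρA] at h ⊢
    have hq : (p : L) = (q : L) * R.ρ ^ (p + 1) :=
      (div_mul_cancel₀ _ (pow_ne_zero _ R.ρ_ne)).symm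
    rw [h, one_pow, hq]
    ring
  · simp only [map_add, map_mul, map_pow]
    rw [show π ρA = 0 from R.ρ_small, zero_mul, add_zero]

/-- An integral rational function moves by a multiple of `ρ ^ 2`. -/
theorem int_sub {b : Bool} {f : F} (hf : f ∈ R.R) (hfi : ι b f ∈ intSeries A) :
    ι b ((R.ρ ^ 2)⁻¹ • (W.s f - f)) ∈ intSeries A :=
  X.int_sub_of_move R W.σ W.s W.s_coeff W.move hf hfi

/-- The `p`-th power of an integral rational function moves by a multiple of `ρ ^ (p + 1)`. -/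
theorem pow_move (hp : p.Prime) {b : Bool} {u : F} (hu : u ∈ R.R) (hui : ι b u ∈ intSeries A) :
    (W.s u) ^ p ∈ gInt π (ι b) ∧
      ∃ g ∈ gInt π (ι b), (W.s u) ^ p - u ^ p = R.ρ ^ (p + 1) • g := by
  set g0 := (R.ρ ^ 2)⁻¹ • (W.s u - u) with hg0
  have hgi : g0 ∈ gInt π (ι b) := mem_gInt_of_int (W.int_sub hu hui)
  have hu' : u ∈ gInt π (ι b) := mem_gInt_of_int hui
  have hsu : W.s u = u + R.ρ ^ 2 • g0 := by
    rw [hg0, smul_smul, mul_inv_cancel₀ (pow_ne_zero 2 R.ρ_ne), one_smul]; ring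
  have hρ2 : R.ρ ^ 2 • g0 ∈ gInt π (ι b) := X.int_smul (pow_mem R.ρ_A 2) hgi
  refine ⟨pow_mem (hsu ▸ add_mem hu' hρ2) p, ?_⟩
  obtain ⟨r, hr⟩ := exists_add_pow_prime_eq hp (⟨u, hu'⟩ : gInt π (ι b)) ⟨_, hρ2⟩
  have h := congrArg (fun a : gInt π (ι b) => (a : F)) hr
  push_cast at h
  have h2 : 2 ≤ p := hp.two_le
  refine ⟨R.ρ ^ (p - 1) • g0 ^ p + (((p : L) / R.ρ ^ (p + 1)) * R.ρ ^ 2) • (u * g0 * (r : F)),
    add_mem (X.int_smul (pow_mem R.ρ_A _) (pow_mem hgi p))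
      (X.int_smul (mul_mem W.p_small (pow_mem R.ρ_A 2)) (mul_mem (mul_mem hu' hgi) r.2)), ?_⟩
  clear_value g0
  rw [hsu, h, smul_pow, ← pow_mul, smul_add, smul_smul, smul_smul, ← pow_add,
    show p + 1 + (p - 1) = 2 * p by omega,
    show R.ρ ^ (p + 1) * ((p : L) / R.ρ ^ (p + 1) * R.ρ ^ 2) = (p : L) * R.ρ ^ 2 by
      rw [← mul_assoc, mul_div_cancel₀ _ (pow_ne_zero _ R.ρ_ne)]]
  simp only [Algebra.smul_def, map_mul, map_natCast, map_pow]
  ring

/-- **The reduction of the derivative of `u ^ p / z`.** -/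
theorem diff_red (hp : p.Prime) {b : Bool} {u z : F} (hu : u ∈ R.R) (hui : ι b u ∈ intSeries A)
    (hz : X.Prim b z) {κ E ν : L} (hE0 : E ≠ 0) (hEs : Small π E)
    (hEρ : Small π (R.ρ ^ (p + 1) / E)) (hν : ν / E ∈ A)
    (hδ : E⁻¹ • (κ • W.s z - z) ∈ gInt π (ι b)) :
    E⁻¹ • ((1 + ν) • ((W.s u) ^ p * (κ • W.s z)⁻¹) - u ^ p * z⁻¹) ∈ gInt π (ι b) ∧
      X.red b (E⁻¹ • ((1 + ν) • ((W.s u) ^ p * (κ • W.s z)⁻¹) - u ^ p * z⁻¹)) =
        X.red b u ^ p * (X.red b z)⁻¹ *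
          (algebraMap k K (π ⟨_, hν⟩) - X.red b (E⁻¹ • (κ • W.s z - z)) * (X.red b z)⁻¹) := by
  set δ := E⁻¹ • (κ • W.s z - z) with hδdef
  set Z := κ • W.s z with hZ
  have hZe : Z = z + E • δ := by
    rw [hδdef, smul_smul, mul_inv_cancel₀ hE0, one_smul]; ring
  obtain ⟨hEA, hπE⟩ := hEs
  have hEd : E • δ ∈ gInt π (ι b) := X.int_smul hEA hδ
  have hredE : X.red b (E • δ) = 0 := by
    rw [show E • δ = ((⟨E, hEA⟩ : A) : L) • δ from rfl, X.red_smul _ hδ, hπE, zero_smul]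
  -- `Z ≡ z`, with `Z - z = E δ`
  have hredZ : X.red b Z = X.red b z := by rw [hZe, X.red_add hz.1 hEd, hredE, add_zero]
  have hZp : X.Prim b Z := ⟨hZe ▸ add_mem hz.1 hEd, hredZ ▸ hz.2⟩
  obtain ⟨hzi, hzr⟩ := X.prim_inv hz
  obtain ⟨hZi, hZr⟩ := X.prim_inv hZp
  rw [hredZ] at hZr
  obtain ⟨hsu, g, hg, hgp⟩ := W.pow_move hp hu hui
  have hu' : u ∈ gInt π (ι b) := mem_gInt_of_int hui
  -- expand the difference quotient
  have key : E⁻¹ • ((1 + ν) • ((W.s u) ^ p * Z⁻¹) - u ^ p * z⁻¹) =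
      (ν / E) • ((W.s u) ^ p * Z⁻¹) + (R.ρ ^ (p + 1) / E) • (g * Z⁻¹) -
        u ^ p * δ * (Z⁻¹ * z⁻¹) := by
    have hz0 := hz.ne_zero
    have hZ0 := hZp.ne_zero
    have he : u ^ p * z⁻¹ = u ^ p * Z⁻¹ + E • (u ^ p * δ * (Z⁻¹ * z⁻¹)) := by
      have h1 : Z - z = E • δ := by rw [hZe]; ring
      rw [show E • (u ^ p * δ * (Z⁻¹ * z⁻¹)) = u ^ p * (E • δ) * (Z⁻¹ * z⁻¹) by
        simp only [Algebra.smul_def]; ring, ← h1]
      field_simp
      ring
    have h2 : (R.ρ ^ (p + 1) / E) • (g * Z⁻¹) = E⁻¹ • (((W.s u) ^ p - u ^ p) * Z⁻¹) := by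
      rw [hgp, smul_mul_assoc, smul_smul]
      congr 1
      field_simp
    rw [h2, he, add_smul, one_smul, smul_sub, smul_add, smul_add,
      smul_smul E⁻¹ E, inv_mul_cancel₀ hE0, one_smul, smul_smul, inv_mul_eq_div, sub_mul, smul_sub]
    abel
  have m1 := mul_mem hsu hZi.1
  have m2 := mul_mem hg hZi.1
  have m3 := mul_mem (mul_mem (pow_mem hu' p) hδ) (mul_mem hZi.1 hzi.1)
  have i1 := X.int_smul hν m1
  have i2 := X.int_smul hEρ.1 m2
  rw [key]
  refine ⟨sub_mem (add_mem i1 i2) m3, ?_⟩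
  have hsured : X.red b ((W.s u) ^ p) = X.red b u ^ p := by
    have h3 : (W.s u) ^ p = u ^ p + R.ρ ^ (p + 1) • g := by rw [← hgp]; ring
    have hsm := X.int_smul (b := b) (pow_mem R.ρ_A (p + 1)) hg
    rw [h3, X.red_add (pow_mem hu' p) hsm, X.red_pow hu',
      show R.ρ ^ (p + 1) • g = (((⟨R.ρ, R.ρ_A⟩ : A) ^ (p + 1) : A) : L) • g by simp,
      X.red_smul _ hg, map_pow, R.ρ_small, zero_pow (Nat.succ_ne_zero p), zero_smul, add_zero]
  rw [X.red_sub (add_mem i1 i2) m3, X.red_add i1 i2,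
    show (ν / E) • ((W.s u) ^ p * Z⁻¹) = ((⟨_, hν⟩ : A) : L) • ((W.s u) ^ p * Z⁻¹) from rfl,
    X.red_smul _ m1,
    show (R.ρ ^ (p + 1) / E) • (g * Z⁻¹) = ((⟨_, hEρ.1⟩ : A) : L) • (g * Z⁻¹) from rfl,
    X.red_smul _ m2, hEρ.2, zero_smul, add_zero,
    X.red_mul hsu hZi.1, hsured, hZr, X.red_mul (mul_mem (pow_mem hu' p) hδ) (mul_mem hZi.1 hzi.1),
    X.red_mul (pow_mem hu' p) hδ, X.red_pow hu', X.red_mul hZi.1 hzi.1, hZr, hzr, Algebra.smul_def]
  ring

end FOData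

end Fermat.BAD

end
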