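import Fermat.Agent.BAD.Mono.Attain

/-!
# Classes over a field where inertia moves by first order

If `σ` moves the integers of `M` by multiples of `ρ ^ 2` and `ρ` exactly so, and the class of `D`
is killed by `p` and rational over `M`, then the orders at the glued points of the two reductions
of `y` are congruent modulo `p`.

For `z = 1 / (c y)` normalised by `κ` (`exists_kappa`), the reduction of `(κ s z - z) / E` at the
worst depth `E` is regular relative to `z` everywhere (`regular_off`, `at_glued`, by differentiating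
test functions `w ^ p (c y) U`), hence zero, which forces `E = ρ ^ p` and the congruence.
-/

set_option autoImplicit false
set_option linter.unusedSectionVars false

attribute [local instance 10000] SubalgebraClass.toAlgebra HahnSeries.powerSeriesAlgebra

noncomputable section

open AlgebraicCurve

namespace Fermat.BAD

open Fermat.FF Fermat.RED.Model

variable {L : Type*} [Field L] {A : ValuationSubring L}
variable {k : Type*} [Field k] [IsAlgClosed L] [IsAlgClosed k]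
variable {F : Type*} [Field F] [Algebra L F]
variable {π : A →+* k} {ι : Bool → F →+* LaurentSeries L}
  {K : IntermediateField k (LaurentSeries k)}
variable [FF.IsFunctionField L F] [FF.IsFunctionField k K]

/-- Moving a scalar into an inverse. -/
theorem smul_inv_smul_mul {c : L} (x f : F) : c⁻¹ • (f * x⁻¹) = f * (c • x)⁻¹ := by
  simp only [Algebra.smul_def, map_inv₀, mul_inv]
  ring

namespace FOData

variable {X : Degen π ι K} {R : RatData π ι} {p l : ℕ} {ϖ : L} {D : Divisor L F} {y : F} {c1 c0 : L}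

/-- The normalisation of the movement of a primitive function at one coefficient. -/
theorem exists_kappa (W : FOData X R p ϖ) {b : Bool} {z : F} (hz : z ∈ R.R)
    (hzi : ι b z ∈ intSeries A)
    (hzp : X.Prim b z) :
    ∃ (κ : L) (n : ℤ), κ ≠ 0 ∧ Small π (κ - 1) ∧ (X.red b z : LaurentSeries k).coeff n ≠ 0 ∧
      (∀ E : L, (ι b (E⁻¹ • (κ • W.s z - z))).coeff n = 0) ∧
      ∃ E0 : L, Small π E0 ∧ (E0 = 0 → κ • W.s z - z = 0) ∧
        (E0 ≠ 0 → ι b (E0⁻¹ • (κ • W.s z - z)) ∈ intSeries A ∧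
          X.red b (E0⁻¹ • (κ • W.s z - z)) ≠ 0) := by
  obtain ⟨n, hn⟩ : ∃ n, (X.red b z : LaurentSeries k).coeff n ≠ 0 := by
    by_contra! h
    exact hzp.2 (Subtype.ext (HahnSeries.ext (funext h)))
  have hn' := hn
  rw [X.coe_red_int hzi] at hn'
  set a := (ι b z).coeff n with ha
  have haA : a ∈ A := mem_intSeries_iff.mp hzi n
  have haM : a ∈ R.M := R.coeff_mem z hz b n
  have ha0 : a ≠ 0 := fun h => hn' (by
    rw [show (⟨_, mem_intSeries_iff.mp hzi n⟩ : A) = 0 from Subtype.ext h, map_zero])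
  have hainv : a⁻¹ ∈ A := inv_mem_of_map_ne_zero X.surj hn'
  set ρA : A := ⟨R.ρ, R.ρ_A⟩
  set z' : A := ⟨(W.σ a - a) / R.ρ ^ 2, W.move a haM haA⟩
  set q : A := ρA ^ 2 * z' * ⟨a⁻¹, hainv⟩
  have hq : π q = 0 := by
    simp only [q, map_mul, map_pow]
    rw [show π ρA = 0 from R.ρ_small]; ring
  have hσa : W.σ a = a * (1 + (q : L)) := by
    have h1 : R.ρ ^ 2 * (z' : L) = W.σ a - a := mul_div_cancel₀ _ (pow_ne_zero 2 R.ρ_ne)
    push_cast [q, ρA]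
    rw [h1]
    field_simp
    ring
  have h1q : π (1 + q) = 1 := by rw [map_add, map_one, hq, add_zero]
  have hinv : ((1 + q : A) : L)⁻¹ ∈ A :=
    inv_mem_of_map_ne_zero X.surj (by rw [h1q]; exact one_ne_zero)
  set qi : A := ⟨_, hinv⟩
  have hq0 : ((1 + q : A) : L) ≠ 0 := fun e => by
    rw [show (1 + q : A) = 0 from Subtype.ext e, map_zero] at h1q; exact zero_ne_one h1q
  have hqi : π qi = 1 := by
    have := congrArg π (show qi * (1 + q) = 1 from Subtype.ext (inv_mul_cancel₀ hq0))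
    rwa [map_mul, h1q, mul_one, map_one] at this
  set κ := (qi : L) with hκ
  have hκσ : κ * W.σ a = a := by
    rw [hσa, hκ]
    change ((1 + q : A) : L)⁻¹ * (a * ((1 + q : A) : L)) = a
    field_simp
  have hκ1 : Small π (κ - 1) := ⟨sub_mem hinv (one_mem A), by
    rw [show (⟨κ - 1, sub_mem hinv (one_mem A)⟩ : A) = qi - 1 from rfl, map_sub, hqi, map_one,
      sub_self]⟩
  have hκ0 : κ ≠ 0 := inv_ne_zero hq0
  have hcoeff : ∀ E : L, (ι b (E⁻¹ • (κ • W.s z - z))).coeff n = 0 := fun E => by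
    rw [RatData.coeff_smul (X := X), map_sub, HahnSeries.coeff_sub, RatData.coeff_smul (X := X),
      W.s_coeff, ← ha, hκσ, sub_self, mul_zero]
  refine ⟨κ, n, hκ0, hκ1, hn, hcoeff, ?_⟩
  set δ := κ • W.s z - z
  have hδe : δ = (κ - 1) • z + κ • R.ρ ^ 2 • ((R.ρ ^ 2)⁻¹ • (W.s z - z)) := by
    rw [smul_smul (R.ρ ^ 2), mul_inv_cancel₀ (pow_ne_zero 2 R.ρ_ne), one_smul, sub_smul, one_smul,
      smul_sub]
    simp only [δ]
    abel
  have hg := mem_gInt_of_int (π := π) (W.int_sub hz hzi)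
  have hρ2 := X.int_smul (b := b) (pow_mem R.ρ_A 2) hg
  have hδi : δ ∈ gInt π (ι b) := hδe ▸ add_mem (X.int_smul hκ1.1 hzp.1) (X.int_smul hinv hρ2)
  have hδr : X.red b δ = 0 := by
    rw [hδe, X.red_add (X.int_smul hκ1.1 hzp.1) (X.int_smul hinv hρ2),
      show (κ - 1) • z = ((⟨_, hκ1.1⟩ : A) : L) • z from rfl, X.red_smul _ hzp.1, hκ1.2, zero_smul,
      zero_add, X.red_smul qi hρ2,
      show R.ρ ^ 2 • ((R.ρ ^ 2)⁻¹ • (W.s z - z)) =
        ((ρA ^ 2 : A) : L) • ((R.ρ ^ 2)⁻¹ • (W.s z - z)) by simp [ρA],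
      X.red_smul _ hg, map_pow, show π ρA = 0 from R.ρ_small, zero_pow two_ne_zero, zero_smul,
      smul_zero]
  rcases eq_or_ne δ 0 with h0 | h0
  · exact ⟨0, small_zero, fun _ => h0, fun h => absurd rfl h⟩
  obtain ⟨c, hc, hp⟩ := X.exists_smul_prim b h0
  have hcA : c ∉ A := fun h => hp.2 (by
    rw [show c • δ = ((⟨c, h⟩ : A) : L) • δ from rfl, X.red_smul _ hδi, hδr, smul_zero])
  refine ⟨c⁻¹,
    ⟨(A.mem_or_inv_mem c).resolve_left hcA, X.eq_zero_of_inv_notMem (by simpa using hcA)⟩,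
    fun h => absurd h (inv_ne_zero hc), fun _ => ?_⟩
  rw [inv_inv]
  refine ⟨?_, hp.2⟩
  -- the expansion of `δ` is integral
  have hint : ι b δ ∈ intSeries A := by
    rw [hδe, Algebra.smul_def, Algebra.smul_def κ, Algebra.smul_def (R.ρ ^ 2), map_add, map_mul,
      map_mul, map_mul]
    exact add_mem (mul_mem (X.series_algebraMap hκ1.1) hzi)
      (mul_mem (X.series_algebraMap hinv) (mul_mem (X.series_algebraMap (pow_mem R.ρ_A 2))
        (W.int_sub hz hzi)))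
  refine X.series_int_of_bdd hp.1 (a := c⁻¹) (inv_ne_zero hc) ?_
  rwa [smul_smul, inv_mul_cancel₀ hc, one_smul]

/-- A movement with regular ratio vanishes. -/
theorem red_eq_zero_of_regular {b : Bool} {z δ : F} {n : ℤ}
    (hz : (X.red b z : LaurentSeries k).coeff n ≠ 0) (hδ : ι b δ ∈ intSeries A)
    (hn : (ι b δ).coeff n = 0) (hreg : ∀ v : Place k K, OrdGE v (X.red b δ * (X.red b z)⁻¹) 0) :
    X.red b δ = 0 := by
  have hz0 : X.red b z ≠ 0 := fun h => hz (by rw [h]; simp)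
  obtain ⟨γ, hγ⟩ : (X.red b δ * (X.red b z)⁻¹ : K) ∈ Set.range (algebraMap k K) :=
    mem_range_of_forall_ordGE hreg
  have he : X.red b δ = γ • X.red b z := by
    rw [Algebra.smul_def, hγ, inv_mul_cancel_right₀ hz0]
  have h1 := X.coe_red_int hδ n
  rw [he, X.coe_smul_series, show (⟨_, mem_intSeries_iff.mp hδ n⟩ : A) = 0 from Subtype.ext hn,
    map_zero, mul_eq_zero] at h1
  rw [he, h1.resolve_right hz, zero_smul]

/-- `1 / (c y)` is rational. -/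
theorem inv_mem_R (h : X.Pres R p l D y c1 c0) {c : L} (hc : c ∈ R.M) : (c • y)⁻¹ ∈ R.R := by
  rw [Algebra.smul_def, mul_inv, ← map_inv₀, ← Algebra.smul_def]
  exact R.smul_mem (inv_mem hc) h.inv_mem

/-- Its expansion is integral where `c y` is primitive. -/
theorem inv_int (h : X.Pres R p l D y c1 c0) {b : Bool} {c : L} (hp : X.Prim b (c • y)) :
    ι b (c • y)⁻¹ ∈ intSeries A := by
  refine X.series_int_of_mem (m := p * l) (X.prim_inv hp).1.1 ?_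
  rw [Algebra.smul_def, mul_inv, ← map_inv₀, ← Algebra.smul_def]
  exact Submodule.smul_mem _ _ h.inv_rr

/-- Large multiples of the base divisor give bounding divisors of large degree. -/
theorem exists_bnd_large (hp : p.Prime) (_ : X.Pres R p l D y c1 c0) (T : ℤ) :
    ∃ m : ℕ, X.N0 ≤ m ∧ (2 * genusFF k K : ℤ) + (|T - 1 + 1| + |-(T - 1)|) * X.S.card +
        X.exc p (X.red true (c1 • y)) (T - 1 + 1) +
        X.flip.exc p (X.red false (c0 • y)) (-(T - 1)) ≤ m ∧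
      2 * (genusFF k K : ℤ) ≤ Divisor.degree (X.bnd p m (X.red true (c1 • y)) T) := by
  classical
  have hn := hp.ne_zero
  set H1 := X.red true (c1 • y)
  obtain ⟨m, hm0, hm⟩ := X.exists_large (2 * genusFF k K + (|T - 1 + 1| + |-(T - 1)|) * X.S.card +
    X.exc p H1 (T - 1 + 1) + X.flip.exc p (X.red false (c0 • y)) (-(T - 1)))
  refine ⟨m, hm0, hm, ?_⟩
  have hd := X.degree_bnd (n := p) m H1 T
  have hB := X.deg_B_pos
  have e1 := X.exc_nonneg hn H1 T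
  have e0 := X.flip.exc_nonneg hn (X.red false (c0 • y)) (-(T - 1))
  rw [sub_add_cancel] at hm
  by_contra hlt
  push Not at hlt
  have hp1 : (1 : ℤ) ≤ p := by exact_mod_cast hp.one_le
  have h2 := mul_lt_mul_of_pos_left hlt (show (0 : ℤ) < p by omega)
  have h3 : (p : ℤ) * m ≤ (p : ℤ) * m * Divisor.degree X.B :=
    le_mul_of_one_le_right (mul_nonneg (by omega) (Int.natCast_nonneg _)) hB
  have h5 : 2 * (genusFF k K : ℤ) + |T| * X.S.card + X.exc p H1 T ≤ m := by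
    nlinarith [abs_nonneg (-(T - 1))]
  have h6 := mul_le_mul_of_nonneg_left h5 (show (0 : ℤ) ≤ p by omega)
  have h7 := le_mul_of_one_le_left (mul_nonneg (abs_nonneg T) (Int.natCast_nonneg X.S.card)) hp1
  have h8 := le_mul_of_one_le_left e1 hp1
  have h9 : T * (X.S.card : ℤ) ≤ |T| * X.S.card :=
    mul_le_mul_of_nonneg_right (le_abs_self T) (Int.natCast_nonneg _)
  linarith

/-- Away from the glued points the movement is regular. -/
theorem regular_off (W : FOData X R p ϖ) (hp : p.Prime) (h : X.Pres R p l D y c1 c0) {T : ℤ} {e : L}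
    (he : e ∈ R.M) (he0 : e ≠ 0) (hμ : ϖ ^ (-T) * c1 / (e ^ p * c0) ∈ A)
    (hν : e ^ p * c0 * ϖ ^ T / c1 ∈ A) {κ E : L} (hE0 : E ≠ 0) (hEs : Small π E)
    (hEρ : Small π (R.ρ ^ (p + 1) / E))
    (hδ : E⁻¹ • (κ • W.s (c1 • y)⁻¹ - (c1 • y)⁻¹) ∈ gInt π (ι true))
    {v : Place k K} (hv : v ∉ X.S) :
    OrdGE v (X.red true (E⁻¹ • (κ • W.s (c1 • y)⁻¹ - (c1 • y)⁻¹)) *
      (X.red true (c1 • y)⁻¹)⁻¹) 0 := by
  classical
  have hn := hp.ne_zero
  set H1 := X.red true (c1 • y)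
  obtain ⟨m, hm0, hm, hdeg⟩ := exists_bnd_large hp h T
  -- Lift a `P` of exact order at `v` to a section `w`.
  obtain ⟨P, hP, hP0, hPord⟩ := exists_exact_ord (D := X.bnd p m H1 T) {v} hdeg
  obtain ⟨w, hw, hwR, hwi, -, hwr⟩ :=
    h.lift_true hn W.ϖ_ne W.toNode he he0 hμ hν hm0 hm hP
  set z1 := (c1 • y)⁻¹ with hz1
  obtain ⟨hzp, hzr⟩ := X.prim_inv h.prim_true
  have hz : (0 : L) / E ∈ A := by rw [zero_div]; exact zero_mem A
  obtain ⟨hΦ, hΦr⟩ := W.diff_red hp (b := true) hwR hwi hzp (κ := κ) (ν := 0) hE0 hEs hEρ hz hδ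
  -- The difference `Φ` has poles at `A0` only, and reduction `-P ^ p * H1 * G`.
  set Φ := E⁻¹ • ((1 + (0 : L)) • (W.s w ^ p * (κ • W.s z1)⁻¹) - w ^ p * z1⁻¹) with hΦdef
  have hF : w ^ p * (c1 • y) ∈ riemannRochSpace ((p * m) • X.A0) := h.pow_mul_mem hw c1
  have hΦm : Φ ∈ riemannRochSpace ((p * m) • X.A0) := by
    have h1 := Submodule.smul_mem _ E⁻¹
      (Submodule.sub_mem _ (Submodule.smul_mem _ κ⁻¹ (W.s_rr _ _ hF)) hF)
    convert h1 using 1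
    rw [hΦdef, hz1, add_zero, one_smul, inv_inv, map_mul, map_pow, map_inv₀ W.s,
      ← smul_inv_smul_mul, inv_inv]
  rw [hwr] at hΦr
  rw [show (⟨(0 : L) / E, hz⟩ : A) = 0 from Subtype.ext (zero_div E), map_zero, map_zero, zero_sub,
    hzr, inv_inv] at hΦr
  have hr := X.ordGE_off hΦm hΦ hv
  rw [hΦr, hzr, inv_inv] at *
  set G := X.red true (E⁻¹ • (κ • W.s z1 - z1)) * H1
  rcases eq_or_ne G 0 with hG | hG
  · rw [hG]; exact ordGE_zero _ _
  refine (ordGE_iff_of_ne hG).mpr ?_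
  have hne : P ^ p * H1 * -G ≠ 0 :=
    mul_ne_zero (mul_ne_zero (pow_ne_zero p hP0) h.prim_true.2) (neg_ne_zero.mpr hG)
  have h4 := hr.le_ord hne
  rw [v.ord_mul (mul_ne_zero (pow_ne_zero p hP0) h.prim_true.2) (neg_ne_zero.mpr hG),
    v.ord_mul (pow_ne_zero p hP0) h.prim_true.2, FF.ord_pow, FF.ord_neg,
    hPord v (Finset.mem_singleton_self v)] at h4
  -- Off the glued points `p * bnd = ord H1 + p m B`, which leaves `ord G ≥ 0`.
  obtain ⟨q, hq⟩ := (X.exc_eq hn W.ϖ_ne W.toNode h.y_ne h.div_eq h.prim_true h.prim_false).2.1 v hv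
  have hbnd : (p : ℤ) * X.bnd p m H1 T v = v.ord H1 + ((p * m : ℕ) : ℤ) * X.B v := by
    simp only [Degen.bnd, Finsupp.add_apply, Finsupp.smul_apply, Finsupp.mapRange_apply,
      X.shifted_apply, if_neg hv, sub_zero, nsmul_eq_mul, H1]
    rw [hq, Int.mul_ediv_cancel_left _ (by exact_mod_cast hn)]
    push_cast
    ring
  rw [mul_neg, hbnd] at h4
  linarith

/-- Two scalars with product one have nonzero residues. -/
theorem residue_ne_zero_of_scale {T : ℤ} {e : L} (hϖ : ϖ ≠ 0) (hc1 : c1 ≠ 0) (hc0 : c0 ≠ 0)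
    (he0 : e ≠ 0) (hμ : ϖ ^ (-T) * c1 / (e ^ p * c0) ∈ A) (hν : e ^ p * c0 * ϖ ^ T / c1 ∈ A) :
    π ⟨_, hμ⟩ ≠ 0 := fun h0 => by
  have h1 : π ⟨_, hμ⟩ * π ⟨_, hν⟩ = 1 := by
    rw [← map_mul, show (⟨_, hμ⟩ : A) * ⟨_, hν⟩ = 1 from Subtype.ext (by
      change ϖ ^ (-T) * c1 / (e ^ p * c0) * (e ^ p * c0 * ϖ ^ T / c1) = 1
      rw [zpow_neg]; have := zpow_ne_zero T hϖ; field_simp), map_one]
  rw [h0, zero_mul] at h1
  exact zero_ne_one h1

/-- The test function seen from the two branches. -/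
theorem test_eq_smul {T : ℤ} {e : L} (hϖ : ϖ ≠ 0) (he0 : e ≠ 0) (hc0 : c0 ≠ 0) (w U : F) :
    w ^ p * (c1 • y) * U = (ϖ ^ (-T) * c1 / (e ^ p * c0)) •
      ((e • w) ^ p * (c0 • y) * (ϖ ^ T • U)) := by
  rw [smul_pow]
  simp only [Algebra.smul_def, map_div₀, map_mul, map_pow]
  have a1 : algebraMap L F e ≠ 0 := (_root_.map_ne_zero _).mpr he0
  have a2 : algebraMap L F c0 ≠ 0 := (_root_.map_ne_zero _).mpr hc0
  have a3 : algebraMap L F (ϖ ^ T) ≠ 0 := (_root_.map_ne_zero _).mpr (zpow_ne_zero _ hϖ)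
  rw [zpow_neg, map_inv₀]
  field_simp

/-- The movement of a function glued from two branches. -/
theorem move_test (W : FOData X R p ϖ) {Fn u' z' U' : F} {μ κ1 κ0 E : L} (hμ0 : μ ≠ 0)
    (hκ1 : κ1 ≠ 0) (hκ0 : κ0 ≠ 0) (hsU : W.s U' = U') (hF : Fn = μ • (u' ^ p * z'⁻¹ * U')) :
    E⁻¹ • (κ1⁻¹ • W.s Fn - Fn) = μ • ((E⁻¹ • ((1 + (κ0 / κ1 * (W.σ μ / μ) - 1)) •
      (W.s u' ^ p * (κ0 • W.s z')⁻¹) - u' ^ p * z'⁻¹)) * U') := by
  rw [hF, W.s_smul, map_mul, map_mul, map_pow, hsU, map_inv₀, ← smul_inv_smul_mul (c := κ0)]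
  simp only [Algebra.smul_def, map_add, map_sub, map_mul, map_div₀, map_inv₀, map_one]
  have a1 : algebraMap L F μ ≠ 0 := (_root_.map_ne_zero _).mpr hμ0
  have a2 : algebraMap L F κ0 ≠ 0 := (_root_.map_ne_zero _).mpr hκ0
  have a3 : algebraMap L F κ1 ≠ 0 := (_root_.map_ne_zero _).mpr hκ1
  field_simp
  ring

/-- A glued function which is a unit at `v` on one branch is one at `Qf v` on the other. -/
theorem glued_unit {Fn : F} {n : ℕ} (hO : Fn ∈ X.O) (hm : Fn ∈ riemannRochSpace (n • X.A0))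
    {v : Place k K} (hv : v ∈ X.S) (h0 : X.red true Fn ≠ 0) (hord : v.ord (X.red true Fn) = 0) :
    evalAt v (X.red true Fn) ≠ 0 ∧ X.red false Fn ≠ 0 ∧
      (X.Qf v).ord (X.red false Fn) = 0 := by
  have hgF := X.glue_red hO hm hv
  have hreg1 := X.ordGE_S (X.red_mem_pole (b := true) hO hm) (X.S_B v hv)
  have hreg0 := X.ordGE_S (X.red_mem_pole (b := false) hO hm) (X.Qf_B v hv)
  have ha : evalAt v (X.red true Fn) ≠ 0 := fun h1 => by
    have h2 := ((evalAt_eq_zero_iff hreg1).mp h1).le_ord h0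
    omega
  have hrf0 : X.red false Fn ≠ 0 := fun h1 => ha (by
    rw [hgF, h1]; simpa using evalAt_algebraMap (X.Qf v) (0 : k))
  refine ⟨ha, hrf0, ?_⟩
  have h1 := hreg0.le_ord hrf0
  by_contra h2
  refine ha ?_
  rw [hgF, evalAt_eq_zero_iff hreg0]
  exact (ordGE_iff_of_ne hrf0).mpr (by omega)

omit [IsAlgClosed L] [FF.IsFunctionField L F] in
/-- A factor of a regular product whose other factor is a unit is regular. -/
theorem ordGE_of_mul_unit {v : Place k K} {a b : K} (ha : a ≠ 0) (hord : v.ord a = 0)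
    (h : OrdGE v (a * b) 0) : OrdGE v b 0 := by
  rcases eq_or_ne b 0 with hb | hb
  · rw [hb]; exact ordGE_zero _ _
  refine (ordGE_iff_of_ne hb).mpr ?_
  have := h.le_ord (mul_ne_zero ha hb)
  rwa [v.ord_mul ha hb, hord, zero_add] at this

/-- At a glued point: regularity, the two residues, and the relation of the scales. -/
theorem at_glued (W : FOData X R p ϖ) (hp : p.Prime) (h : X.Pres R p l D y c1 c0) {v : Place k K}
    (hv : v ∈ X.S) {T : ℤ} (hT : T = v.ord (X.red true (c1 • y))) {e : L} (he : e ∈ R.M)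
    (he0 : e ≠ 0) (hμ : ϖ ^ (-T) * c1 / (e ^ p * c0) ∈ A)
    (hν : e ^ p * c0 * ϖ ^ T / c1 ∈ A) {κ1 κ0 E : L} (hκ1 : κ1 ≠ 0) (hκ0 : κ0 ≠ 0) (hE0 : E ≠ 0)
    (hEs : Small π E) (hEρ : Small π (R.ρ ^ (p + 1) / E))
    (hδ1 : E⁻¹ • (κ1 • W.s (c1 • y)⁻¹ - (c1 • y)⁻¹) ∈ gInt π (ι true))
    (hδ0 : E⁻¹ • (κ0 • W.s (c0 • y)⁻¹ - (c0 • y)⁻¹) ∈ gInt π (ι false))
    (hνE : (κ0 / κ1 * (W.σ (ϖ ^ (-T) * c1 / (e ^ p * c0)) / (ϖ ^ (-T) * c1 / (e ^ p * c0))) - 1) / E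
      ∈ A) :
    OrdGE v (X.red true (E⁻¹ • (κ1 • W.s (c1 • y)⁻¹ - (c1 • y)⁻¹)) *
        (X.red true (c1 • y)⁻¹)⁻¹) 0 ∧
      OrdGE (X.Qf v) (X.red false (E⁻¹ • (κ0 • W.s (c0 • y)⁻¹ - (c0 • y)⁻¹)) *
        (X.red false (c0 • y)⁻¹)⁻¹) 0 ∧
      (p : ℤ) ∣ (X.Qf v).ord (X.red false (c0 • y)) + T ∧
      (X.red true (E⁻¹ • (κ1 • W.s (c1 • y)⁻¹ - (c1 • y)⁻¹)) = 0 →
        X.red false (E⁻¹ • (κ0 • W.s (c0 • y)⁻¹ - (c0 • y)⁻¹)) = 0 → π ⟨_, hνE⟩ = 0) := by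
  classical
  have hn := hp.ne_zero
  have hϖ := W.ϖ_ne
  set H1 := X.red true (c1 • y)
  set H0 := X.red false (c0 • y)
  set μ := ϖ ^ (-T) * c1 / (e ^ p * c0) with hμdef
  have hμ0 : μ ≠ 0 := div_ne_zero (mul_ne_zero (zpow_ne_zero _ hϖ) h.c1_ne)
    (mul_ne_zero (pow_ne_zero p he0) h.c0_ne)
  have hμu : π ⟨μ, hμ⟩ ≠ 0 := residue_ne_zero_of_scale hϖ h.c1_ne h.c0_ne he0 hμ hν
  obtain ⟨m, hm0, hm, hdeg⟩ := exists_bnd_large hp h T
  obtain ⟨P, hP, hP0, hPord⟩ := exists_exact_ord (D := X.bnd p m H1 T) {v} hdeg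
  have hPv : v.ord P = 0 := by
    rw [hPord v (Finset.mem_singleton_self v)]
    simp [Degen.bnd, X.shifted_apply, if_pos hv, X.S_B v hv, hT, H1]
  obtain ⟨w, hw, hwR, hwi, hwi0, hwr⟩ :=
    h.lift_true hn hϖ W.toNode he he0 hμ hν hm0 hm hP
  obtain ⟨c, U, ⟨hU, hU1, hU0, hUv, hUQ⟩, hUR, hUs⟩ := W.node v hv T
  set Fn := w ^ p * (c1 • y) * U with hFn
  have hFm : Fn ∈ riemannRochSpace ((p * m + c) • X.A0) := X.mul_mem_rr (h.pow_mul_mem hw c1) hU
  have hFf : Fn = μ • ((e • w) ^ p * (c0 • y) * (ϖ ^ T • U)) := test_eq_smul hϖ he0 h.c0_ne w U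
  have hw' : w ∈ gInt π (ι true) := mem_gInt_of_int hwi
  have hu' : e • w ∈ gInt π (ι false) := mem_gInt_of_int hwi0
  have hFi0 : (e • w) ^ p * (c0 • y) * (ϖ ^ T • U) ∈ gInt π (ι false) :=
    mul_mem (mul_mem (pow_mem hu' p) h.prim_false.1) hU0.1
  have hFt : Fn ∈ gInt π (ι true) := mul_mem (mul_mem (pow_mem hw' p) h.prim_true.1) hU1.1
  have hFO : Fn ∈ X.O := X.mem_O.mpr fun b => by
    cases b; exacts [hFf ▸ X.int_smul hμ hFi0, hFt]
  have hrt : X.red true Fn = P ^ p * H1 * X.red true U := by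
    rw [hFn, X.red_mul (mul_mem (pow_mem hw' p) h.prim_true.1) hU1.1,
      X.red_mul (pow_mem hw' p) h.prim_true.1, X.red_pow hw', hwr]
  have hne1 := mul_ne_zero (pow_ne_zero p hP0) h.prim_true.2
  have hrt0 : X.red true Fn ≠ 0 := hrt ▸ mul_ne_zero hne1 hU1.2
  have hrtv : v.ord (X.red true Fn) = 0 := by
    rw [hrt, v.ord_mul hne1 hU1.2, v.ord_mul (pow_ne_zero p hP0) h.prim_true.2, FF.ord_pow, hPv,
      hUv, hT]
    simp [H1]
  obtain ⟨ha, hrf0, hrfv⟩ := glued_unit hFO hFm hv hrt0 hrtv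
  have hrf : X.red false Fn =
      π ⟨μ, hμ⟩ • (X.red false (e • w) ^ p * H0 * X.red false (ϖ ^ T • U)) := by
    rw [hFf, show μ • ((e • w) ^ p * (c0 • y) * (ϖ ^ T • U)) =
        ((⟨μ, hμ⟩ : A) : L) • ((e • w) ^ p * (c0 • y) * (ϖ ^ T • U)) from rfl,
      X.red_smul _ hFi0, X.red_mul (mul_mem (pow_mem hu' p) h.prim_false.1) hU0.1,
      X.red_mul (pow_mem hu' p) h.prim_false.1, X.red_pow hu']
  have hru : X.red false (e • w) ≠ 0 := fun h0 => hrf0 (by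
    rw [hrf, h0, zero_pow hn, zero_mul, zero_mul, smul_zero])
  have hdvd : (p : ℤ) ∣ (X.Qf v).ord H0 + T := by
    rw [hrf, Algebra.smul_def, (X.Qf v).ord_mul ((_root_.map_ne_zero _).mpr hμu)
      (mul_ne_zero (mul_ne_zero (pow_ne_zero p hru) h.prim_false.2) hU0.2), FF.ord_algebraMap,
      (X.Qf v).ord_mul (mul_ne_zero (pow_ne_zero p hru) h.prim_false.2) hU0.2,
      (X.Qf v).ord_mul (pow_ne_zero p hru) h.prim_false.2, FF.ord_pow, hUQ] at hrfv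
    exact ⟨-(X.Qf v).ord (X.red false (e • w)), by linarith⟩
  -- the derivative
  obtain ⟨hz1p, hz1r⟩ := X.prim_inv h.prim_true
  obtain ⟨hz0p, hz0r⟩ := X.prim_inv h.prim_false
  have hz : (0 : L) / E ∈ A := by rw [zero_div]; exact zero_mem A
  obtain ⟨hΦ1, hΦ1r⟩ := W.diff_red hp (b := true) hwR hwi hz1p (κ := κ1) (ν := 0) hE0 hEs hEρ hz hδ1
  obtain ⟨hΦ0, hΦ0r⟩ := W.diff_red hp (b := false) (R.smul_mem he hwR) hwi0 hz0p (κ := κ0)
    (ν := κ0 / κ1 * (W.σ μ / μ) - 1) hE0 hEs hEρ hνE hδ0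
  set F' := E⁻¹ • (κ1⁻¹ • W.s Fn - Fn) with hF'
  have hF'm : F' ∈ riemannRochSpace ((p * m + c) • X.A0) :=
    Submodule.smul_mem _ _ (Submodule.sub_mem _ (Submodule.smul_mem _ _ (W.s_rr _ _ hFm)) hFm)
  have hF't : F' = (E⁻¹ • ((1 + (0 : L)) • (W.s w ^ p * (κ1 • W.s (c1 • y)⁻¹)⁻¹) -
      w ^ p * ((c1 • y)⁻¹)⁻¹)) * U := by
    rw [hF', hFn, add_zero, one_smul, inv_inv, map_mul, map_mul, map_pow, hUs, map_inv₀ W.s,
      ← smul_inv_smul_mul, inv_inv]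
    simp only [Algebra.smul_def]
    ring
  have hF'f := W.move_test (Fn := Fn) (E := E) (κ1 := κ1) (κ0 := κ0) (z' := (c0 • y)⁻¹) hμ0 hκ1 hκ0
    (by rw [W.s_smul, map_zpow₀, W.ϖ_fix, hUs] : W.s (ϖ ^ T • U) = ϖ ^ T • U)
    (by rw [inv_inv]; exact hFf)
  rw [← hF'] at hF'f
  have hF'O : F' ∈ X.O := X.mem_O.mpr fun b => by
    cases b; exacts [hF'f ▸ X.int_smul hμ (mul_mem hΦ0 hU0.1), hF't ▸ mul_mem hΦ1 hU1.1]
  set d1 := X.red true (E⁻¹ • (κ1 • W.s (c1 • y)⁻¹ - (c1 • y)⁻¹))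
  set d0 := X.red false (E⁻¹ • (κ0 • W.s (c0 • y)⁻¹ - (c0 • y)⁻¹))
  set νb := algebraMap k K (π ⟨_, hνE⟩)
  have h1 : X.red true F' = X.red true Fn * -(d1 * (X.red true (c1 • y)⁻¹)⁻¹) := by
    rw [hF't, X.red_mul hΦ1 hU1.1, hΦ1r,
      show (⟨(0 : L) / E, hz⟩ : A) = 0 from Subtype.ext (zero_div E), map_zero, map_zero, hrt, hwr,
      hz1r, inv_inv]
    ring
  have h0 : X.red false F' =
      X.red false Fn * (νb - d0 * (X.red false (c0 • y)⁻¹)⁻¹) := by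
    have hs : ∀ Φ, Φ ∈ gInt π (ι false) → X.red false (μ • Φ) = π ⟨μ, hμ⟩ • X.red false Φ :=
      fun Φ hΦ => X.red_smul ⟨μ, hμ⟩ hΦ
    rw [hF'f, hs _ (mul_mem hΦ0 hU0.1), X.red_mul hΦ0 hU0.1, hΦ0r, hrf, hz0r, inv_inv,
      Algebra.smul_def (π ⟨μ, hμ⟩), Algebra.smul_def (π ⟨μ, hμ⟩)]
    ring
  have r1 := ordGE_of_mul_unit hrt0 hrtv (h1 ▸ X.ordGE_S
    (X.red_mem_pole (b := true) hF'O hF'm) (X.S_B v hv))
  have r0 := ordGE_of_mul_unit hrf0 hrfv (h0 ▸ X.ordGE_S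
    (X.red_mem_pole (b := false) hF'O hF'm) (X.Qf_B v hv))
  refine ⟨by simpa using r1.neg, ?_, hdvd, fun e1 e0 => ?_⟩
  · have := (ordGE_algebraMap (X.Qf v) (π ⟨_, hνE⟩)).sub r0
    rwa [sub_sub_cancel] at this
  · have g := X.glue_red hF'O hF'm hv
    have hreg0 := X.ordGE_S (X.red_mem_pole (b := false) hFO hFm) (X.Qf_B v hv)
    rw [h1, h0, e1, e0, zero_mul, neg_zero, mul_zero, zero_mul, sub_zero,
      evalAt_mul hreg0 (ordGE_algebraMap _ _), evalAt_algebraMap, ← X.glue_red hFO hFm hv,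
      show evalAt v (0 : K) = 0 by simpa using evalAt_algebraMap v (0 : k)] at g
    exact (mul_eq_zero.mp g.symm).resolve_left ha

/-- The scales `μ_T` of the glued points are units. -/
theorem scale_val (W : FOData X R p ϖ) (hc1 : c1 ≠ 0) {a : ℤ} (hj : R.Val (c0 / c1) (p * a))
    (T : ℤ) :
    R.Val (ϖ ^ (-T) * c1 / ((R.ρ ^ (-T * ((p : ℤ) - 1) - a)) ^ p * c0)) 0 ∧
      R.Val ((R.ρ ^ (-T * ((p : ℤ) - 1) - a)) ^ p * c0 * ϖ ^ T / c1) 0 := by
  have h1 : R.Val ((R.ρ ^ (-T * ((p : ℤ) - 1) - a)) ^ (p : ℤ) * (c0 / c1) * ϖ ^ T)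
      ((-T * ((p : ℤ) - 1) - a) * p + p * a + (p : ℤ) * ((p : ℤ) - 1) * T) :=
    (((R.val_rho _).zpow p).mul hj).mul (W.ϖ_val.zpow T)
  rw [zpow_natCast] at h1
  have h2 : R.Val ((R.ρ ^ (-T * ((p : ℤ) - 1) - a)) ^ p * c0 * ϖ ^ T / c1) 0 := by
    convert h1 using 1
    · ring
    · ring
  refine ⟨?_, h2⟩
  convert h2.inv using 1
  · simp only [zpow_neg]
    have := zpow_ne_zero T W.ϖ_ne
    field_simp
  · simp

/-- The movement of a unit scale is small. -/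
theorem small_scale_move (W : FOData X R p ϖ) {μ κ1 κ0 : L} (hM : μ ∈ R.M) (hval : R.Val μ 0)
    (hκ1s : Small π (κ1 - 1)) (hκ0s : Small π (κ0 - 1)) :
    Small π (κ0 / κ1 * (W.σ μ / μ) - 1) := by
  obtain ⟨x, hx, -⟩ := W.log_val hM hval
  have hκ1u : κ1 ∈ A := by simpa using add_mem hκ1s.1 (one_mem A)
  have hκ1π : π ⟨κ1, hκ1u⟩ = 1 := by
    have h2 := hκ1s.2
    rw [show (⟨κ1 - 1, hκ1s.1⟩ : A) = ⟨κ1, hκ1u⟩ - 1 from rfl, map_sub, map_one] at h2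
    exact sub_eq_zero.mp h2
  have hκ1 : κ1 ≠ 0 := fun h => by
    rw [show (⟨κ1, hκ1u⟩ : A) = 0 from Subtype.ext h, map_zero] at hκ1π
    exact zero_ne_one hκ1π
  have hi : κ1⁻¹ ∈ A :=
    inv_mem_of_map_ne_zero X.surj (a := ⟨κ1, hκ1u⟩) (by rw [hκ1π]; exact one_ne_zero)
  have hy : W.σ μ / μ = 1 + R.ρ * x := by rw [hx, mul_div_cancel_left₀ _ hval.1]
  have e : κ0 / κ1 * (W.σ μ / μ) - 1 =
      ((κ0 - 1) + -(κ1 - 1)) * κ1⁻¹ + R.ρ * ((x : L) * (κ0 * κ1⁻¹)) := by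
    rw [hy]
    field_simp
    ring
  rw [e]
  refine ((hκ0s.add hκ1s.neg).mul hi).add (R.small_rho.mul (mul_mem x.2 (mul_mem ?_ hi)))
  simpa using add_mem hκ0s.1 (one_mem A)

/-- An expansion integral at depth `E` is integral at any depth dividing it. -/
theorem int_smul_of_div (X : Degen π ι K) {b : Bool} {δ : F} {E i : L} (h0 : E = 0 → δ = 0)
    (h1 : E ≠ 0 → ι b (E⁻¹ • δ) ∈ intSeries A) (hle : E / i ∈ A) :
    ι b (i⁻¹ • δ) ∈ intSeries A := by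
  rcases eq_or_ne E 0 with e | e
  · rw [h0 e, smul_zero, map_zero]; exact zero_mem _
  · rw [show i⁻¹ • δ = (E / i) • (E⁻¹ • δ) by
      rw [smul_smul]; congr 1; field_simp, Algebra.smul_def, map_mul]
    exact mul_mem (X.series_algebraMap hle) (h1 e)

/-- The residue characteristic is `p`. -/
theorem natCast_p_eq_zero (W : FOData X R p ϖ) : (p : k) = 0 := by
  have h1 : (p : L) = ((⟨_, W.p_small⟩ : A) : L) * R.ρ ^ (p + 1) :=
    (div_mul_cancel₀ _ (pow_ne_zero _ R.ρ_ne)).symm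
  have h2 : π (p : A) = 0 := by
    rw [show (p : A) = ⟨_, W.p_small⟩ * ⟨R.ρ, R.ρ_A⟩ ^ (p + 1) from
      Subtype.ext (by push_cast; exact h1),
      map_mul, map_pow, R.ρ_small, zero_pow (Nat.succ_ne_zero p), mul_zero]
  rwa [map_natCast] at h2

/-- Scales whose first residues both vanish differ by a power of `ρ ^ p` divisible by `p`. -/
theorem dvd_of_residues_eq_zero (W : FOData X R p ϖ) (hp : p.Prime) {μ μ' κ : L} {i j : ℤ}
    (hμ' : μ' ≠ 0) (hμ : μ = μ' * ϖ ^ j * (R.ρ ^ i) ^ p)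
    (hs : Small π (κ * (W.σ μ' / μ') - 1)) (h1 : (κ * (W.σ μ / μ) - 1) / R.ρ ^ p ∈ A)
    (h1' : (κ * (W.σ μ' / μ') - 1) / R.ρ ^ p ∈ A) (z1 : π ⟨_, h1⟩ = 0) (z1' : π ⟨_, h1'⟩ = 0) :
    (p : ℤ) ∣ i := by
  have := Fact.mk hp
  have : CharP k p := (CharP.charP_iff_prime_eq_zero hp).mpr W.natCast_p_eq_zero
  have hd0 : R.ρ ^ i ≠ 0 := zpow_ne_zero _ R.ρ_ne
  obtain ⟨x, hx, hπx⟩ := W.log_val (zpow_mem R.ρ_mem i) (R.val_rho i)
  obtain ⟨z, hz2, hπz⟩ := W.pow_first hp x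
  set g := W.σ μ' / μ' with hg
  have hgT : W.σ μ / μ = g * (1 + R.ρ ^ p * (z : L)) := by
    rw [hμ, hg, map_mul, map_mul, map_zpow₀, W.ϖ_fix, map_pow, hx, mul_pow, hz2]
    have := zpow_ne_zero j W.ϖ_ne
    field_simp
  have hzero : π z = 0 := by
    have h3 : (⟨_, h1⟩ : A) - ⟨_, h1'⟩ = (1 + ⟨κ * g - 1, hs.1⟩) * z :=
      Subtype.ext (by
        change (κ * (W.σ μ / μ) - 1) / R.ρ ^ p - (κ * g - 1) / R.ρ ^ p = (1 + (κ * g - 1)) * (z : L)
        rw [← sub_div, hgT, show κ * (g * (1 + R.ρ ^ p * (z : L))) - 1 - (κ * g - 1) =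
          R.ρ ^ p * ((1 + (κ * g - 1)) * (z : L)) by ring,
          mul_div_cancel_left₀ _ (pow_ne_zero p R.ρ_ne)])
    have h4 := congrArg π h3
    rw [map_sub, z1, z1', sub_self, map_mul, map_add, map_one, hs.2, add_zero, one_mul] at h4
    exact h4.symm
  rw [hπz] at hzero
  have hi0 : ((i : ℤ) : k) = 0 := by
    have := eq_zero_of_pow_eq_zero hzero
    rw [hπx] at this
    exact (mul_eq_zero.mp this).resolve_right W.c_ne
  rwa [CharP.intCast_eq_zero_iff k p] at hi0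

/-- **First order: the orders at the glued points are congruent modulo `p`.** -/
theorem residues (W : FOData X R p ϖ) (hp : p.Prime) (h : X.Pres R p l D y c1 c0) :
    ∀ s ∈ X.S, ∀ t ∈ X.S, (p : ℤ) ∣
      s.ord (X.red true (c1 • y)) + (X.Qf t).ord (X.red false (c0 • y)) := by
  classical
  intro s0 hs0 t0 ht0
  obtain ⟨j, hj⟩ := R.exists_val (div_mem h.c0_mem h.c1_mem) (div_ne_zero h.c0_ne h.c1_ne)
  obtain ⟨a, rfl⟩ := h.dvd_val hp W ⟨s0, hs0⟩ hj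
  set eT : ℤ → L := fun T => R.ρ ^ (-T * ((p : ℤ) - 1) - a) with heT
  have heM : ∀ T, eT T ∈ R.M := fun T => zpow_mem R.ρ_mem _
  have he0 : ∀ T, eT T ≠ 0 := fun T => zpow_ne_zero _ R.ρ_ne
  set μ : ℤ → L := fun T => ϖ ^ (-T) * c1 / (eT T ^ p * c0) with hμdef
  have hval : ∀ T, R.Val (μ T) 0 ∧ R.Val (eT T ^ p * c0 * ϖ ^ T / c1) 0 :=
    W.scale_val h.c1_ne hj
  have hμA : ∀ T, μ T ∈ A := fun T => (hval T).1.mem le_rfl
  have hνA : ∀ T, eT T ^ p * c0 * ϖ ^ T / c1 ∈ A := fun T => (hval T).2.mem le_rfl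
  set z1 := (c1 • y)⁻¹ with hz1
  set z0 := (c0 • y)⁻¹ with hz0
  obtain ⟨κ1, n1, hκ1, hκ1s, hn1, hco1, E1, hE1s, hE1z, hE1p⟩ :=
    W.exists_kappa (inv_mem_R h h.c1_mem) (inv_int h h.prim_true) (X.prim_inv h.prim_true).1
  obtain ⟨κ0, n0, hκ0, hκ0s, hn0, hco0, E0, hE0s, hE0z, hE0p⟩ :=
    W.exists_kappa (inv_mem_R h h.c0_mem) (inv_int h h.prim_false) (X.prim_inv h.prim_false).1
  set ν : ℤ → L := fun T => κ0 / κ1 * (W.σ (μ T) / μ T) - 1
  have hνs : ∀ T, Small π (ν T) := fun T => W.small_scale_move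
    (div_mem (mul_mem (zpow_mem W.ϖ_mem _) h.c1_mem) (mul_mem (pow_mem (heM T) p) h.c0_mem))
    (hval T).1 hκ1s hκ0s
  -- the worst depth
  obtain ⟨E, hE, hdiv, i, hi, hiE⟩ := exists_div_mem (A := A)
    ({R.ρ ^ p, E1, E0} ∪ X.S.image fun s => ν (s.ord (X.red true (c1 • y)))) id
    ⟨R.ρ ^ p, by simp, pow_ne_zero p R.ρ_ne⟩
  simp only [id_eq] at hiE
  subst hiE
  have hEs : Small π i := by
    simp only [Finset.mem_union, Finset.mem_insert, Finset.mem_singleton, Finset.mem_image] at hi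
    rcases hi with (rfl | rfl | rfl) | ⟨s, -, rfl⟩
    · rw [show R.ρ ^ p = R.ρ * R.ρ ^ (p - 1) by rw [← pow_succ', Nat.sub_add_cancel hp.one_le]]
      exact R.small_rho.mul (pow_mem R.ρ_A _)
    exacts [hE1s, hE0s, hνs _]
  have hEρ : Small π (R.ρ ^ (p + 1) / i) := by
    rw [pow_succ', mul_div_assoc]; exact R.small_rho.mul (hdiv _ (by simp))
  have hδ1 : ι true (i⁻¹ • (κ1 • W.s z1 - z1)) ∈ intSeries A :=
    int_smul_of_div X hE1z (fun e => (hE1p e).1) (hdiv _ (by simp))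
  have hδ0 : ι false (i⁻¹ • (κ0 • W.s z0 - z0)) ∈ intSeries A :=
    int_smul_of_div X hE0z (fun e => (hE0p e).1) (hdiv _ (by simp))
  have hg1 := mem_gInt_of_int (π := π) hδ1
  have hg0 := mem_gInt_of_int (π := π) hδ0
  have hνE : ∀ s ∈ X.S, ν (s.ord (X.red true (c1 • y))) / i ∈ A := fun s hs =>
    hdiv _ (Finset.mem_union_right _ (Finset.mem_image_of_mem _ hs))
  have key := fun s (hs : s ∈ X.S) => W.at_glued hp h hs rfl (heM _) (he0 _) (hμA _) (hνA _)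
    hκ1 hκ0 hE hEs hEρ hg1 hg0 (hνE s hs)
  have hz : X.red true (i⁻¹ • (κ1 • W.s z1 - z1)) = 0 := by
    refine red_eq_zero_of_regular hn1 hδ1 (hco1 i) fun v => ?_
    by_cases hv : v ∈ X.S
    · exact (key v hv).1
    · exact W.regular_off hp h (heM 0) (he0 0) (hμA 0) (hνA 0) hE hEs hEρ hg1 hv
  have hz' : X.red false (i⁻¹ • (κ0 • W.s z0 - z0)) = 0 := by
    refine red_eq_zero_of_regular hn0 hδ0 (hco0 i) fun v => ?_
    by_cases hv : v ∈ X.flip.S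
    · rw [Degen.flip_S, Finset.mem_image] at hv
      obtain ⟨s, hs, rfl⟩ := hv
      exact (key s hs).2.1
    · have h1 : ϖ ^ (-(0 : ℤ)) * c0 / ((eT 0)⁻¹ ^ p * c1) = eT 0 ^ p * c0 * ϖ ^ (0 : ℤ) / c1 := by
        rw [inv_pow]; have := he0 0; simp only [neg_zero, zpow_zero]; field_simp
      have h2 : (eT 0)⁻¹ ^ p * c1 * ϖ ^ (0 : ℤ) / c0 = μ 0 := by
        simp only [hμdef, neg_zero, zpow_zero, inv_pow]; have := he0 0; field_simp
      exact W.flip.regular_off hp h.flip (inv_mem (heM 0)) (inv_ne_zero (he0 0)) (h1 ▸ hνA 0)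
        (h2 ▸ hμA 0) hE hEs hEρ hg0 hv
  have hν0 : ∀ s (hs : s ∈ X.S), π ⟨_, hνE s hs⟩ = 0 := fun s hs => (key s hs).2.2.2 hz hz'
  -- so the worst depth is `ρ ^ p`
  have hiρ : i = R.ρ ^ p := by
    simp only [Finset.mem_union, Finset.mem_insert, Finset.mem_singleton, Finset.mem_image] at hi
    rcases hi with (h1 | h1 | h1) | ⟨s, hs, h1⟩
    · exact h1
    · exact absurd hz (h1 ▸ (hE1p (h1 ▸ hE)).2)
    · exact absurd hz' (h1 ▸ (hE0p (h1 ▸ hE)).2)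
    · exfalso
      have h2 := hν0 s hs
      rw [show (⟨_, hνE s hs⟩ : A) = 1 from Subtype.ext (show ν _ / i = 1 by rw [h1, div_self hE]),
        map_one] at h2
      exact one_ne_zero h2
  subst hiρ
  -- congruence of the first residues
  set T := s0.ord (X.red true (c1 • y))
  set T' := t0.ord (X.red true (c1 • y))
  have hμe : μ T = μ T' * ϖ ^ (T' - T) * (R.ρ ^ ((T - T') * ((p : ℤ) - 1))) ^ p := by
    rw [show R.ρ ^ ((T - T') * ((p : ℤ) - 1)) = eT T' / eT T by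
      simp only [heT]; rw [← zpow_sub₀ R.ρ_ne]; congr 1; ring]
    simp only [hμdef, div_pow, zpow_sub₀ W.ϖ_ne, zpow_neg]
    have := zpow_ne_zero T W.ϖ_ne
    have := zpow_ne_zero T' W.ϖ_ne
    have := he0 T
    have := he0 T'
    field_simp
  have hdvd : (p : ℤ) ∣ T - T' :=
    ((Nat.prime_iff_prime_int.mp hp).dvd_or_dvd (W.dvd_of_residues_eq_zero hp (hval T').1.1 hμe
      (hνs T') (hνE s0 hs0) (hνE t0 ht0) (hν0 s0 hs0) (hν0 t0 ht0))).resolve_right fun h5 =>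
        (Nat.prime_iff_prime_int.mp hp).not_dvd_one (by simpa using dvd_sub dvd_rfl h5)
  obtain ⟨q1, hq1⟩ := hdvd
  obtain ⟨q2, hq2⟩ := (key t0 ht0).2.2.1
  exact ⟨q1 + q2, by rw [mul_add, ← hq1, ← hq2]; ring⟩

end FOData

end Fermat.BAD

end
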