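import Fermat.Agent.BAD.Mono.Count
import Fermat.Agent.BAD.Engine.Sym

/-!
# The excess at every shift

Rescaling `y` by an `n`-th power puts it at any shift `T` (`exists_scaled`). As the bound of `Count`
is the mean over `n` consecutive shifts, it is attained at each, and the orders off the glued
points are divisible by `n` (`exc_eq`). Hence no glued point has order congruent to a shift at
which the reductions split (`not_dvd_of_split`).
-/

set_option autoImplicit false

attribute [local instance 10000] SubalgebraClass.toAlgebra HahnSeries.powerSeriesAlgebra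

noncomputable section

open AlgebraicCurve

namespace Fermat.BAD

open Fermat.FF

variable {L : Type*} [Field L] {A : ValuationSubring L}
variable {k : Type*} [Field k] [IsAlgClosed L] [IsAlgClosed k]
variable {F : Type*} [Field F] [Algebra L F]
variable {π : A →+* k} {ι : Bool → F →+* LaurentSeries L}
  {K : IntermediateField k (LaurentSeries k)}
variable [FF.IsFunctionField L F] [FF.IsFunctionField k K]

namespace Degen

variable (X : Degen π ι K) {n : ℕ} {ϖ : L} {D : Divisor L F} {y : F}

/-- The excess ignores constants and `n`-th powers. -/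
theorem exc_congr {H H' : K} {z : K} {a : k} (hH : H ≠ 0) (hz : z ≠ 0) (ha : a ≠ 0)
    (h : H' = algebraMap k K a * H * z ^ n) (c : ℤ) : X.exc n H' c = X.exc n H c := by
  classical
  rw [exc, exc]
  congr 1
  ext v
  simp only [Finsupp.mapRange_apply, X.shifted_apply]
  rw [h, v.ord_mul (mul_ne_zero ((_root_.map_ne_zero _).mpr ha) hH) (pow_ne_zero n hz),
    v.ord_mul ((_root_.map_ne_zero _).mpr ha) hH, FF.ord_algebraMap, zero_add, FF.ord_pow,
    add_sub_right_comm, Int.add_mul_emod_self_left]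

/-- Scaled models of a divisor with any difference of scales. -/
theorem exists_scaled (hn : n ≠ 0) (hϖ : ϖ ≠ 0) (hy : y ≠ 0) (hdiv : divOf L y = n • D)
    {c1 c0 : L} (h1 : X.Prim true (c1 • y)) (h0 : X.Prim false (c0 • y)) (T : ℤ) :
    ∃ (e : L) (g : F), e ≠ 0 ∧ e ^ n = ϖ ^ (-T) * c1 / c0 ∧ X.Prim true g ∧
      X.Prim false (e • g) ∧ X.Scaled n ϖ (D + divOf L g) (c1 • y * g ^ n) T ∧
      ∀ c, X.exc n (X.red true (c1 • y * g ^ n)) c = X.exc n (X.red true (c1 • y)) c ∧
        X.flip.exc n (X.red false (ϖ ^ (-T) • (c1 • y * g ^ n))) c =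
          X.flip.exc n (X.red false (c0 • y)) c := by
  have hc1 : c1 ≠ 0 := fun h => h1.ne_zero (by rw [h, zero_smul])
  have hc0 : c0 ≠ 0 := fun h => h0.ne_zero (by rw [h, zero_smul])
  obtain ⟨e, he⟩ := IsAlgClosed.exists_pow_nat_eq (ϖ ^ (-T) * c1 / c0) (Nat.pos_of_ne_zero hn)
  have he0 : e ≠ 0 := fun h => by
    rw [h, zero_pow hn] at he
    exact div_ne_zero (mul_ne_zero (zpow_ne_zero _ hϖ) hc1) hc0 he.symm
  obtain ⟨g, hg1, hg0⟩ := X.exists_gauge e he0
  have e2 : ϖ ^ (-T) • (c1 • y * g ^ n) = c0 • y * (e • g) ^ n := by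
    rw [smul_pow, he, smul_mul_smul_comm, smul_mul_assoc, smul_smul, mul_div_cancel₀ _ hc0]
  refine ⟨e, g, he0, he, hg1, hg0, ⟨?_, h1.mul (hg1.pow n), e2 ▸ h0.mul (hg0.pow n)⟩,
    fun c => ⟨?_, ?_⟩⟩
  · ext v
    rw [divOf_apply, v.ord_mul h1.ne_zero (pow_ne_zero n hg1.ne_zero), FF.ord_pow, Algebra.smul_def,
      v.ord_mul ((_root_.map_ne_zero _).mpr hc1) hy, FF.ord_algebraMap, zero_add,
      show v.ord y = (n : ℤ) * D v by rw [← divOf_apply (K := L), hdiv]; simp]
    simp
  · refine X.exc_congr (a := 1) h1.2 hg1.2 one_ne_zero ?_ c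
    rw [map_one, one_mul, X.red_mul h1.1 (pow_mem hg1.1 n), X.red_pow hg1.1]
  · refine X.flip.exc_congr (a := 1) h0.2 hg0.2 one_ne_zero ?_ c
    rw [map_one, one_mul, e2, X.red_mul h0.1 (pow_mem hg0.1 n), X.red_pow hg0.1]

/-- Every shift attains the bound, and the orders away from the glued points are divisible. -/
theorem exc_eq (hn : n ≠ 0) (hϖ : ϖ ≠ 0) (hN : X.Node ϖ) (hy : y ≠ 0)
    (hdiv : divOf L y = n • D) {c1 c0 : L} (h1 : X.Prim true (c1 • y))
    (h0 : X.Prim false (c0 • y)) :
    (∀ T, X.exc n (X.red true (c1 • y)) (T + 1) + X.flip.exc n (X.red false (c0 • y)) (-T) =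
      ((n : ℤ) - 1) * X.S.card) ∧
    (∀ v, v ∉ X.S → (n : ℤ) ∣ v.ord (X.red true (c1 • y))) ∧
    (∀ v, v ∉ X.flip.S → (n : ℤ) ∣ v.ord (X.red false (c0 • y))) := by
  classical
  set H1 := X.red true (c1 • y)
  set H0 := X.red false (c0 • y)
  -- every shift obeys the bound
  have hle : ∀ T, X.exc n H1 (T + 1) + X.flip.exc n H0 (-T) ≤ ((n : ℤ) - 1) * X.S.card := by
    intro T
    obtain ⟨e, g, -, -, -, -, hS, hexc⟩ := X.exists_scaled hn hϖ hy hdiv h1 h0 T
    have := X.exc_add_le hn hϖ hN hS
    rwa [(hexc _).1, (hexc _).2] at this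
  set U1 := (divOf k H1).support ∪ X.S
  set U0 := (divOf k H0).support ∪ X.flip.S
  have hn' : (0 : ℤ) < n := by exact_mod_cast Nat.pos_of_ne_zero hn
  set o1 := ∑ v ∈ U1.filter (fun v => v ∉ X.S), v.ord H1 % (n : ℤ) with ho1
  set o0 := ∑ v ∈ U0.filter (fun v => v ∉ X.flip.S), v.ord H0 % (n : ℤ) with ho0
  -- the sum over a period of shifts exceeds the bound unless the orders divide
  have key : ∀ d : ℤ, 2 * ∑ i ∈ Finset.range n,
      (X.exc n H1 ((d + i) + 1) + X.flip.exc n H0 (-(d + i))) =
        2 * n * ((n : ℤ) - 1) * X.S.card + 2 * n * (o1 + o0) := by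
    intro d
    rw [Finset.sum_add_distrib, mul_add]
    have a1 := X.two_sum_exc hn (H := H1) (U := U1) Finset.subset_union_left
      Finset.subset_union_right (d + 1)
    have a0 := X.flip.two_sum_exc hn (H := H0) (U := U0) Finset.subset_union_left
      Finset.subset_union_right (-d - ((n : ℤ) - 1))
    rw [X.flip_card] at a0
    rw [← Finset.sum_range_reflect] at a0
    rw [Finset.sum_congr rfl fun i _ => by rw [add_right_comm d (i : ℤ) 1], a1]
    have e : ∑ i ∈ Finset.range n, X.flip.exc n H0 (-(d + i)) =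
        ∑ i ∈ Finset.range n, X.flip.exc n H0 (-d - ((n : ℤ) - 1) + ((n - 1 - i : ℕ) : ℤ)) := by
      refine Finset.sum_congr rfl fun i hi => ?_
      rw [Finset.mem_range] at hi
      congr 1
      omega
    rw [e, a0, ho1, ho0]
    ring
  have hsum : ∀ d : ℤ, ∑ i ∈ Finset.range n,
      (X.exc n H1 ((d + i) + 1) + X.flip.exc n H0 (-(d + i))) ≤
        (n : ℤ) * (((n : ℤ) - 1) * X.S.card) := fun d => by
    calc ∑ i ∈ Finset.range n, (X.exc n H1 ((d + i) + 1) + X.flip.exc n H0 (-(d + i)))
        ≤ ∑ _i ∈ Finset.range n, ((n : ℤ) - 1) * X.S.card :=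
          Finset.sum_le_sum fun i _ => hle (d + i)
      _ = _ := by simp
  have ho : ∀ v : Place k K, 0 ≤ v.ord H1 % (n : ℤ) ∧ 0 ≤ v.ord H0 % (n : ℤ) := fun v =>
    ⟨Int.emod_nonneg _ hn'.ne', Int.emod_nonneg _ hn'.ne'⟩
  have p1 : 0 ≤ o1 := Finset.sum_nonneg fun v _ => (ho v).1
  have p0 : 0 ≤ o0 := Finset.sum_nonneg fun v _ => (ho v).2
  -- so the remainders off the glued points vanish
  have hz : o1 = 0 ∧ o0 = 0 := by
    have a := key 0
    have b := hsum 0
    constructor <;> nlinarith
  refine ⟨fun T => ?_, fun v hv => ?_, fun v hv => ?_⟩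
  · by_contra hne
    have hlt := lt_of_le_of_ne (hle T) hne
    have hs : ∑ i ∈ Finset.range n,
        (X.exc n H1 ((T + i) + 1) + X.flip.exc n H0 (-(T + i))) <
          (n : ℤ) * (((n : ℤ) - 1) * X.S.card) := by
      calc ∑ i ∈ Finset.range n, (X.exc n H1 ((T + i) + 1) + X.flip.exc n H0 (-(T + i)))
          < ∑ _i ∈ Finset.range n, ((n : ℤ) - 1) * X.S.card :=
            Finset.sum_lt_sum (fun i _ => hle (T + i))
              ⟨0, Finset.mem_range.mpr (Nat.pos_of_ne_zero hn), by simpa using hlt⟩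
        _ = _ := by simp
    have a := key T
    rw [hz.1, hz.2] at a
    linarith
  · refine Int.dvd_of_emod_eq_zero ?_
    by_cases hU : v ∈ U1
    · exact (Finset.sum_eq_zero_iff_of_nonneg fun w _ => (ho w).1).mp hz.1 v
        (Finset.mem_filter.mpr ⟨hU, hv⟩)
    · rw [show v.ord H1 = 0 by
        rw [← divOf_apply (K := k)]
        exact Finsupp.notMem_support_iff.mp fun h => hU (Finset.mem_union_left _ h)]
      simp
  · refine Int.dvd_of_emod_eq_zero ?_
    by_cases hU : v ∈ U0
    · exact (Finset.sum_eq_zero_iff_of_nonneg fun w _ => (ho w).2).mp hz.2 v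
        (Finset.mem_filter.mpr ⟨hU, hv⟩)
    · rw [show v.ord H0 = 0 by
        rw [← divOf_apply (K := k)]
        exact Finsupp.notMem_support_iff.mp fun h => hU (Finset.mem_union_left _ h)]
      simp

/-- At a split shift no second order is congruent to it. -/
theorem not_dvd_of_split (hn : n ≠ 0) (hϖ : ϖ ≠ 0) (hN : X.Node ϖ) (hy : y ≠ 0)
    (hdiv : divOf L y = n • D) {c1 c0 : L} (h1 : X.Prim true (c1 • y))
    (h0 : X.Prim false (c0 • y)) {T : ℤ} {g : F} (hg : X.Scaled n ϖ (D + divOf L g)
      (c1 • y * g ^ n) T)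
    (hexc : ∀ c, X.exc n (X.red true (c1 • y * g ^ n)) c = X.exc n (X.red true (c1 • y)) c ∧
      X.flip.exc n (X.red false (ϖ ^ (-T) • (c1 • y * g ^ n))) c =
        X.flip.exc n (X.red false (c0 • y)) c)
    (hsplit : ∀ (m : ℕ), ∀ P ∈ X.imgRed (D + divOf L g) m,
      (fun b => cond b (P true) 0) ∈ X.imgRed (D + divOf L g) m)
    {t : Place k K} (ht : t ∈ X.flip.S) :
    ¬ (n : ℤ) ∣ t.ord (X.red false (c0 • y)) + T := by
  classical
  intro hdvd
  -- a split shift bounds the two excesses
  have hb := X.exc_add_le_of_split hn hϖ hN hg hsplit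
  rw [(hexc _).1, (hexc _).2] at hb
  have he := (X.exc_eq hn hϖ hN hy hdiv h1 h0).1 T
  set H0 := X.red false (c0 • y)
  have hn' : (0 : ℤ) < n := by exact_mod_cast Nat.pos_of_ne_zero hn
  set U := (divOf k H0).support ∪ X.flip.S
  have hx := X.flip.exc_eq_sum (n := n) (H := H0) (U := U) Finset.subset_union_left
    Finset.subset_union_right
  -- a step of the shift gains `n` at `t` and loses at most one at each special place
  have hstep : X.flip.exc n H0 (-T) + n ≤ X.flip.exc n H0 (-T + 1) + X.S.card := by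
    rw [hx, hx, ← X.flip_card]
    have hpt : ∀ v ∈ U, X.flip.shifted H0 (-T) v % (n : ℤ) +
        (if v = t then (n : ℤ) else 0) ≤
        X.flip.shifted H0 (-T + 1) v % (n : ℤ) + (if v ∈ X.flip.S then 1 else 0) := by
      intro v _
      rw [X.flip.shifted_apply, X.flip.shifted_apply]
      by_cases hvt : v = t
      · subst hvt
        obtain ⟨q, hq⟩ := hdvd
        rw [if_pos ht, if_pos ht, if_pos ht, if_pos rfl, sub_neg_eq_add,
          hq, Int.mul_emod_right,
          show v.ord H0 - (-T + 1) = ((n : ℤ) - 1) + (n : ℤ) * (q - 1) by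
            rw [mul_sub, ← hq]; ring,
          Int.add_mul_emod_self_left, Int.emod_eq_of_lt (by omega) (by omega)]
        omega
      · by_cases hvS : v ∈ X.flip.S
        · rw [if_pos hvS, if_pos hvS, if_pos hvS, if_neg hvt, add_zero,
            show v.ord H0 - (-T + 1) = (v.ord H0 - -T) + (-1) by ring]
          set a := v.ord H0 - -T
          have b1 := Int.emod_nonneg a hn'.ne'
          have b2 := Int.emod_lt_of_pos a hn'
          rw [← Int.emod_add_emod]
          rcases eq_or_lt_of_le b1 with hb | hb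
          · rw [← hb, zero_add, show (-1 : ℤ) = ((n : ℤ) - 1) + (n : ℤ) * (-1) by ring,
              Int.add_mul_emod_self_left, Int.emod_eq_of_lt (by omega) (by omega)]
            omega
          · rw [Int.emod_eq_of_lt (a := a % (n : ℤ) + -1) (by omega) (by omega)]
            omega
        · rw [if_neg hvS, if_neg hvS, if_neg hvS, if_neg hvt]
    have := Finset.sum_le_sum hpt
    rw [Finset.sum_add_distrib, Finset.sum_add_distrib, Finset.sum_ite_eq' U t,
      if_pos (Finset.mem_union_right _ ht)] at this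
    refine this.trans (le_of_eq ?_)
    congr 1
    rw [← Finset.sum_filter, show U.filter (fun v => v ∈ X.flip.S) = X.flip.S by
      ext v; simp [U]]
    simp
  linarith

end Degen

end Fermat.BAD

end
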