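import Fermat.Agent.BAD.Engine.Residual

/-!
# The two reductions near the glued points

`Node X ϖ` says that at every glued point there are functions with poles at `A₀` whose two scales
differ by any power of `ϖ` and whose two reductions have opposite orders there. Multiplying by
these, and using the gluing, bounds the orders at the glued points of a function by the difference
of its two scales (`ordGE_node`); elsewhere its poles are at `B` (`ordGE_off`).

`Fermat.BAD.Mono` shows that, for a divisor with `n D = div y`, the orders of the two reductions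
of `y` at the glued points are congruent modulo `n` (opposite on the two components):
* `Tube` (this file), `Bound`, `Count`, `Fixed`: the bounds, their excess, attained at every shift;
* `Congr`: the congruence for a class fixed by tame inertia (`residues_of_fixed`);
* `Discrete`, `Twist`, `Attain`: rational sections over a discretely valued field of constants;
* `Depth`, `FirstOrder`: the congruence modulo `p` from inertia moving by first order (`residues`).
-/

set_option autoImplicit false
set_option linter.unusedSectionVars false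

attribute [local instance 10000] SubalgebraClass.toAlgebra HahnSeries.powerSeriesAlgebra

noncomputable section

open AlgebraicCurve

namespace Fermat.BAD

open Fermat.FF Fermat.RED.Model

variable {L : Type*} [Field L] {A : ValuationSubring L}
variable {k : Type*} [Field k] [IsAlgClosed L] [IsAlgClosed k]
variable {F : Type*} [Field F] [Algebra L F]
variable {π : A →+* k} {ι : Bool → F →+* LaurentSeries L}
  {K : IntermediateField k (LaurentSeries k)}
variable [FF.IsFunctionField L F] [FF.IsFunctionField k K]

namespace Degen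

variable (X : Degen π ι K)

/-- `U`, with poles bounded by `c A0`, has scales differing by `ϖ ^ i` and reductions of orders
`-i` and `i` at the glued point `s`. -/
structure IsNodeFun (ϖ : L) (s : Place k K) (i : ℤ) (c : ℕ) (U : F) : Prop where
  /-- The poles are bounded by `c A0`. -/
  mem_rr : U ∈ riemannRochSpace (c • X.A0)
  /-- `U` is primitive on the first component. -/
  prim_true : X.Prim true U
  /-- `ϖ ^ i U` is primitive on the second component. -/
  prim_false : X.Prim false (ϖ ^ i • U)
  /-- The order of the first reduction at `s`. -/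
  ord_true : s.ord (X.red true U) = -i
  /-- The order of the second reduction at the matching point. -/
  ord_false : (X.Qf s).ord (X.red false (ϖ ^ i • U)) = i

/-- The model near every glued point is `u v = ϖ`: for each `i` some function with poles at `A0` has
scales differing by `ϖ ^ i` and reductions of orders `-i` and `i` there. -/
def Node (ϖ : L) : Prop :=
  ∀ s ∈ X.S, ∀ i : ℤ, ∃ (c : ℕ) (U : F), X.IsNodeFun ϖ s i c U

/-- The same curve with the two components exchanged. -/
def flip : Degen π (fun b => ι (!b)) K := by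
  classical
  exact
  { surj := X.surj
    arch := X.arch
    ι_algebraMap := fun b c => X.ι_algebraMap _ c
    A0 := X.A0
    A0_nonneg := X.A0_nonneg
    B := X.B
    B_nonneg := X.B_nonneg
    B_ne := X.B_ne
    deg_A0 := X.deg_A0
    red_mem := fun b f h => X.red_mem (!b) f h
    attained := fun b f hf h => X.attained (!b) f hf h
    denom := fun b f => X.denom (!b) f
    bdd := fun b m f h => X.bdd (!b) m f h
    pole := fun b m f h hm => X.pole (!b) m f (fun b' => by simpa using h (!b')) hm
    -- the gluing is reversed: the points are the images under `X.Qf`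
    S := X.S.image X.Qf
    Qf := fun t => if h : ∃ s ∈ X.S, X.Qf s = t then h.choose else t
    Qf_inj := by
      intro t ht t' ht' e
      obtain ⟨s, hs, rfl⟩ := Finset.mem_image.mp ht
      obtain ⟨s', hs', rfl⟩ := Finset.mem_image.mp ht'
      have h1 : ∃ u ∈ X.S, X.Qf u = X.Qf s := ⟨s, hs, rfl⟩
      have h2 : ∃ u ∈ X.S, X.Qf u = X.Qf s' := ⟨s', hs', rfl⟩
      simp only [dif_pos h1, dif_pos h2] at e
      rw [← h1.choose_spec.2, e, h2.choose_spec.2]
    S_B := fun t ht => by
      obtain ⟨s, hs, rfl⟩ := Finset.mem_image.mp ht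
      exact X.Qf_B s hs
    Qf_B := fun t ht => by
      obtain ⟨s, hs, rfl⟩ := Finset.mem_image.mp ht
      have h1 : ∃ u ∈ X.S, X.Qf u = X.Qf s := ⟨s, hs, rfl⟩
      simp only [dif_pos h1]
      exact X.S_B _ h1.choose_spec.1
    glue := fun m f ht hf hm t htS => by
      obtain ⟨s, hs, rfl⟩ := Finset.mem_image.mp htS
      have h1 : ∃ u ∈ X.S, X.Qf u = X.Qf s := ⟨s, hs, rfl⟩
      have hu : h1.choose = s := X.Qf_inj h1.choose_spec.1 hs h1.choose_spec.2
      simp only [dif_pos h1, hu]
      exact (X.glue m f hf ht hm s hs).symm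
    count := by
      rw [Finset.card_image_of_injOn X.Qf_inj]
      exact X.count }

open scoped Classical in
/-- The glued points of the flipped curve are the images by `Qf`. -/
theorem flip_S : X.flip.S = X.S.image X.Qf := by simp [flip]

/-- Its gluing is the inverse of `Qf`. -/
theorem flip_Qf {s : Place k K} (hs : s ∈ X.S) : X.flip.Qf (X.Qf s) = s := by
  classical
  have h1 : ∃ u ∈ X.S, X.Qf u = X.Qf s := ⟨s, hs, rfl⟩
  change (if h : ∃ u ∈ X.S, X.Qf u = X.Qf s then h.choose else X.Qf s) = s
  rw [dif_pos h1]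
  exact X.Qf_inj h1.choose_spec.1 hs h1.choose_spec.2

/-- Its reductions are those of `X`, exchanged. -/
theorem flip_red (b : Bool) (f : F) : X.flip.red b f = X.red (!b) f := rfl

/-- Its primitive functions are those of `X`, exchanged. -/
theorem flip_prim {b : Bool} {f : F} : X.flip.Prim b f ↔ X.Prim (!b) f := Iff.rfl

/-- It has the same `A0`. -/
theorem flip_A0 : X.flip.A0 = X.A0 := rfl

/-- It has the same `B`. -/
theorem flip_B : X.flip.B = X.B := rfl

variable {X}

/-- The node condition is symmetric in the two components. -/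
theorem Node.flip {ϖ : L} (hϖ : ϖ ≠ 0) (h : X.Node ϖ) : X.flip.Node ϖ := by
  classical
  intro t ht i
  rw [flip_S, Finset.mem_image] at ht
  obtain ⟨s, hs, rfl⟩ := ht
  obtain ⟨c, U, hU, h1, h2, h3, h4⟩ := h s hs (-i)
  refine ⟨c, ϖ ^ (-i) • U, Submodule.smul_mem _ _ hU, X.flip_prim.mpr h2,
    X.flip_prim.mpr ?_, ?_, ?_⟩
  · rwa [smul_smul, ← zpow_add₀ hϖ, add_neg_cancel, zpow_zero, one_smul]
  · rw [flip_red]; simpa using h4
  · rw [flip_red, flip_Qf X hs, smul_smul, ← zpow_add₀ hϖ, add_neg_cancel, zpow_zero, one_smul]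
    simpa using h3

variable (X)

/-- Sections of multiples of `A0` multiply. -/
theorem mul_mem_rr {f g : F} {m c : ℕ} (hf : f ∈ riemannRochSpace (m • X.A0))
    (hg : g ∈ riemannRochSpace (c • X.A0)) : f * g ∈ riemannRochSpace ((m + c) • X.A0) := by
  rw [mem_riemannRochSpace] at hf hg ⊢
  intro v
  refine ((hf v).mul (hg v)).mono (le_of_eq ?_)
  simp only [Finsupp.smul_apply, nsmul_eq_mul, Nat.cast_add]
  ring

/-- The orders at a glued point of a function whose scales differ by `ϖ ^ T`. -/
theorem ordGE_node {ϖ : L} (hϖ : ϖ ≠ 0) (hN : X.Node ϖ) {f : F} {m : ℕ}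
    (hm : f ∈ riemannRochSpace (m • X.A0)) {T : ℤ} (h1 : f ∈ gInt π (ι true))
    (h2 : ϖ ^ (-T) • f ∈ gInt π (ι false)) {s : Place k K} (hs : s ∈ X.S) :
    OrdGE s (X.red true f) T ∧
      (X.red false (ϖ ^ (-T) • f) = 0 → OrdGE s (X.red true f) (T + 1)) := by
  obtain ⟨c, U, hU, hU1, hU2, hU3, -⟩ := hN s hs T
  have hmul : ϖ ^ (-T) • f * (ϖ ^ T • U) = f * U := by
    rw [smul_mul_smul_comm, ← zpow_add₀ hϖ, neg_add_cancel, zpow_zero, one_smul]
  have hi2 : f * U ∈ gInt π (ι false) := hmul ▸ mul_mem h2 hU2.1
  have hO : f * U ∈ X.O := X.mem_O.mpr fun b => by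
    cases b; exacts [hi2, mul_mem h1 hU1.1]
  have hLm := X.mul_mem_rr hm hU
  have hr := X.ordGE_S (X.red_mem_pole (b := true) hO hLm) (X.S_B s hs)
  rcases eq_or_ne (X.red true f) 0 with h0 | h0
  · rw [h0]; exact ⟨ordGE_zero _ _, fun _ => ordGE_zero _ _⟩
  rw [X.red_mul h1 hU1.1] at hr
  have hne := mul_ne_zero h0 hU1.2
  have hord := hr.le_ord hne
  rw [s.ord_mul h0 hU1.2, hU3] at hord
  refine ⟨(ordGE_iff_of_ne h0).mpr (by omega), fun hz => ?_⟩
  have hval := X.glue_red hO hLm hs
  rw [← hmul] at hval
  rw [X.red_mul h2 hU2.1, hz, zero_mul, hmul, X.red_mul h1 hU1.1] at hval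
  rw [show evalAt (X.Qf s) (0 : K) = 0 by simpa using evalAt_algebraMap (X.Qf s) (0 : k),
    evalAt_eq_zero_iff hr] at hval
  have hord' := hval.le_ord hne
  rw [s.ord_mul h0 hU1.2, hU3] at hord'
  exact (ordGE_iff_of_ne h0).mpr (by omega)

/-- At a point which is not glued there is an integral function with poles at `A0` whose
reduction is zero on the second component and has exactly the allowed pole there on the first. -/
theorem exists_small_true {v : Place k K} (hv : v ∉ X.S) :
    ∃ (c : ℕ) (g : F), g ∈ riemannRochSpace (c • X.A0) ∧ g ∈ X.O ∧ X.red false g = 0 ∧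
      X.red true g ≠ 0 ∧ v.ord (X.red true g) = -((c : ℤ) * X.B v) := by
  classical
  have hd := X.le_degree_nsmul_B X.N0
  set E := X.N0 • X.B - ∑ t ∈ X.S, Finsupp.single t (1 : ℤ) with hE
  obtain ⟨z, hz, hz0, hzv⟩ := exists_exact_ord (D := E) {v} (by
    rw [hE, map_sub, degree_single_sum]; unfold N0 at hd ⊢; omega)
  obtain ⟨g, hg, hgO, hgf, hgt⟩ := X.exists_lift_of_vanishing hz
  refine ⟨X.N0, g, hg, hgO, hgf, hgt.symm ▸ hz0, ?_⟩
  rw [hgt]
  show v.ord z = _
  rw [hzv v (Finset.mem_singleton_self v), hE, Finsupp.sub_apply, sum_single_apply, if_neg hv]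
  simp

/-- Away from the glued points a one-sided reduction has its poles at `B`. -/
theorem ordGE_off {f : F} {m : ℕ} (hm : f ∈ riemannRochSpace (m • X.A0))
    (hf : f ∈ gInt π (ι true)) {v : Place k K} (hv : v ∉ X.S) :
    OrdGE v (X.red true f) (-((m : ℤ) * X.B v)) := by
  rcases eq_or_ne (X.red true f) 0 with h0 | h0
  · rw [h0]; exact ordGE_zero _ _
  have hfne : f ≠ 0 := fun h => h0 (by rw [h, X.red_zero])
  -- Take `g` vanishing on `false` whose reduction on `true` has order `-c B v` at `v`.
  obtain ⟨c, g, hg, hgO, hgf, hgt, hgv⟩ := X.exists_small_true hv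
  have hgne : g ≠ 0 := fun h => hgt (by rw [h, X.red_zero])
  obtain ⟨d, hd, hpd⟩ := X.exists_smul_prim false hgne
  obtain ⟨e, he, hpe⟩ := X.exists_smul_prim false hfne
  have hdA : d ∉ A := fun h => hpd.2 (by
    rw [show d • g = ((⟨d, h⟩ : A) : L) • g from rfl, X.red_smul _ (X.int_of_mem_O hgO false),
      hgf, smul_zero])
  set a : A := ⟨d⁻¹, (A.mem_or_inv_mem d).resolve_left hdA⟩
  have ha0 : π a = 0 := X.eq_zero_of_inv_notMem (by simpa [a] using hdA)
  -- A power of `g` makes `f * g ^ N` integral on both components.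
  obtain ⟨N, hN⟩ : ∃ N : ℕ, e⁻¹ * d⁻¹ ^ N ∈ A := by
    rcases A.mem_or_inv_mem e with h | h
    · have hne : (⟨e, h⟩ : A) ≠ 0 := fun h0 => he (congrArg Subtype.val h0)
      obtain ⟨N, z, hz⟩ := X.arch a ha0 ⟨e, h⟩ hne
      refine ⟨N, ?_⟩
      have h' : d⁻¹ ^ N = e * (z : L) := congrArg Subtype.val hz
      rw [h', ← mul_assoc, inv_mul_cancel₀ he, one_mul]
      exact z.2
    · exact ⟨0, by simpa using h⟩
  have hi : f * g ^ N ∈ gInt π (ι false) := by
    have h2 := X.int_smul hN (mul_mem hpe.1 (pow_mem hpd.1 N))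
    rwa [smul_pow, smul_mul_smul_comm, smul_smul, show e⁻¹ * d⁻¹ ^ N * (e * d ^ N) = 1 by
      rw [inv_pow]; field_simp, one_smul] at h2
  have hO : f * g ^ N ∈ X.O := X.mem_O.mpr fun b => by
    cases b; exacts [hi, mul_mem hf (pow_mem (X.int_of_mem_O hgO true) N)]
  have hgN : g ^ N ∈ riemannRochSpace ((N * c) • X.A0) := by
    clear hN hi hO
    induction N with
    | zero => simpa using (mem_riemannRochSpace.mpr fun w => by simpa using ordGE_one w)
    | succ N ih =>
      rw [pow_succ, Nat.succ_mul]
      exact X.mul_mem_rr ih hg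
  -- The poles of its reduction are at most `(m + N c) B`; subtract those of `g ^ N`.
  have hr := mem_riemannRochSpace.mp (X.red_mem_pole (b := true) hO (X.mul_mem_rr hm hgN)) v
  rw [X.red_mul hf (pow_mem (X.int_of_mem_O hgO true) N), X.red_pow (X.int_of_mem_O hgO true)] at hr
  have hne := mul_ne_zero h0 (pow_ne_zero N hgt)
  have hord := hr.le_ord hne
  rw [v.ord_mul h0 (pow_ne_zero N hgt), FF.ord_pow, hgv] at hord
  refine (ordGE_iff_of_ne h0).mpr ?_
  simp only [Finsupp.smul_apply, nsmul_eq_mul, Nat.cast_add, Nat.cast_mul] at hord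
  nlinarith

end Degen

end Fermat.BAD

end
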